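import Mathlib
import Fermat.Prelude.Def_FLTPrelim_FreyPackage

/-!
# Elementary facts on the integral Frey model
-/

set_option autoImplicit false

namespace Fermat.Agent.Mazur

variable (P : FreyPackage)

theorem four_dvd_num : (4 : ℤ) ∣ P.b ^ P.p - 1 - P.a ^ P.p := by
  have h4 : ((P.b ^ P.p - 1 - P.a ^ P.p : ℤ) : ZMod 4) = 0 := by
    obtain ⟨k, hk⟩ := P.hp_odd
    obtain ⟨m, hm⟩ := (ZMod.intCast_zmod_eq_zero_iff_dvd P.b 2).1 P.hb2
    have hb : ((P.b : ZMod 4)) ^ P.p = 0 := by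
      obtain ⟨j, hj⟩ : ∃ j, P.p = j + 2 := ⟨P.p - 2, by have := P.hp5; omega⟩
      rw [hj, pow_add, hm]; push_cast
      rw [show ((2 : ZMod 4) * (m : ZMod 4)) ^ 2 = 4 * (m : ZMod 4) ^ 2 by ring,
        show (4 : ZMod 4) = 0 from rfl, zero_mul, mul_zero]
    have ha : ((P.a : ZMod 4)) ^ P.p = 3 := by
      rw [P.ha4, hk, pow_succ, pow_mul, show (3 : ZMod 4) ^ 2 = 1 by decide, one_pow, one_mul]
    push_cast
    rw [hb, ha]; decide
  exact (ZMod.intCast_zmod_eq_zero_iff_dvd _ 4).1 h4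

theorem thirtytwo_dvd_pow : (32 : ℤ) ∣ P.b ^ P.p := by
  obtain ⟨m, hm⟩ := (ZMod.intCast_zmod_eq_zero_iff_dvd P.b 2).1 P.hb2
  have : (2 : ℤ) ^ 5 ∣ P.b ^ P.p := by
    refine dvd_trans ?_ (pow_dvd_pow P.b P.hp5)
    exact pow_dvd_pow_of_dvd ⟨m, by simpa using hm⟩ 5
  simpa using this

theorem freyCurveInt_map : P.freyCurveInt.map (Int.castRingHom ℚ) = P.freyCurve := by
  have h4 := four_dvd_num P
  have h16 : (16 : ℤ) ∣ -(P.a ^ P.p) * P.b ^ P.p :=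
    (dvd_trans ⟨2, rfl⟩ (thirtytwo_dvd_pow P)).mul_left _
  ext <;> simp [FreyPackage.freyCurveInt, FreyPackage.freyCurve]
  · rw [Int.cast_div h4 (by norm_num)]; push_cast; ring
  · rw [show -(P.a ^ P.p * P.b ^ P.p) = -(P.a ^ P.p) * P.b ^ P.p by ring,
      Int.cast_div h16 (by norm_num)]
    push_cast; ring

theorem freyCurve_delta :
    P.freyCurve.Δ = ((((P.a * P.b * P.c) ^ P.p : ℤ) : ℚ) / 16) ^ 2 := by
  have h : (P.a : ℚ) ^ P.p + (P.b : ℚ) ^ P.p = (P.c : ℚ) ^ P.p := by exact_mod_cast P.hFLT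
  simp only [FreyPackage.freyCurve, WeierstrassCurve.Δ, WeierstrassCurve.b₂, WeierstrassCurve.b₄,
    WeierstrassCurve.b₆, WeierstrassCurve.b₈]
  push_cast [mul_pow]
  rw [← h]; ring

theorem freyCurve_delta_ne_zero : P.freyCurve.Δ ≠ 0 := by
  rw [freyCurve_delta]
  exact pow_ne_zero 2 (div_ne_zero (Int.cast_ne_zero.2 (pow_ne_zero _ P.habc0)) (by norm_num))

theorem freyCurve_c4_odd : ∃ k : ℤ, P.freyCurve.c₄ = ((2 * k + 1 : ℤ) : ℚ) := by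
  have hb2 : P.freyCurveInt.b₂ = 1 + 4 * P.freyCurveInt.a₂ := by
    simp [WeierstrassCurve.b₂, FreyPackage.freyCurveInt]
  refine ⟨4 * P.freyCurveInt.a₂ + 8 * P.freyCurveInt.a₂ ^ 2 - 12 * P.freyCurveInt.b₄, ?_⟩
  rw [← freyCurveInt_map P, WeierstrassCurve.map_c₄, eq_intCast, Int.cast_inj,
    WeierstrassCurve.c₄, hb2]
  ring

theorem freyCurve_delta_even : ∃ k : ℤ, P.freyCurve.Δ = ((2 * k : ℤ) : ℚ) := by
  obtain ⟨m, hm⟩ := thirtytwo_dvd_pow P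
  refine ⟨2 * ((P.a * P.c) ^ P.p * m) ^ 2, ?_⟩
  rw [freyCurve_delta, show ((P.a * P.b * P.c) ^ P.p : ℤ) = (P.a * P.c) ^ P.p * P.b ^ P.p by ring, hm]
  push_cast; ring

/-- No relation `c₄³ = k Δ` with integral `k` holds for the Frey curve. -/
theorem freyCurve_c4_cube_ne (k : ℤ) : P.freyCurve.c₄ ^ 3 ≠ (k : ℚ) * P.freyCurve.Δ := by
  obtain ⟨m, hm⟩ := freyCurve_c4_odd P
  obtain ⟨n, hn⟩ := freyCurve_delta_even P
  intro h
  rw [hm, hn] at h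
  have h' : (2 * m + 1) ^ 3 = k * (2 * n) := by exact_mod_cast h
  have : (2 : ℤ) ∣ (2 * m + 1) ^ 3 := ⟨k * n, by rw [h']; ring⟩
  have := Int.prime_two.dvd_of_dvd_pow this
  omega

end Fermat.Agent.Mazur
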