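import Mathlib

/-!
The cubic field `ℚ(β)`, `β³ - 2β² + 2 = 0`, of discriminant `-44`:
its integers are `ℤ[β]`, its class number is one and its units modulo squares
are `±1, ±(β - 1)`.
-/

open Module NumberField

namespace Fermat.Agent.Mazur

/-- A cubic field with power basis `1, β, β²` where `β³ - 2β² + 2 = 0`. -/
structure Cubic44 (K : Type) [Field K] [NumberField K] where
  β : K
  hβ : β ^ 3 - 2 * β ^ 2 + 2 = 0
  B : Basis (Fin 3) ℚ K
  B0 : B 0 = 1
  B1 : B 1 = β
  B2 : B 2 = β ^ 2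

namespace Cubic44

variable {K : Type} [Field K] [NumberField K] (C : Cubic44 K)

/-- `a + bβ + cβ²`. -/
def el (a b c : ℚ) : K := (a : K) + (b : K) * C.β + (c : K) * C.β ^ 2

theorem el_eq_sum (a b c : ℚ) : C.el a b c = ∑ i, ![a, b, c] i • C.B i := by
  simp [el, Fin.sum_univ_three, C.B0, C.B1, C.B2, Rat.smul_def]

theorem repr_el (a b c : ℚ) : ⇑(C.B.repr (C.el a b c)) = ![a, b, c] := by
  rw [el_eq_sum]; exact C.B.repr_sum_self _

theorem el_injective {a b c a' b' c' : ℚ} (h : C.el a b c = C.el a' b' c') :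
    a = a' ∧ b = b' ∧ c = c' := by
  have h' : ![a, b, c] = ![a', b', c'] := by
    rw [← C.repr_el a b c, ← C.repr_el a' b' c', h]
  exact ⟨congrFun h' 0, congrFun h' 1, congrFun h' 2⟩

theorem exists_el (z : K) : ∃ a b c : ℚ, z = C.el a b c := by
  refine ⟨C.B.repr z 0, C.B.repr z 1, C.B.repr z 2, ?_⟩
  conv_lhs => rw [← C.B.sum_repr z]
  simp [el, Fin.sum_univ_three, C.B0, C.B1, C.B2, Rat.smul_def]

theorem el_mul_beta (a b c : ℚ) : C.el a b c * C.β = C.el (-2 * c) a (b + 2 * c) := by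
  simp only [el]; push_cast; linear_combination (c : K) * C.hβ

theorem el_mul (a b c a' b' c' : ℚ) : C.el a b c * C.el a' b' c' =
    C.el (a * a' - 2 * (b * c' + c * b') - 4 * (c * c'))
      (a * b' + b * a' - 2 * (c * c'))
      (a * c' + b * b' + c * a' + 2 * (b * c' + c * b') + 4 * (c * c')) := by
  simp only [el]; push_cast
  linear_combination ((b : K) * c' + (c : K) * b' + (c : K) * c' * (C.β + 2)) * C.hβ

/-- Norm form of `a + bβ + cβ²`. -/
def nf {R : Type*} [CommRing R] (a b c : R) : R :=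
  a * (a * (a + 2 * b + 4 * c) + 2 * c * (b + 2 * c))
    + 2 * c * (b * (a + 2 * b + 4 * c) + 2 * c * c)
    + (-2 * b - 4 * c) * (b * (b + 2 * c) - a * c)

theorem leftMul_el (a b c : ℚ) : LinearMap.toMatrix C.B C.B (Algebra.lmul ℚ K (C.el a b c)) =
    !![a, -2 * c, -2 * b - 4 * c; b, a, -2 * c; c, b + 2 * c, a + 2 * b + 4 * c] := by
  have h1 := C.el_mul_beta a b c
  have h2 := C.el_mul_beta (-2 * c) a (b + 2 * c)
  ext i j
  rw [LinearMap.toMatrix_apply]
  have : (Algebra.lmul ℚ K (C.el a b c)) (C.B j) = C.el a b c * C.B j := rfl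
  rw [this]
  fin_cases j
  · simp only [Fin.zero_eta, C.B0, mul_one, repr_el]; fin_cases i <;> simp
  · simp only [Fin.mk_one, C.B1, h1, repr_el]; fin_cases i <;> simp
  · show C.B.repr (C.el a b c * C.B 2) i = _
    rw [C.B2, pow_two, ← mul_assoc, h1, h2, repr_el]
    fin_cases i <;> simp <;> ring

theorem trace_el (a b c : ℚ) : Algebra.trace ℚ K (C.el a b c) = 3 * a + 2 * b + 4 * c := by
  rw [Algebra.trace_eq_matrix_trace C.B, Algebra.leftMulMatrix_apply, leftMul_el]
  simp [Matrix.trace_fin_three]; ring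

theorem norm_el (a b c : ℚ) : Algebra.norm ℚ (C.el a b c) = nf a b c := by
  rw [Algebra.norm_eq_matrix_det C.B, Algebra.leftMulMatrix_apply, leftMul_el, Matrix.det_fin_three]
  simp [nf]; ring

theorem isIntegral_beta : IsIntegral ℤ C.β :=
  ⟨Polynomial.X ^ 3 - 2 * Polynomial.X ^ 2 + 2, by monicity!, by simpa using C.hβ⟩

theorem isIntegral_el (a b c : ℤ) : IsIntegral ℤ (C.el a b c) := by
  simp only [el, Rat.cast_intCast]
  exact ((isIntegral_algebraMap (x := a)).add ((isIntegral_algebraMap (x := b)).mul C.isIntegral_beta)).add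
    ((isIntegral_algebraMap (x := c)).mul (C.isIntegral_beta.pow 2))

theorem int_of_integral {q : ℚ} (h : IsIntegral ℤ q) : ∃ n : ℤ, (n : ℚ) = q :=
  IsIntegrallyClosed.isIntegral_iff.1 h

theorem trace_int {z : K} (h : IsIntegral ℤ z) : ∃ n : ℤ, (n : ℚ) = Algebra.trace ℚ K z :=
  int_of_integral (Algebra.isIntegral_trace h)

theorem norm_int {z : K} (h : IsIntegral ℤ z) : ∃ n : ℤ, (n : ℚ) = Algebra.norm ℚ z :=
  int_of_integral (Algebra.isIntegral_norm ℚ h)

/-- Halving: an integral `z` with `2z ∈ ℤ[β]` is in `ℤ[β]`. -/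
theorem half {z : K} (hz : IsIntegral ℤ z) {a b c : ℤ} (h : 2 * z = C.el a b c) :
    ∃ a' b' c' : ℤ, z = C.el a' b' c' := by
  have hz' : z = C.el (a / 2 : ℚ) (b / 2 : ℚ) (c / 2 : ℚ) := by
    refine mul_left_cancel₀ (two_ne_zero (α := K)) ?_
    rw [h]; simp only [el]; push_cast; ring
  obtain ⟨n, hn⟩ := norm_int hz
  rw [hz', C.norm_el] at hn
  have h8 : (8 * n : ℤ) = nf a b c := by
    have : ((8 * n : ℤ) : ℚ) = ((nf a b c : ℤ) : ℚ) := by
      push_cast [hn, nf]; ring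
    exact_mod_cast this
  have key : ∀ x y w : ZMod 8, nf x y w = 0 →
      (4 : ZMod 8) * x = 0 ∧ (4 : ZMod 8) * y = 0 ∧ (4 : ZMod 8) * w = 0 := by
    unfold nf; decide
  have h0 : nf (a : ZMod 8) (b : ZMod 8) (c : ZMod 8) = 0 := by
    have := congrArg (Int.cast : ℤ → ZMod 8) h8.symm
    simp only [nf] at this ⊢
    push_cast at this
    rw [show (8 : ZMod 8) = 0 from rfl, zero_mul] at this
    exact this
  obtain ⟨ha, hb, hc⟩ := key _ _ _ h0
  have ev : ∀ x : ℤ, (4 : ZMod 8) * x = 0 → (2 : ℤ) ∣ x := by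
    intro x hx
    have : ((4 * x : ℤ) : ZMod 8) = 0 := by push_cast; exact hx
    rw [ZMod.intCast_zmod_eq_zero_iff_dvd] at this
    omega
  obtain ⟨a', rfl⟩ := ev a ha
  obtain ⟨b', rfl⟩ := ev b hb
  obtain ⟨c', rfl⟩ := ev c hc
  exact ⟨a', b', c', by rw [hz']; push_cast; congr 1 <;> ring⟩

theorem exists_intCoeff {z : K} (hz : IsIntegral ℤ z) : ∃ a b c : ℤ, z = C.el a b c := by
  obtain ⟨a, b, c, rfl⟩ := C.exists_el z
  obtain ⟨t, ht⟩ := trace_int hz
  obtain ⟨u, hu⟩ := trace_int (hz.mul C.isIntegral_beta)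
  obtain ⟨w, hw⟩ := trace_int ((hz.mul C.isIntegral_beta).mul C.isIntegral_beta)
  obtain ⟨m, hm⟩ := trace_int (hz.mul hz)
  rw [C.trace_el] at ht
  rw [C.el_mul_beta, C.trace_el] at hu
  rw [C.el_mul_beta, C.el_mul_beta, C.trace_el] at hw
  rw [C.el_mul, C.trace_el] at hm
  -- solve the linear system: `44 a, 44 b, 44 c` are integers
  obtain ⟨A, hA⟩ : ∃ A : ℤ, (A : ℚ) = 44 * a :=
    ⟨4 * t - 8 * u + 12 * w, by push_cast [ht, hu, hw]; ring⟩
  obtain ⟨Bc, hB⟩ : ∃ A : ℤ, (A : ℚ) = 44 * b :=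
    ⟨-8 * t + 16 * u - 2 * w, by push_cast [ht, hu, hw]; ring⟩
  obtain ⟨Cc, hC⟩ : ∃ A : ℤ, (A : ℚ) = 44 * c :=
    ⟨12 * t - 2 * u - 8 * w, by push_cast [ht, hu, hw]; ring⟩
  -- the part at 11
  have h11 : (11 : ℤ) ∣ A ∧ (11 : ℤ) ∣ Bc ∧ (11 : ℤ) ∣ Cc := by
    have eA : A = 4 * t - 8 * u + 12 * w := by
      have : (A : ℚ) = ((4 * t - 8 * u + 12 * w : ℤ) : ℚ) := by push_cast [hA, ht, hu, hw]; ring
      exact_mod_cast this
    have eB : Bc = -8 * t + 16 * u - 2 * w := by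
      have : (Bc : ℚ) = ((-8 * t + 16 * u - 2 * w : ℤ) : ℚ) := by push_cast [hB, ht, hu, hw]; ring
      exact_mod_cast this
    have eC : Cc = 12 * t - 2 * u - 8 * w := by
      have : (Cc : ℚ) = ((12 * t - 2 * u - 8 * w : ℤ) : ℚ) := by push_cast [hC, ht, hu, hw]; ring
      exact_mod_cast this
    have em : A * t + Bc * u + Cc * w = 44 * m := by
      have : ((A * t + Bc * u + Cc * w : ℤ) : ℚ) = ((44 * m : ℤ) : ℚ) := by
        push_cast [hA, hB, hC, ht, hu, hw, hm]; ring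
      exact_mod_cast this
    have key : ∀ t u w : ZMod 11, (4 * t - 8 * u + 12 * w) * t + (-8 * t + 16 * u - 2 * w) * u
        + (12 * t - 2 * u - 8 * w) * w = 0 →
        4 * t - 8 * u + 12 * w = 0 ∧ -8 * t + 16 * u - 2 * w = 0 ∧
          12 * t - 2 * u - 8 * w = 0 := by decide
    have hm' := congrArg (Int.cast : ℤ → ZMod 11) em
    rw [eA, eB, eC] at hm' ⊢
    push_cast at hm'
    rw [show (44 : ZMod 11) = 0 from rfl, zero_mul] at hm'
    obtain ⟨k1, k2, k3⟩ := key _ _ _ hm'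
    refine ⟨?_, ?_, ?_⟩ <;> refine (ZMod.intCast_zmod_eq_zero_iff_dvd _ 11).1 ?_ <;> push_cast
    · exact k1
    · exact k2
    · exact k3
  obtain ⟨⟨A', rfl⟩, ⟨B', rfl⟩, ⟨C', rfl⟩⟩ := h11
  have h4 : 2 * (2 * C.el a b c) = C.el (A' : ℚ) (B' : ℚ) (C' : ℚ) := by
    push_cast at hA hB hC
    rw [show (A' : ℚ) = 4 * a by linarith, show (B' : ℚ) = 4 * b by linarith,
      show (C' : ℚ) = 4 * c by linarith]
    simp only [el]; push_cast; ring
  obtain ⟨a₂, b₂, c₂, h2⟩ := C.half ((isIntegral_algebraMap (x := (2 : ℤ))).mul hz |> fun h => by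
    simpa using h) h4
  exact C.half hz h2

/-- The element `a + bβ + cβ²` of `𝓞 K`. -/
noncomputable def oel (a b c : ℤ) : 𝓞 K := ⟨C.el a b c, C.isIntegral_el a b c⟩

@[simp] theorem coe_oel (a b c : ℤ) : ((C.oel a b c : 𝓞 K) : K) = C.el a b c := rfl

theorem exists_oel (z : 𝓞 K) : ∃ a b c : ℤ, z = C.oel a b c := by
  obtain ⟨a, b, c, h⟩ := C.exists_intCoeff z.2
  exact ⟨a, b, c, RingOfIntegers.ext h⟩

theorem oel_injective {a b c a' b' c' : ℤ} (h : C.oel a b c = C.oel a' b' c') :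
    a = a' ∧ b = b' ∧ c = c' := by
  have h' := congrArg (fun x : 𝓞 K => (x : K)) h
  obtain ⟨h1, h2, h3⟩ := C.el_injective h'
  exact ⟨by exact_mod_cast h1, by exact_mod_cast h2, by exact_mod_cast h3⟩

include C in
theorem finrank_eq : finrank ℚ K = 3 := by
  rw [finrank_eq_card_basis C.B, Fintype.card_fin]

/-- The integral basis `1, β, β²`. -/
noncomputable def obasis : Basis (Fin 3) ℤ (𝓞 K) :=
  Basis.ofEquivFun (LinearEquiv.symm (LinearEquiv.ofBijective
    ({ toFun := fun v => C.oel (v 0) (v 1) (v 2)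
       map_add' := fun v w => RingOfIntegers.ext (by simp [el]; ring)
       map_smul' := fun r v => RingOfIntegers.ext (by simp [el]; ring) } : (Fin 3 → ℤ) →ₗ[ℤ] 𝓞 K)
    ⟨fun v w h => by
      obtain ⟨h0, h1, h2⟩ := C.oel_injective h
      funext i; fin_cases i <;> assumption,
     fun z => by
      obtain ⟨a, b, c, rfl⟩ := C.exists_oel z
      exact ⟨![a, b, c], rfl⟩⟩))

theorem obasis_apply (i : Fin 3) : ((C.obasis i : 𝓞 K) : K) = C.B i := by
  have h : C.obasis i = C.oel ((Pi.single i (1 : ℤ) : Fin 3 → ℤ) 0)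
      ((Pi.single i (1 : ℤ) : Fin 3 → ℤ) 1) ((Pi.single i (1 : ℤ) : Fin 3 → ℤ) 2) := by
    rw [obasis, Basis.coe_ofEquivFun]; rfl
  rw [h, coe_oel]
  fin_cases i <;> simp [el, C.B0, C.B1, C.B2]

theorem discr_B : Algebra.discr ℚ C.B = -44 := by
  have hB : ∀ i, C.B i = C.el (![1, 0, 0] i) (![0, 1, 0] i) (![0, 0, 1] i) := by
    intro i; fin_cases i <;> simp [el, C.B0, C.B1, C.B2]
  have : Algebra.traceMatrix ℚ C.B = !![3, 2, 4; 2, 4, 2; 4, 2, 0] := by
    ext i j
    rw [Algebra.traceMatrix_apply, Algebra.traceForm_apply, hB i, hB j, C.el_mul, C.trace_el]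
    fin_cases i <;> fin_cases j <;> norm_num
  rw [Algebra.discr_def, this]; simp [Matrix.det_fin_three]; norm_num

include C in
theorem discr_eq : discr K = -44 := by
  have h : (fun i => algebraMap (𝓞 K) K (C.obasis i)) = C.B := funext C.obasis_apply
  have h' : C.obasis.localizationLocalization ℚ (nonZeroDivisors ℤ) K = C.B :=
    Basis.eq_of_apply_eq fun i => by
      rw [Basis.localizationLocalization_apply]; exact C.obasis_apply i
  have h2 := Algebra.discr_localizationLocalization ℤ (nonZeroDivisors ℤ) K (Rₘ := ℚ) C.obasis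
  rw [h', C.discr_B, NumberField.discr_eq_discr K C.obasis, eq_intCast] at h2
  exact_mod_cast h2.symm

include C in
theorem isPID : IsPrincipalIdealRing (𝓞 K) := by
  apply RingOfIntegers.isPrincipalIdealRing_of_abs_discr_lt
  rw [C.discr_eq, C.finrank_eq]
  have hr : InfinitePlace.nrComplexPlaces K ≤ 1 := by
    have := InfinitePlace.card_add_two_mul_card_eq_rank K
    rw [C.finrank_eq] at this; omega
  have h4 : Real.pi / 4 ≤ 1 := by linarith [Real.pi_lt_four]
  have h5 : Real.pi / 4 ≤ (Real.pi / 4) ^ InfinitePlace.nrComplexPlaces K := by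
    simpa using pow_le_pow_of_le_one (by positivity) h4 hr
  have h3 := Real.pi_gt_three
  norm_num [Nat.factorial]
  nlinarith

include C in
theorem rank_eq : NumberField.Units.rank K = 1 := by
  have h := InfinitePlace.card_add_two_mul_card_eq_rank K
  rw [C.finrank_eq] at h
  have hs := NumberField.sign_discr K
  rw [C.discr_eq] at hs
  have h2 : InfinitePlace.nrComplexPlaces K = 1 := by
    rcases Nat.eq_zero_or_pos (InfinitePlace.nrComplexPlaces K) with h0 | h0
    · rw [h0] at hs; exact absurd hs (by decide)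
    · omega
  rw [NumberField.Units.rank, InfinitePlace.card_eq_nrRealPlaces_add_nrComplexPlaces]
  omega

/-- The unit `η = β - 1`. -/
noncomputable def eta : (𝓞 K)ˣ := Units.mkOfMulEqOne (C.oel (-1) 1 0) (C.oel 1 1 (-1) * (-1) * (-1) * C.oel 1 0 0)
  (RingOfIntegers.ext (by
    simp [el]; linear_combination (-1 : K) * C.hβ))

theorem coe_eta : (C.eta : 𝓞 K) = C.oel (-1) 1 0 := rfl

/-- No `±η` is a square. -/
theorem pm_eta_ne_sq (z : 𝓞 K) : z * z ≠ C.oel (-1) 1 0 ∧ z * z ≠ C.oel 1 (-1) 0 := by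
  obtain ⟨a, b, c, rfl⟩ := C.exists_oel z
  constructor <;> intro h <;> have h' := congrArg (fun x : 𝓞 K => (x : K)) h <;>
    simp only [map_mul, coe_oel, C.el_mul] at h' <;>
    obtain ⟨h0, h1, h2⟩ := C.el_injective h'
  · have : a * b + b * a - 2 * (c * c) = 1 := by exact_mod_cast h1
    have h3 : 2 * (a * b - c * c) = 1 := by linear_combination this
    omega
  · have : a * b + b * a - 2 * (c * c) = -1 := by exact_mod_cast h1
    have h3 : 2 * (a * b - c * c) = -1 := by linear_combination this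
    omega

/-- Units modulo squares. -/
theorem unit_cases (u : (𝓞 K)ˣ) :
    ∃ v : (𝓞 K)ˣ, u = v * v ∨ u = -(v * v) ∨ u = C.eta * (v * v) ∨ u = -(C.eta * (v * v)) := by
  have hodd : Odd (finrank ℚ K) := by rw [C.finrank_eq]; decide
  have tor : ∀ z : Units.torsion K, (z : (𝓞 K)ˣ) = 1 ∨ (z : (𝓞 K)ˣ) = -1 := by
    intro z
    rcases Units.torsion_eq_one_or_neg_one_of_odd_finrank hodd z with h | h <;> simp_all
  let i0 : Fin (Units.rank K) := ⟨0, by rw [C.rank_eq]; norm_num⟩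
  set f := Units.fundSystem K i0
  have form : ∀ x : (𝓞 K)ˣ, ∃ e : ℤ, x = f ^ e ∨ x = -(f ^ e) := by
    intro x
    obtain ⟨⟨z, e⟩, hx, -⟩ := Units.exist_unique_eq_mul_prod K x
    have hu : Finset.univ = ({i0} : Finset (Fin (Units.rank K))) := by
      ext i
      simp only [Finset.mem_univ, Finset.mem_singleton, true_iff]
      have := C.rank_eq
      exact Fin.ext (by omega)
    rw [hu, Finset.prod_singleton] at hx
    refine ⟨e i0, ?_⟩
    rcases tor z with h | h <;> rw [h] at hx <;> simp_all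
    · exact Or.inl rfl
    · exact Or.inr rfl
  obtain ⟨k, hk⟩ := form C.eta
  have nsq : ∀ v : (𝓞 K)ˣ, C.eta ≠ v * v ∧ C.eta ≠ -(v * v) := by
    intro v
    constructor <;> intro h <;> have h' := congrArg (fun x : (𝓞 K)ˣ => (x : 𝓞 K)) h
    · exact (C.pm_eta_ne_sq v).1 (by simpa [C.coe_eta] using h'.symm)
    · refine (C.pm_eta_ne_sq v).2 ?_
      simp only [C.coe_eta, Units.val_neg, Units.val_mul] at h'
      rw [show C.oel 1 (-1) 0 = -C.oel (-1) 1 0 from RingOfIntegers.ext (by simp [el]; ring), h', neg_neg]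
  rcases Int.even_or_odd k with ⟨m, rfl⟩ | ⟨m, rfl⟩
  · rcases hk with hk | hk <;> rw [zpow_add] at hk
    · exact absurd hk (nsq _).1
    · exact absurd hk (nsq _).2
  have hf : f = C.eta * (f ^ (-m) * f ^ (-m)) ∨ f = -(C.eta * (f ^ (-m) * f ^ (-m))) := by
    rcases hk with hk | hk <;> [left; right] <;> rw [hk] <;>
      simp only [neg_mul, neg_neg, ← zpow_add] <;>
      rw [show 2 * m + 1 + (-m + -m) = 1 by ring, zpow_one]
  obtain ⟨e, he⟩ := form u
  rcases Int.even_or_odd e with ⟨l, rfl⟩ | ⟨l, rfl⟩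
  · refine ⟨f ^ l, ?_⟩
    rcases he with he | he <;> rw [zpow_add] at he <;> simp [he]
  · have hz : f ^ (2 * l + 1) = f * (f ^ l * f ^ l) := by
      rw [zpow_add, zpow_one, two_mul, zpow_add, mul_comm]
    have hr : ∀ w g : (𝓞 K)ˣ,
        C.eta * (w * w) * (g * g) = C.eta * (w * g * (w * g)) := fun w g => by
      rw [mul_assoc, mul_mul_mul_comm]
    refine ⟨f ^ (-m) * f ^ l, ?_⟩
    rw [hz] at he
    rcases hf with hf | hf <;> rcases he with he | he <;>
      rw [show f * (f ^ l * f ^ l) = _ from congrArg (· * (f ^ l * f ^ l)) hf] at he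
    · exact Or.inr (Or.inr (Or.inl (by rw [he, hr])))
    · exact Or.inr (Or.inr (Or.inr (by rw [he, hr])))
    · exact Or.inr (Or.inr (Or.inr (by rw [he, neg_mul, hr])))
    · exact Or.inr (Or.inr (Or.inl (by rw [he, neg_mul, neg_neg, hr])))

end Cubic44

end Fermat.Agent.Mazur
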