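import Fermat.Agent.Mazur.CubicField44

/-!
The rational points of `Y² = Z³ - 4Z² + 16` (the curve 11a3): `Z ∈ {0, 4}`.
-/

open Module NumberField

namespace Fermat.Agent.Mazur

/-- Square class decomposition in a UFD. -/
theorem exists_sq_decomp {R : Type*} [CommRing R] [IsDomain R] [UniqueFactorizationMonoid R]
    (β w : R) (a : R) : a ≠ 0 → ∀ a' m : R, a' ≠ 0 → a * a' = m * m →
      (∀ q : R, Prime q → q ∣ a → q ∣ a' → Associated q β ∨ Associated q w) →
      ∃ (u : Rˣ) (i j : ℕ) (γ : R), a = u * β ^ i * w ^ j * (γ * γ) := by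
  refine wellFounded_dvdNotUnit.induction (C := fun a : R => a ≠ 0 → ∀ a' m : R, a' ≠ 0 →
    a * a' = m * m → (∀ q : R, Prime q → q ∣ a → q ∣ a' → Associated q β ∨ Associated q w) →
    ∃ (u : Rˣ) (i j : ℕ) (γ : R), a = u * β ^ i * w ^ j * (γ * γ)) a ?_
  intro a ih ha a' m ha' hm hq
  by_cases hu : IsUnit a
  · exact ⟨hu.unit, 0, 0, 1, by simp⟩
  obtain ⟨p, hp, hpa⟩ := WfDvdMonoid.exists_irreducible_factor hu ha
  have hp' : Prime p := UniqueFactorizationMonoid.irreducible_iff_prime.1 hp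
  by_cases hpa' : p ∣ a'
  · have step : ∀ t : R, Associated p t → (t = β ∨ t = w) →
        ∃ (u : Rˣ) (i j : ℕ) (γ : R), a = u * β ^ i * w ^ j * (γ * γ) := by
      intro t ht hcase
      obtain ⟨a₁, rfl⟩ := ht.dvd_iff_dvd_left.1 hpa
      have hpt : Prime t := ht.prime hp'
      have ha1 : a₁ ≠ 0 := right_ne_zero_of_mul ha
      obtain ⟨u, i, j, γ, h1⟩ := ih a₁ ⟨ha1, t, hpt.not_isUnit, mul_comm _ _⟩ ha1 (t * a') m
        (mul_ne_zero hpt.ne_zero ha') (by rw [← hm]; ring) (fun q hq' hqa hqb => by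
          rcases hq'.dvd_or_dvd hqb with h | h
          · have := hq'.associated_of_dvd hpt h
            rcases hcase with rfl | rfl
            · exact Or.inl this
            · exact Or.inr this
          · exact hq q hq' (hqa.mul_left t) h)
      rcases hcase with rfl | rfl
      · exact ⟨u, i + 1, j, γ, by rw [h1]; ring⟩
      · exact ⟨u, i, j + 1, γ, by rw [h1]; ring⟩
    rcases hq p hp' hpa hpa' with h | h
    · exact step β h (Or.inl rfl)
    · exact step w h (Or.inr rfl)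
  · have hpm : p ∣ m := (or_self_iff).1 (hp'.dvd_or_dvd (hm ▸ hpa.mul_right a'))
    obtain ⟨m', rfl⟩ := hpm
    obtain ⟨a₁, rfl⟩ := hpa
    have h1 : a₁ * a' = p * (m' * m') :=
      mul_left_cancel₀ hp'.ne_zero (by linear_combination hm)
    have : p ∣ a₁ := (hp'.dvd_or_dvd ⟨_, h1⟩).resolve_right hpa'
    obtain ⟨a₂, rfl⟩ := this
    have h2 : a₂ * a' = m' * m' := mul_left_cancel₀ hp'.ne_zero (by linear_combination h1)
    have ha2 : a₂ ≠ 0 := right_ne_zero_of_mul (right_ne_zero_of_mul ha)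
    obtain ⟨u, i, j, γ, h3⟩ := ih a₂ ⟨ha2, p * p, fun h => hp'.not_isUnit (isUnit_of_mul_isUnit_left h),
        by ring⟩ ha2 a' m' ha' h2
      (fun q hq' hqa hqb => hq q hq' ((hqa.mul_left p).mul_left p) hqb)
    exact ⟨u, i, j, p * γ, by rw [h3]; ring⟩

namespace Cubic44

variable {K : Type} [Field K] [NumberField K] (C : Cubic44 K)

/-- The norm on `𝓞 K`, with values in `ℚ`. -/
noncomputable def N (x : 𝓞 K) : ℚ := Algebra.norm ℚ (x : K)

theorem N_oel (a b c : ℤ) : N (C.oel a b c) = nf (a : ℚ) b c := by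
  rw [N, coe_oel, C.norm_el]

theorem N_mul (x y : 𝓞 K) : N (x * y) = N x * N y := by simp [N, map_mul]

theorem N_pow (x : 𝓞 K) (k : ℕ) : N (x ^ k) = N x ^ k := by simp [N, map_pow]

theorem isUnit_iff_N (x : 𝓞 K) : IsUnit x ↔ |N x| = 1 := by
  rw [NumberField.isUnit_iff_norm]; rfl

theorem irreducible_of_N {x : 𝓞 K} {p : ℕ} (hp : p.Prime) (h : |N x| = p) : Irreducible x := by
  constructor
  · intro hu
    rw [isUnit_iff_N, h] at hu
    exact hp.one_lt.ne' (by exact_mod_cast hu)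
  · intro y z hyz
    rw [isUnit_iff_N, isUnit_iff_N]
    obtain ⟨Y, hY⟩ : ∃ Y : ℤ, (Y : ℚ) = N y := norm_int y.2
    obtain ⟨Z, hZ⟩ : ∃ Z : ℤ, (Z : ℚ) = N z := norm_int z.2
    have : ((Y.natAbs * Z.natAbs : ℕ) : ℚ) = (p : ℚ) := by
      rw [← h, hyz, N_mul, abs_mul, ← hY, ← hZ]
      push_cast [Nat.cast_natAbs]; ring
    have hnat : Y.natAbs * Z.natAbs = p := by exact_mod_cast this
    rcases hp.eq_one_or_self_of_dvd Y.natAbs ⟨_, hnat.symm⟩ with h2 | h2
    · left; rw [← hY, ← Int.cast_abs, Int.abs_eq_natAbs, h2]; simp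
    · right
      have : Z.natAbs = 1 := by
        rw [h2] at hnat; nlinarith [hp.pos]
      rw [← hZ, ← Int.cast_abs, Int.abs_eq_natAbs, this]; simp

include C in
/-- The 2-descent: the half of a rational point. -/
theorem descent_sq {n e : ℤ} (he : e ≠ 0) (hco : IsCoprime n e) {m : ℤ}
    (hm : n ^ 3 - 4 * n ^ 2 * e ^ 2 + 16 * e ^ 6 = m ^ 2) :
    ∃ a b c : ℤ, n = a ^ 2 - 4 * b * c - 4 * c ^ 2 ∧ e ^ 2 = c ^ 2 - a * b ∧
      b ^ 2 + 2 * a * c + 4 * b * c + 4 * c ^ 2 = 0 := by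
  have := C.isPID
  set α : 𝓞 K := C.oel n (-2 * e ^ 2) 0 with hα
  set α' : 𝓞 K := C.oel (n ^ 2 - 4 * n * e ^ 2) (2 * n * e ^ 2 - 8 * e ^ 4) (4 * e ^ 4) with hα'
  set β : 𝓞 K := C.oel 0 1 0 with hβ
  set w : 𝓞 K := C.oel 3 (-4) 2 with hw
  have hab : α * α' = (m : 𝓞 K) * (m : 𝓞 K) := RingOfIntegers.ext (by
    have hm' : (n : K) ^ 3 - 4 * (n : K) ^ 2 * (e : K) ^ 2 + 16 * (e : K) ^ 6 = (m : K) ^ 2 := by
      exact_mod_cast hm
    simp only [hα, hα', map_mul, coe_oel, el, map_intCast]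
    push_cast
    linear_combination hm' + (-8 * (e : K) ^ 6) * C.hβ)
  have hβ3 : β ^ 3 = 2 * β ^ 2 - 2 := RingOfIntegers.ext (by
    simp [hβ, el, map_pow, map_ofNat]; linear_combination C.hβ)
  have hα0 : α ≠ 0 := fun h => by
    have h' : C.oel n (-2 * e ^ 2) 0 = C.oel 0 0 0 := by
      rw [← hα, h]; exact RingOfIntegers.ext (by simp [el])
    have := (C.oel_injective h').2.1
    exact he (pow_eq_zero_iff two_ne_zero |>.1 (by linarith))
  have hm0 : (m : 𝓞 K) ≠ 0 → α' ≠ 0 := fun h h' => h (mul_self_eq_zero.1 (by rw [← hab, h', mul_zero]))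
  have hmne : m ≠ 0 := by
    intro h
    have h1 : N α * N α' = 0 := by
      rw [← N_mul, hab, h]; simp [N]
    have hNa : N α = ((n ^ 3 - 4 * n ^ 2 * e ^ 2 + 16 * e ^ 6 : ℤ) : ℚ) := by
      rw [hα, C.N_oel, nf]; push_cast; ring
    rw [hm, h] at hNa
    exact hα0 (by simpa [N] using hNa)
  have hNα : N α = (m : ℚ) ^ 2 := by
    have hm' : (n : ℚ) ^ 3 - 4 * (n : ℚ) ^ 2 * (e : ℚ) ^ 2 + 16 * (e : ℚ) ^ 6 = (m : ℚ) ^ 2 := by
      exact_mod_cast hm
    rw [hα, C.N_oel, nf, ← hm']; push_cast; ring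
  have hNβ : N β = -2 := by rw [hβ, C.N_oel, nf]; norm_num
  have hNw : |N w| = 11 := by rw [hw, C.N_oel, nf]; norm_num
  have irrβ : Irreducible β := irreducible_of_N Nat.prime_two (by rw [hNβ]; norm_num)
  have irrw : Irreducible w := irreducible_of_N (by norm_num : Nat.Prime 11) (by exact_mod_cast hNw)
  have key : ∀ q : 𝓞 K, Prime q → q ∣ α → q ∣ α' → Associated q β ∨ Associated q w := by
    intro q hq h1 h2
    have he2 : (e : 𝓞 K) ^ 4 * (4 * (β * (β * w))) =
        (α' - α * ((n : 𝓞 K) + 4 * β * (e : 𝓞 K) ^ 2 - 4 * (e : 𝓞 K) ^ 2)) := RingOfIntegers.ext (by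
      simp [hα, hα', hβ, hw, el, map_pow, map_ofNat]
      linear_combination (8 * (e : K) ^ 4 * C.β) * C.hβ)
    have h3 : q ∣ (e : 𝓞 K) ^ 4 * (4 * (β * (β * w))) := he2 ▸ dvd_sub h2 (h1.mul_right _)
    rcases hq.dvd_or_dvd h3 with h | h
    · exfalso
      have hqe := hq.dvd_of_dvd_pow h
      have hn : q ∣ (n : 𝓞 K) := by
        have : (n : 𝓞 K) = α + (e : 𝓞 K) * ((e : 𝓞 K) * (2 * β)) := RingOfIntegers.ext (by
          simp [hα, hβ, el, map_ofNat]; ring)
        rw [this]; exact dvd_add h1 (hqe.mul_right _)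
      obtain ⟨x, y, hxy⟩ := hco
      refine hq.not_isUnit (isUnit_of_dvd_one ?_)
      have : (1 : 𝓞 K) = (x : 𝓞 K) * n + (y : 𝓞 K) * e := by
        rw [← Int.cast_one, ← hxy]; push_cast; ring
      rw [this]; exact dvd_add (hn.mul_left _) (hqe.mul_left _)
    · have h4 : (4 : 𝓞 K) = β ^ 2 * (2 - β) * (β ^ 2 * (2 - β)) := by
        rw [show β ^ 2 * (2 - β) = 2 by linear_combination (-1 : 𝓞 K) * hβ3]; norm_num
      rw [h4] at h
      have h2b : q ∣ β ∨ q ∣ w ∨ q ∣ (2 - β) := by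
        rcases hq.dvd_or_dvd h with h | h
        · rcases hq.dvd_or_dvd h with h | h <;> rcases hq.dvd_or_dvd h with h | h
          all_goals first
            | exact Or.inl (hq.dvd_of_dvd_pow h)
            | exact Or.inr (Or.inr h)
        · rcases hq.dvd_or_dvd h with h | h
          · exact Or.inl h
          · rcases hq.dvd_or_dvd h with h | h
            · exact Or.inl h
            · exact Or.inr (Or.inl h)
      have hfac : 2 - β = β * (-((C.eta : 𝓞 K) * (C.eta : 𝓞 K))) := RingOfIntegers.ext (by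
        simp [C.coe_eta, hβ, el, map_ofNat]; linear_combination C.hβ)
      rcases h2b with h | h | h
      · exact Or.inl (hq.associated_of_dvd (UniqueFactorizationMonoid.irreducible_iff_prime.1 irrβ) h)
      · exact Or.inr (hq.associated_of_dvd (UniqueFactorizationMonoid.irreducible_iff_prime.1 irrw) h)
      · rw [hfac] at h
        rcases hq.dvd_or_dvd h with h | h
        · exact Or.inl (hq.associated_of_dvd
            (UniqueFactorizationMonoid.irreducible_iff_prime.1 irrβ) h)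
        · exact absurd (isUnit_of_dvd_unit h (C.eta.isUnit.mul C.eta.isUnit).neg) hq.not_isUnit
  obtain ⟨u, i, j, γ, hdec⟩ := exists_sq_decomp β w α hα0 α' m
    (hm0 (by exact_mod_cast hmne)) hab key
  have hdec' : α = (u : 𝓞 K) * β ^ (i % 2) * w ^ (j % 2) *
      (β ^ (i / 2) * w ^ (j / 2) * γ * (β ^ (i / 2) * w ^ (j / 2) * γ)) := by
    rw [hdec]; conv_lhs => rw [← Nat.mod_add_div i 2, ← Nat.mod_add_div j 2]
    ring
  generalize hγ' : β ^ (i / 2) * w ^ (j / 2) * γ = g at hdec'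
  have hu1 : |N (u : 𝓞 K)| = 1 := (isUnit_iff_N _).1 u.isUnit
  have hnorm : (m : ℚ) ^ 2 = 2 ^ (i % 2) * 11 ^ (j % 2) * (N g) ^ 2 := by
    have := congrArg (fun x => |N x|) hdec'
    simp only [N_mul, N_pow, abs_mul, abs_pow, hu1, hNw, hNβ, hNα, one_mul] at this
    rw [sq_abs, abs_mul_abs_self] at this
    norm_num at this
    linear_combination this
  have hsq : i % 2 = 0 ∧ j % 2 = 0 := by
    have hg : N g ≠ 0 := by
      intro h; rw [h] at hnorm; simp [hmne] at hnorm
    have hS : IsSquare ((2 ^ (i % 2) * 11 ^ (j % 2) : ℕ) : ℚ) := by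
      refine ⟨(m : ℚ) / N g, ?_⟩
      field_simp
      push_cast; linear_combination -hnorm
    rw [Rat.isSquare_natCast_iff] at hS
    rcases Nat.mod_two_eq_zero_or_one i with h1 | h1 <;>
      rcases Nat.mod_two_eq_zero_or_one j with h2 | h2 <;> rw [h1, h2] at hS
    · exact ⟨h1, h2⟩
    all_goals
      obtain ⟨r, hr⟩ := hS
      norm_num at hr
      have hr5 : r < 5 := by nlinarith
      interval_cases r <;> norm_num at hr
  rw [hsq.1, hsq.2, pow_zero, pow_zero, mul_one, mul_one] at hdec'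
  rw [hsq.1, hsq.2, pow_zero, pow_zero, one_mul, one_mul] at hnorm
  obtain ⟨v, hv⟩ := C.unit_cases u
  have hNn : N (-1 : 𝓞 K) = -1 := by
    rw [show (-1 : 𝓞 K) = C.oel (-1) 0 0 from RingOfIntegers.ext (by simp [el]), C.N_oel, nf]
    norm_num
  have hNeta : N (C.eta : 𝓞 K) = -1 := by rw [C.coe_eta, C.N_oel, nf]; norm_num
  have hposv : 0 ≤ N ((v : 𝓞 K) * (v : 𝓞 K) * (g * g)) := by
    simp only [N_mul]; nlinarith [mul_self_nonneg (N (v : 𝓞 K) * N g)]
  have hNpos : 0 < N α := by rw [hNα]; positivity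
  have hfin : α = (v : 𝓞 K) * g * ((v : 𝓞 K) * g) ∨
      α = C.oel 1 (-1) 0 * ((v : 𝓞 K) * g * ((v : 𝓞 K) * g)) := by
    rcases hv with hv | hv | hv | hv <;> rw [hv] at hdec'
    · left; rw [hdec', Units.val_mul]; ring
    · exfalso
      rw [hdec', show ((-(v * v) : (𝓞 K)ˣ) : 𝓞 K) * (g * g) = (-1) * ((v : 𝓞 K) * (v : 𝓞 K) * (g * g)) by
        rw [Units.val_neg, Units.val_mul]; ring, N_mul, hNn] at hNpos
      linarith
    · exfalso
      rw [hdec', show ((C.eta * (v * v) : (𝓞 K)ˣ) : 𝓞 K) * (g * g)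
          = (C.eta : 𝓞 K) * ((v : 𝓞 K) * (v : 𝓞 K) * (g * g)) by
        rw [Units.val_mul, Units.val_mul]; ring, N_mul, hNeta] at hNpos
      linarith
    · right
      rw [hdec', show C.oel 1 (-1) 0 = -C.oel (-1) 1 0 from RingOfIntegers.ext (by simp [el]; ring),
        ← C.coe_eta, Units.val_neg, Units.val_mul, Units.val_mul]
      ring
  obtain ⟨a, b, c, habc⟩ := C.exists_oel ((v : 𝓞 K) * g)
  rw [habc] at hfin
  rcases hfin with hfin | hfin
  · have h' := congrArg (fun x : 𝓞 K => (x : K)) hfin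
    simp only [hα, map_mul, coe_oel, C.el_mul] at h'
    obtain ⟨h0, h1, h2⟩ := C.el_injective h'
    have h0' : n = a * a - 2 * (b * c + c * b) - 4 * (c * c) := by exact_mod_cast h0
    have h1' : -2 * e ^ 2 = a * b + b * a - 2 * (c * c) := by exact_mod_cast h1
    have h2' : 0 = a * c + b * b + c * a + 2 * (b * c + c * b) + 4 * (c * c) := by exact_mod_cast h2
    exact ⟨a, b, c, by linear_combination h0', by linarith, by linear_combination -h2'⟩
  · exfalso
    have h' := congrArg (fun x : 𝓞 K => (x : K)) hfin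
    simp only [hα, map_mul, coe_oel, C.el_mul] at h'
    obtain ⟨h0, h1, h2⟩ := C.el_injective h'
    set A : ℤ := a * a - 2 * (b * c + c * b) - 4 * (c * c) with hA
    set B : ℤ := a * b + b * a - 2 * (c * c) with hB
    set D : ℤ := a * c + b * b + c * a + 2 * (b * c + c * b) + 4 * (c * c) with hD
    have h0' : n = A + 2 * D := by
      have : (n : ℚ) = ((A + 2 * D : ℤ) : ℚ) := by push_cast [hA, hB, hD]; linear_combination h0
      exact_mod_cast this
    have h1' : -2 * e ^ 2 = B - A := by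
      have : ((-2 * e ^ 2 : ℤ) : ℚ) = ((B - A : ℤ) : ℚ) := by
        push_cast [hA, hB, hD]; push_cast at h1; linear_combination h1
      exact_mod_cast this
    have h2' : 0 = -B - D := by
      have : ((0 : ℤ) : ℚ) = ((-B - D : ℤ) : ℚ) := by push_cast [hA, hB, hD]; linear_combination h2
      exact_mod_cast this
    have key : ∀ a b c : ZMod 8,
        -(a * b + b * a - 2 * (c * c))
          - (a * c + b * b + c * a + 2 * (b * c + c * b) + 4 * (c * c)) = 0 →
        4 * (a * b + b * a - 2 * (c * c) - (a * a - 2 * (b * c + c * b) - 4 * (c * c))) = 0 →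
        4 * (a * a - 2 * (b * c + c * b) - 4 * (c * c)
          + 2 * (a * c + b * b + c * a + 2 * (b * c + c * b) + 4 * (c * c))) = 0 ∧
        a * b + b * a - 2 * (c * c) - (a * a - 2 * (b * c + c * b) - 4 * (c * c)) ≠ 6 := by decide
    obtain ⟨k1, k2⟩ := key a b c (by
      have := congrArg (Int.cast : ℤ → ZMod 8) h2'
      simp only [hB, hD] at this; push_cast at this; exact this.symm) (by
      have h8 : ((4 * (B - A) : ℤ) : ZMod 8) = 0 := by
        rw [ZMod.intCast_zmod_eq_zero_iff_dvd, ← h1']; exact ⟨-e ^ 2, by ring⟩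
      rw [hA, hB] at h8; push_cast at h8; exact h8)
    have hn : (2 : ℤ) ∣ n := by
      have : ((4 * n : ℤ) : ZMod 8) = 0 := by rw [h0', hA, hD]; push_cast; exact k1
      rw [ZMod.intCast_zmod_eq_zero_iff_dvd] at this
      omega
    have he' : (2 : ℤ) ∣ e := by
      by_contra hodd
      apply k2
      have h6 : ((B - A : ℤ) : ZMod 8) = 6 := by
        obtain ⟨k, rfl⟩ : ∃ k, e = 2 * k + 1 := ⟨e / 2, by omega⟩
        rw [← h1']
        have : ((-2 * (2 * k + 1) ^ 2 - 6 : ℤ) : ZMod 8) = 0 := by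
          rw [ZMod.intCast_zmod_eq_zero_iff_dvd]
          exact ⟨-k * k - k - 1, by ring⟩
        push_cast at this ⊢
        linear_combination this
      rw [hA, hB] at h6; push_cast at h6; exact h6
    obtain ⟨x, y, hxy⟩ := hco
    have : (2 : ℤ) ∣ 1 := hxy ▸ dvd_add (hn.mul_left x) (he'.mul_left y)
    omega

end Cubic44

end Fermat.Agent.Mazur

namespace Fermat.Agent.Mazur

section Field44

open Polynomial

/-- `X³ - 2X² + 2`. -/
noncomputable abbrev poly44 : ℚ[X] := X ^ 3 - 2 * X ^ 2 + 2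

theorem natDegree_poly44 : poly44.natDegree = 3 := by unfold poly44; compute_degree!

theorem monic_poly44 : poly44.Monic := by unfold poly44; monicity!

theorem irreducible_poly44 : Irreducible poly44 := by
  rw [irreducible_iff_roots_eq_zero_of_degree_le_three (by rw [natDegree_poly44]; norm_num)
    (by rw [natDegree_poly44])]
  refine Multiset.eq_zero_of_forall_notMem fun r hr => ?_
  rw [mem_roots monic_poly44.ne_zero] at hr
  have hr' : r ^ 3 - 2 * r ^ 2 + 2 = 0 := by simpa [poly44] using hr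
  have hint : IsIntegral ℤ r :=
    ⟨X ^ 3 - 2 * X ^ 2 + 2, by monicity!, by simpa using hr'⟩
  obtain ⟨k, hk⟩ := IsIntegrallyClosed.isIntegral_iff.1 hint
  rw [eq_intCast] at hk
  subst hk
  have h : k ^ 3 - 2 * k ^ 2 + 2 = 0 := by exact_mod_cast hr'
  have hdvd : k ∣ 2 := ⟨-k * (k - 2), by linear_combination h⟩
  have h1 : k ≤ 2 := Int.le_of_dvd two_pos hdvd
  have h2 : -k ≤ 2 := Int.le_of_dvd two_pos (by simpa using hdvd)
  have h3 : -2 ≤ k := by omega
  interval_cases k <;> norm_num at h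

instance : Fact (Irreducible poly44) := ⟨irreducible_poly44⟩

/-- The field `ℚ(β)`. -/
abbrev K44 : Type := AdjoinRoot poly44

instance : FiniteDimensional ℚ K44 := monic_poly44.finite_adjoinRoot

instance : NumberField K44 where

/-- `K44` with its power basis. -/
noncomputable def cubic44 : Cubic44 K44 where
  β := AdjoinRoot.root poly44
  hβ := by
    have := AdjoinRoot.eval₂_root poly44
    simpa [poly44] using this
  B := (AdjoinRoot.powerBasis monic_poly44.ne_zero).basis.reindex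
    (finCongr (by rw [AdjoinRoot.powerBasis_dim, natDegree_poly44]))
  B0 := by simp [Basis.reindex_apply, PowerBasis.coe_basis]
  B1 := by simp [Basis.reindex_apply, PowerBasis.coe_basis]
  B2 := by simp [Basis.reindex_apply, PowerBasis.coe_basis]

end Field44

/-- `N(r,s)`. -/
def nForm (r s : ℤ) : ℤ := 4 * (r ^ 4 + 2 * r * s ^ 3 + s ^ 4)

/-- `D(r,s)`. -/
def dForm (r s : ℤ) : ℤ := s ^ 4 - 4 * r ^ 2 * s ^ 2 - 4 * r ^ 3 * s

/-- Parametrisation of the conic. -/
theorem param {n e a b c : ℤ} (he : e ≠ 0) (hco : IsCoprime n e)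
    (hn : n = a ^ 2 - 4 * b * c - 4 * c ^ 2) (he2 : e ^ 2 = c ^ 2 - a * b)
    (hz : b ^ 2 + 2 * a * c + 4 * b * c + 4 * c ^ 2 = 0) :
    ∃ r s l : ℤ, IsCoprime r s ∧ (l = 1 ∨ l = 4) ∧ nForm r s = l * n ∧ dForm r s = l * e ^ 2 := by
  wlog hc : c ≤ 0 generalizing a b c
  · exact this (a := -a) (b := -b) (c := -c) (by linear_combination hn)
      (by linear_combination he2) (by linear_combination hz) (by omega)
  have hk : (b + 2 * c) ^ 2 = 2 * a * (-c) := by linear_combination hz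
  have hco' : Int.gcd a c = 1 := by
    by_contra hg
    obtain ⟨q, hq, hqd⟩ := Nat.exists_prime_and_dvd hg
    have hqa : (q : ℤ) ∣ a := (Int.natCast_dvd_natCast.2 hqd).trans (Int.gcd_dvd_left a c)
    have hqc : (q : ℤ) ∣ c := (Int.natCast_dvd_natCast.2 hqd).trans (Int.gcd_dvd_right a c)
    have hq' : Prime (q : ℤ) := Nat.prime_iff_prime_int.1 hq
    have hqb : (q : ℤ) ∣ b + 2 * c := by
      refine hq'.dvd_of_dvd_pow (n := 2) ?_
      rw [hk]; exact (hqa.mul_left 2).mul_right _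
    have hqe : (q : ℤ) ∣ e := hq'.dvd_of_dvd_pow (n := 2) <| by
      rw [he2]; exact dvd_sub (hqc.pow two_ne_zero) (hqa.mul_right _)
    have hqn : (q : ℤ) ∣ n := by
      rw [hn]; exact dvd_sub (dvd_sub (hqa.pow two_ne_zero) (hqc.mul_left _))
        ((hqc.pow two_ne_zero).mul_left _)
    obtain ⟨x, y, hxy⟩ := hco
    exact hq'.not_isUnit (isUnit_of_dvd_one (hxy ▸ dvd_add (hqn.mul_left x) (hqe.mul_left y)))
  have ha : 0 ≤ a := by
    by_contra hlt
    push Not at hlt
    rcases eq_or_lt_of_le hc with rfl | hc'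
    · have : a = -1 := by
        rw [Int.gcd_zero_right] at hco'; omega
      subst this
      have : b = 0 := by nlinarith
      subst this
      exact he (pow_eq_zero_iff two_ne_zero |>.1 (by linarith))
    · nlinarith [mul_pos (neg_pos.2 hlt) (neg_pos.2 hc')]
  obtain ⟨C, hC, hCc⟩ : ∃ C : ℕ, (C : ℤ) = -c ∧ C = c.natAbs := ⟨c.natAbs, by omega, rfl⟩
  obtain ⟨A, rfl⟩ := Int.eq_ofNat_of_zero_le ha
  have hAC : Nat.Coprime A C := by rw [hCc]; simpa [Int.gcd] using hco'
  obtain ⟨k, hkk⟩ : ∃ k, (b + 2 * c).natAbs = k := ⟨_, rfl⟩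
  have hk2 : k ^ 2 = 2 * A * C := by
    have : ((k ^ 2 : ℕ) : ℤ) = ((2 * A * C : ℕ) : ℤ) := by
      push_cast [← hkk, Int.natCast_natAbs, sq_abs, hC]; exact hk
    exact_mod_cast this
  obtain ⟨k', rfl⟩ : 2 ∣ k := Nat.prime_two.dvd_of_dvd_pow (n := 2) ⟨A * C, by rw [hk2]; ring⟩
  have hk4 : 2 * (k' * k') = A * C := by linarith [hk2, show (2 * k') ^ 2 = 4 * (k' * k') by ring]
  rcases Nat.even_or_odd A with ⟨A', rfl⟩ | hodd
  · -- `a = 2r²`, `c = -s²`
    have hp : A' * C = k' * k' := by nlinarith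
    have hco2 : Nat.Coprime A' C := Nat.Coprime.coprime_dvd_left ⟨2, by ring⟩ hAC
    obtain ⟨r, hr⟩ := exists_eq_pow_of_mul_eq_pow (k := 2) (a := A') (b := C) (c := k')
      (Nat.isUnit_iff.2 hco2) (by rw [hp]; ring)
    obtain ⟨s, hs⟩ := exists_eq_pow_of_mul_eq_pow (k := 2) (a := C) (b := A') (c := k')
      (Nat.isUnit_iff.2 hco2.symm) (by rw [mul_comm, hp]; ring)
    subst hr hs
    have hrs : k' = r * s := by
      have : k' ^ 2 = (r * s) ^ 2 := by rw [mul_pow, sq k', ← hp]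
      exact Nat.pow_left_injective two_ne_zero this
    have hcS : c = -(s : ℤ) ^ 2 := by push_cast at hC; linarith
    have hcop : IsCoprime (r : ℤ) (s : ℤ) := by
      rw [Int.isCoprime_iff_gcd_eq_one, Int.gcd_natCast_natCast]
      exact (hco2.coprime_dvd_left ⟨r, sq r⟩).coprime_dvd_right ⟨s, sq s⟩
    have hb : b + 2 * c = 2 * (r * s) ∨ b + 2 * c = -(2 * (r * s)) := by
      have := Int.natAbs_eq (b + 2 * c)
      rw [hkk, hrs] at this; push_cast at this; exact this
    push_cast at *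
    rcases hb with hb | hb
    · refine ⟨r, s, 1, hcop, Or.inl rfl, ?_, ?_⟩
      · rw [hn, show b = 2 * (r * s : ℤ) - 2 * c by linarith, hcS, nForm]; ring
      · rw [he2, show b = 2 * (r * s : ℤ) - 2 * c by linarith, hcS, dForm]; ring
    · refine ⟨-r, s, 1, hcop.neg_left, Or.inl rfl, ?_, ?_⟩
      · rw [hn, show b = -(2 * (r * s : ℤ)) - 2 * c by linarith, hcS, nForm]; ring
      · rw [he2, show b = -(2 * (r * s : ℤ)) - 2 * c by linarith, hcS, dForm]; ring
  · -- `a = r²`, `c = -2s²`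
    obtain ⟨C', rfl⟩ : 2 ∣ C :=
      (Nat.Coprime.dvd_of_dvd_mul_left (Nat.coprime_two_left.2 hodd) ⟨k' * k', hk4.symm⟩)
    have hp : A * C' = k' * k' := by nlinarith
    have hco2 : Nat.Coprime A C' := hAC.coprime_dvd_right ⟨2, by ring⟩
    obtain ⟨r, hr⟩ := exists_eq_pow_of_mul_eq_pow (k := 2) (a := A) (b := C') (c := k')
      (Nat.isUnit_iff.2 hco2) (by rw [hp]; ring)
    obtain ⟨s, hs⟩ := exists_eq_pow_of_mul_eq_pow (k := 2) (a := C') (b := A) (c := k')
      (Nat.isUnit_iff.2 hco2.symm) (by rw [mul_comm, hp]; ring)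
    subst hr hs
    have hrs : k' = r * s := by
      have : k' ^ 2 = (r * s) ^ 2 := by rw [mul_pow, sq k', ← hp]
      exact Nat.pow_left_injective two_ne_zero this
    have hcS : c = -2 * (s : ℤ) ^ 2 := by push_cast at hC; linarith
    have hcop : IsCoprime (r : ℤ) (s : ℤ) := by
      rw [Int.isCoprime_iff_gcd_eq_one, Int.gcd_natCast_natCast]
      exact (hco2.coprime_dvd_left ⟨r, sq r⟩).coprime_dvd_right ⟨s, sq s⟩
    have hr2 : ¬ (2 : ℤ) ∣ r := by
      intro h2'
      have h2 : (2 : ℕ) ∣ r := by exact_mod_cast h2'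
      exact Nat.not_even_iff_odd.2 hodd (even_iff_two_dvd.2 (h2.trans ⟨r, sq r⟩))
    have hb : b + 2 * c = 2 * (r * s) ∨ b + 2 * c = -(2 * (r * s)) := by
      have := Int.natAbs_eq (b + 2 * c)
      rw [hkk, hrs] at this; push_cast at this; exact this
    push_cast at *
    obtain ⟨R, hR, hRco, hb'⟩ : ∃ R : ℤ, ¬ (2 : ℤ) ∣ R ∧ IsCoprime R (s : ℤ) ∧
        b = 4 * (s : ℤ) ^ 2 + 2 * R * s ∧ (r : ℤ) ^ 2 = R ^ 2 := by
      rcases hb with hb | hb
      · exact ⟨r, hr2, hcop, by rw [hcS] at hb; linarith, rfl⟩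
      · exact ⟨-r, fun h => hr2 (by simpa using h), hcop.neg_left, by rw [hcS] at hb; linarith,
          by ring⟩
    have hE : e ^ 2 = 4 * (s : ℤ) ^ 4 - 4 * R ^ 2 * s ^ 2 - 2 * R ^ 3 * s := by
      rw [he2, hcS, hb'.2, hb'.1]; ring
    have hev : (2 : ℤ) ∣ e := Int.prime_two.dvd_of_dvd_pow (n := 2)
      ⟨2 * (s : ℤ) ^ 4 - 2 * R ^ 2 * s ^ 2 - R ^ 3 * s, by rw [hE]; ring⟩
    obtain ⟨e', rfl⟩ := hev
    have hs2 : (2 : ℤ) ∣ R ^ 3 * s :=
      ⟨-e' ^ 2 + (s : ℤ) ^ 4 - R ^ 2 * s ^ 2, by linarith [hE, show (2 * e') ^ 2 = 4 * e' ^ 2 by ring]⟩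
    obtain ⟨t, ht⟩ := (Int.prime_two.dvd_or_dvd hs2).resolve_left
      fun h => hR (Int.prime_two.dvd_of_dvd_pow h)
    refine ⟨R, 4 * t, 4, ?_, Or.inr rfl, ?_, ?_⟩
    · refine IsCoprime.mul_right ?_ (ht ▸ hRco).of_mul_right_right
      have h2 : IsCoprime R 2 := (Int.prime_two.coprime_iff_not_dvd.2 hR).symm
      simpa using h2.pow_right (n := 2)
    · rw [hn, hcS, hb'.1, hb'.2, ht, nForm]; ring
    · rw [hE, ht, dForm]; ring

/-- If `f(q)` is a square then the denominator of `q` is a square. -/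
theorem exists_sq_den {q : ℚ} (h : IsSquare (q ^ 3 - 4 * q ^ 2 + 16)) :
    ∃ d : ℤ, (q.den : ℤ) = d ^ 2 := by
  obtain ⟨w, hw⟩ := h
  have hd : (q.den : ℚ) ≠ 0 := by positivity
  set N : ℤ := q.num ^ 3 - 4 * q.num ^ 2 * q.den + 16 * (q.den : ℤ) ^ 3 with hN
  have hq : q ^ 3 - 4 * q ^ 2 + 16 = (N : ℚ) / ((q.den ^ 3 : ℕ) : ℚ) := by
    conv_lhs => rw [← Rat.num_div_den q]
    rw [hN]; push_cast; field_simp
  have hcop : Nat.Coprime N.natAbs (q.den ^ 3) := by
    refine Nat.Coprime.pow_right _ ?_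
    have h3 : IsCoprime (q.num ^ 3) (q.den : ℤ) :=
      (Int.isCoprime_iff_gcd_eq_one.2 (by simpa [Int.gcd] using q.reduced)).pow_left
    have : IsCoprime N (q.den : ℤ) := by
      rw [show N = q.num ^ 3 + (q.den : ℤ) * (-4 * q.num ^ 2 + 16 * (q.den : ℤ) ^ 2) by rw [hN]; ring]
      exact h3.add_mul_left_left _
    simpa [Int.gcd] using Int.isCoprime_iff_gcd_eq_one.1 this
  have hden : ((q ^ 3 - 4 * q ^ 2 + 16).den : ℤ) = (q.den : ℤ) ^ 3 := by
    rw [hq]
    rw [show (((q.den ^ 3 : ℕ) : ℚ)) = (((q.den ^ 3 : ℕ) : ℤ) : ℚ) by push_cast; ring,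
      Rat.den_div_eq_of_coprime (by positivity) (by simpa using hcop)]
    push_cast; ring
  rw [hw, Rat.mul_self_den] at hden
  push_cast at hden
  -- `den(w)² = den(q)³`
  have hdvd : (q.den : ℤ) ∣ (w.den : ℤ) := by
    rw [← Int.pow_dvd_pow_iff two_ne_zero]
    exact ⟨q.den, by linear_combination hden⟩
  obtain ⟨k, hk⟩ := hdvd
  refine ⟨k, mul_left_cancel₀ (pow_ne_zero 2 (by exact_mod_cast q.den_nz : (q.den : ℤ) ≠ 0)) ?_⟩
  rw [hk] at hden; linear_combination -hden

theorem isSquare_num_of {q : ℚ} (h : IsSquare (q ^ 3 - 4 * q ^ 2 + 16)) {d : ℤ}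
    (hd : (q.den : ℤ) = d ^ 2) :
    IsSquare (q.num ^ 3 - 4 * q.num ^ 2 * d ^ 2 + 16 * d ^ 6) := by
  obtain ⟨w, hw⟩ := h
  have hd0 : (d : ℚ) ≠ 0 := by
    intro h0
    have : d = 0 := by exact_mod_cast h0
    subst this; simp at hd
  rw [← Rat.isSquare_intCast_iff]
  refine ⟨w * (d : ℚ) ^ 3, ?_⟩
  have hd' : ((q.den : ℚ)) = (d : ℚ) ^ 2 := by exact_mod_cast hd
  have hq : (q.num : ℚ) = q * (d : ℚ) ^ 2 := by rw [← hd', Rat.mul_den_eq_num]
  push_cast; rw [hq]; linear_combination (d : ℚ) ^ 6 * hw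

theorem small_cases : ∀ r ∈ Finset.Icc (-5 : ℤ) 5, ∀ s ∈ Finset.Icc (-5 : ℤ) 5,
    (∃ x ∈ Finset.Icc (0 : ℤ) 130, dForm r s = x * x) →
      (dForm r s = 0 ∨ nForm r s = 0 ∨ nForm r s = 4 * dForm r s ∨ 1 < Int.gcd r s) := by
  decide +kernel

theorem size_bound (r s : ℤ) (hD : 0 ≤ dForm r s) :
    15 * (r ^ 4 + s ^ 4) ≤ 100 * (|nForm r s| + dForm r s) := by
  unfold nForm dForm at *
  rcases le_or_gt 0 (r ^ 4 + 2 * r * s ^ 3 + s ^ 4) with h | h
  · rw [abs_of_nonneg (by linarith)]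
    nlinarith [sq_nonneg (r + s), sq_nonneg (r * r - s * s), sq_nonneg (r * r + r * s),
      sq_nonneg (r * s + s * s), mul_self_nonneg (r * r + r * s - s * s)]
  · rw [abs_of_neg (by linarith)]
    nlinarith [sq_nonneg (r + s), sq_nonneg (r * r - s * s), sq_nonneg (r * r + r * s),
      sq_nonneg (r * s + s * s), mul_self_nonneg (r * r + r * s - s * s)]

/-- The rational points of `Y² = Z³ - 4Z² + 16`. -/
theorem descent_int : ∀ (h : ℕ) (n e : ℤ), n.natAbs + (e ^ 2).natAbs = h → e ≠ 0 → IsCoprime n e →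
    IsSquare (n ^ 3 - 4 * n ^ 2 * e ^ 2 + 16 * e ^ 6) → n = 0 ∨ n = 4 * e ^ 2 := by
  intro h
  induction h using Nat.strong_induction_on with
  | _ h ih =>
    intro n e hh he hco hsq
    obtain ⟨m, hm⟩ := hsq
    obtain ⟨a, b, c, h1, h2, h3⟩ := cubic44.descent_sq he hco (m := m) (by rw [hm]; ring)
    obtain ⟨r, s, l, hrs, hl, hN, hD⟩ := param he hco h1 h2 h3
    have hlpos : 0 < l := by rcases hl with rfl | rfl <;> norm_num
    have hpos : 0 < dForm r s := by rw [hD]; positivity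
    have concl : nForm r s = 0 ∨ nForm r s = 4 * dForm r s → n = 0 ∨ n = 4 * e ^ 2 := by
      rintro (h0 | h0) <;> rw [hN] at h0
      · exact Or.inl ((mul_eq_zero.1 h0).resolve_left hlpos.ne')
      · rw [hD] at h0; exact Or.inr (mul_left_cancel₀ hlpos.ne' (by linarith))
    by_cases hsmall : r.natAbs ≤ 5 ∧ s.natAbs ≤ 5
    · apply concl
      rcases small_cases r (Finset.mem_Icc.2 ⟨by omega, by omega⟩) s
        (Finset.mem_Icc.2 ⟨by omega, by omega⟩) (by
          obtain ⟨x, hx, hx2⟩ : ∃ x : ℤ, 0 ≤ x ∧ dForm r s = x * x := by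
            rcases hl with rfl | rfl
            · exact ⟨|e|, abs_nonneg _, by rw [hD, abs_mul_abs_self]; ring⟩
            · exact ⟨2 * |e|, by positivity, by rw [hD]; linear_combination (-4 : ℤ) * abs_mul_abs_self e⟩
          refine ⟨x, Finset.mem_Icc.2 ⟨hx, ?_⟩, hx2⟩
          have : dForm r s ≤ 5 ^ 4 * 9 := by
            obtain ⟨hr1, hr2, hs1, hs2⟩ : -5 ≤ r ∧ r ≤ 5 ∧ -5 ≤ s ∧ s ≤ 5 := by omega
            have hr : r ^ 2 ≤ 25 := by nlinarith
            have hs : s ^ 2 ≤ 25 := by nlinarith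
            have h4 : s ^ 4 ≤ 625 := by nlinarith
            have h3 : -(4 * r ^ 3 * s) ≤ 2500 := by
              nlinarith [sq_nonneg (r + s), sq_nonneg (r - s)]
            unfold dForm; nlinarith [sq_nonneg (r * s)]
          nlinarith) with h0 | h0 | h0 | h0
      · omega
      · exact Or.inl h0
      · exact Or.inr h0
      · rw [Int.isCoprime_iff_gcd_eq_one.1 hrs] at h0; omega
    · -- descend to the point `X' = -4r/s`
      have hs0 : s ≠ 0 := by rintro rfl; simp [dForm] at hpos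
      obtain ⟨w, hw⟩ : ∃ w, dForm r s = w * w := by
        rcases hl with rfl | rfl
        · exact ⟨e, by rw [hD]; ring⟩
        · exact ⟨2 * e, by rw [hD]; ring⟩
      set q : ℚ := -4 * (r : ℚ) / s with hq
      have hfq : IsSquare (q ^ 3 - 4 * q ^ 2 + 16) := by
        refine ⟨4 * (w : ℚ) / ((s : ℚ) * s), ?_⟩
        have hw' : (w : ℚ) * w = (s : ℚ) ^ 4 - 4 * (r : ℚ) ^ 2 * (s : ℚ) ^ 2 - 4 * (r : ℚ) ^ 3 * s := by
          exact_mod_cast (hw.symm.trans rfl)
        have : (s : ℚ) ≠ 0 := by exact_mod_cast hs0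
        rw [hq]; field_simp; linear_combination -16 * hw'
      obtain ⟨d, hd⟩ := exists_sq_den hfq
      have hlt : q.num.natAbs + (d ^ 2).natAbs < h := by
        have hnum : q.num.natAbs ≤ 4 * r.natAbs := by
          have hdvd : q.num ∣ -4 * r := by
            rw [hq, show (-4 * (r : ℚ) / s) = ((-4 * r : ℤ) : ℚ) / ((s : ℤ) : ℚ) by push_cast; ring,
              ← Rat.divInt_eq_div]
            exact Rat.num_dvd _ hs0
          rcases eq_or_ne r 0 with rfl | hr0
          · simp [hq]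
          · calc q.num.natAbs ≤ (-4 * r).natAbs :=
                  Nat.le_of_dvd (by omega) (Int.natAbs_dvd_natAbs.2 hdvd)
              _ = 4 * r.natAbs := by simp [Int.natAbs_mul]
        have hden : (d ^ 2).natAbs ≤ s.natAbs := by
          rw [← hd, Int.natAbs_natCast]
          have : (q.den : ℤ) ∣ s := by
            rw [hq, show (-4 * (r : ℚ) / s) = ((-4 * r : ℤ) : ℚ) / ((s : ℤ) : ℚ) by push_cast; ring,
              ← Rat.divInt_eq_div]
            exact Rat.den_dvd _ _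
          exact Nat.le_of_dvd (by omega) (Int.natCast_dvd.1 this)
        have hb := size_bound r s hpos.le
        rw [hN, hD, abs_mul, abs_of_pos hlpos] at hb
        have hl4 : l ≤ 4 := by rcases hl with rfl | rfl <;> norm_num
        have hh' : (h : ℤ) = |n| + e ^ 2 := by
          rw [← hh]; push_cast [Int.natCast_natAbs]; rw [abs_of_nonneg (sq_nonneg e)]
        have hM : 6 * 6 * 6 * (r.natAbs : ℤ) ≤ r ^ 4 + s ^ 4 ∧
            6 * 6 * 6 * (s.natAbs : ℤ) ≤ r ^ 4 + s ^ 4 := by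
          have hr4 : ((r.natAbs : ℤ)) ^ 4 = r ^ 4 := by
            rw [Int.natCast_natAbs, Even.pow_abs ⟨2, rfl⟩]
          have hs4 : ((s.natAbs : ℤ)) ^ 4 = s ^ 4 := by
            rw [Int.natCast_natAbs, Even.pow_abs ⟨2, rfl⟩]
          rw [← hr4, ← hs4]
          set R : ℤ := (r.natAbs : ℤ)
          set S : ℤ := (s.natAbs : ℤ)
          have hR : 0 ≤ R := by positivity
          have hS : 0 ≤ S := by positivity
          have big : ∀ X : ℤ, 6 ≤ X → 216 * X ≤ X ^ 4 := fun X hX => by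
            have h3 := pow_le_pow_left₀ (by norm_num : (0 : ℤ) ≤ 6) hX 3
            have := mul_le_mul_of_nonneg_right h3 (by omega : (0 : ℤ) ≤ X)
            linarith [show X ^ 3 * X = X ^ 4 by ring]
          have hR4 := pow_nonneg hR 4
          have hS4 := pow_nonneg hS 4
          rcases le_total R S with h' | h'
          · have := big S (by omega)
            constructor <;> linarith
          · have := big R (by omega)
            constructor <;> linarith
        have : 4 * (r.natAbs : ℤ) + (s.natAbs : ℤ) < (h : ℤ) := by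
          have : (0 : ℤ) ≤ |n| := abs_nonneg n
          nlinarith
        omega
      obtain ⟨k, hk⟩ := isSquare_num_of hfq hd
      have hd0 : d ≠ 0 := by rintro rfl; simp at hd
      rcases ih _ hlt q.num d rfl hd0 (by
          rw [Int.isCoprime_iff_gcd_eq_one]
          refine Nat.Coprime.coprime_dvd_right ?_ q.reduced
          exact ⟨d.natAbs, by rw [← sq, ← Int.natAbs_pow, ← hd, Int.natAbs_natCast]⟩) ⟨k, hk⟩
        with h0 | h0
      · have hr : r = 0 := by
          have : q = 0 := Rat.num_eq_zero.1 h0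
          simp [hq, hs0] at this; exact this
        exact concl (Or.inr (by subst hr; simp [nForm, dForm]))
      · have hr : r = -s := by
          have : q = 4 := by
            rw [← Rat.num_div_den q, h0, ← hd]; push_cast
            field_simp
          rw [hq, div_eq_iff (by exact_mod_cast hs0)] at this
          have : (r : ℚ) = ((-s : ℤ) : ℚ) := by push_cast; linarith
          exact_mod_cast this
        exact concl (Or.inl (by subst hr; simp [nForm]; ring))

end Fermat.Agent.Mazur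

namespace Fermat.Agent.Mazur

/-- The rational points of 11a3: `Z = 0` or `Z = 4`. -/
theorem rational_points_11a3 {Z Y : ℚ} (h : Y ^ 2 = Z ^ 3 - 4 * Z ^ 2 + 16) : Z = 0 ∨ Z = 4 := by
  have hsq : IsSquare (Z ^ 3 - 4 * Z ^ 2 + 16) := ⟨Y, by rw [← h, sq]⟩
  obtain ⟨d, hd⟩ := exists_sq_den hsq
  have hd0 : d ≠ 0 := by rintro rfl; simp at hd
  have hco : IsCoprime Z.num d :=
    IsCoprime.of_mul_right_left (y := d)
      (by rw [← sq, ← hd]; exact Int.isCoprime_iff_gcd_eq_one.2 (by simpa [Int.gcd] using Z.reduced))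
  rcases descent_int _ Z.num d rfl hd0 hco (isSquare_num_of hsq hd) with h0 | h0
  · exact Or.inl (Rat.num_eq_zero.1 h0)
  · right
    rw [← Rat.num_div_den Z, h0, ← hd]; push_cast
    field_simp

end Fermat.Agent.Mazur
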