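import Fermat.Agent.Mazur.TateForm

/-!
# Points of order eleven and the curve 11a3

A point of order eleven gives a point `(ZR s, YR r s)` of `Y² = Z³ - 4Z² + 16`;
doubling the point adds `(4, 4)`.
-/

set_option autoImplicit false

namespace Fermat.Agent.Mazur

open WeierstrassCurve

variable {K : Type*} [Field K] [CharZero K]

/-- `Z`-coordinate on 11a3. -/
def ZR (s : K) : K := 4 * (s - 1) / s

/-- `Y`-coordinate on 11a3. -/
def YR (r s : K) : K := 4 * (2 * r - s ^ 3 + 3 * s ^ 2 - 4 * s) / (s ^ 2 * (s - 1))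

/-- The raw equation of `X₁(11)`. -/
def Raw11 (r s : K) : Prop := r ^ 2 - r * (s ^ 3 - 3 * s ^ 2 + 4 * s) + s = 0

theorem YR_sq {r s : K} (hs : s ≠ 0) (hs1 : s - 1 ≠ 0) (hF : Raw11 r s) :
    YR r s ^ 2 = ZR s ^ 3 - 4 * ZR s ^ 2 + 16 := by
  unfold YR ZR; unfold Raw11 at hF
  field_simp
  linear_combination 64 * hF

/-- Doubling is translation by `(4, 4)`, first coordinate. -/
theorem diamond_Z {r s N M r' s' : K} (hs : s ≠ 0) (hs1 : s - 1 ≠ 0) (hr1 : r - 1 ≠ 0)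
    (hN : N = (r - 1) * (2 - s) - (s - 1)) (hM : M = -r * (s - 1) ^ 3 - s ^ 2 * N)
    (hN0 : N ≠ 0) (hM0 : M ≠ 0) (hF : Raw11 r s)
    (hs' : s' = N ^ 2 / ((r - 1) * M)) (_hr' : r' = -r * (s - 1) ^ 3 / (s ^ 2 * N)) :
    ZR s' = ((YR r s - 4) / (ZR s - 4)) ^ 2 - ZR s := by
  have hZ4 : ZR s - 4 ≠ 0 := by
    have : ZR s - 4 = -4 / s := by unfold ZR; field_simp; ring
    rw [this]
    exact fun h => by
      rcases div_eq_zero_iff.1 h with h | h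
      · norm_num at h
      · exact hs h
  have hl : (YR r s - 4) / (ZR s - 4) = -2 * (r - s ^ 3 + 2 * s ^ 2 - 2 * s) / (s * (s - 1)) := by
    rw [div_eq_iff hZ4]; unfold YR ZR; field_simp; ring
  unfold Raw11 at hF
  rw [hl, hs']; unfold ZR
  field_simp
  subst hM hN
  linear_combination (4 * (-r ^ 2 * s ^ 2 + 4 * r ^ 2 * s - 4 * r ^ 2 + r * s ^ 5 - 5 * r * s ^ 4
    + 8 * r * s ^ 3 - 4 * r * s ^ 2 - 2 * r * s + 4 * r + 2 * s ^ 4 - 5 * s ^ 3 + 3 * s ^ 2 - 1)) * hF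

set_option maxHeartbeats 1000000 in
/-- Doubling is translation by `(4, 4)`, second coordinate. -/
theorem diamond_Y {r s N M r' s' : K} (hs : s ≠ 0) (hs1 : s - 1 ≠ 0) (hr1 : r - 1 ≠ 0)
    (hN : N = (r - 1) * (2 - s) - (s - 1)) (hM : M = -r * (s - 1) ^ 3 - s ^ 2 * N)
    (hN0 : N ≠ 0) (hM0 : M ≠ 0) (hs1' : s' - 1 ≠ 0) (hF : Raw11 r s)
    (hs' : s' = N ^ 2 / ((r - 1) * M)) (hr' : r' = -r * (s - 1) ^ 3 / (s ^ 2 * N)) :
    YR r' s' = -((YR r s - 4) / (ZR s - 4)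
      * (((YR r s - 4) / (ZR s - 4)) ^ 2 - ZR s - ZR s) + YR r s) := by
  have hl : (YR r s - 4) / (ZR s - 4) = -2 * (r - s ^ 3 + 2 * s ^ 2 - 2 * s) / (s * (s - 1)) := by
    unfold YR ZR; field_simp; ring
  have hD : N ^ 2 - (r - 1) * M ≠ 0 := by
    intro e; apply hs1'; rw [hs', div_sub_one (mul_ne_zero hr1 hM0), e, zero_div]
  unfold Raw11 at hF
  rw [hl, hs', hr']; unfold ZR YR
  field_simp
  subst hM hN
  linear_combination (4 * (-2*r ^ 8*s ^ 6 + 26*r ^ 8*s ^ 5 - 140*r ^ 8*s ^ 4 + 400*r ^ 8*s ^ 3 - 640*r ^ 8*s ^ 2 + 544*r ^ 8*s - 192*r ^ 8 + 4*r ^ 7*s ^ 9 - 58*r ^ 7*s ^ 8 + 362*r ^ 7*s ^ 7 - 1274*r ^ 7*s ^ 6 + 2764*r ^ 7*s ^ 5 - 3718*r ^ 7*s ^ 4 + 2736*r ^ 7*s ^ 3 - 304*r ^ 7*s ^ 2 - 1152*r ^ 7*s + 672*r ^ 7 - 2*r ^ 6*s ^ 12 + 32*r ^ 6*s ^ 11 - 224*r ^ 6*s ^ 10 + 904*r ^ 6*s ^ 9 - 2300*r ^ 6*s ^ 8 + 3642*r ^ 6*s ^ 7 - 2782*r ^ 6*s ^ 6 - 1660*r ^ 6*s ^ 5 + 7002*r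 ^ 6*s ^ 4 - 8060*r ^ 6*s ^ 3 + 3864*r ^ 6*s ^ 2 + 496*r ^ 6*s - 1024*r ^ 6 - 2*r ^ 5*s ^ 12 + 10*r ^ 5*s ^ 11 + 66*r ^ 5*s ^ 10 - 744*r ^ 5*s ^ 9 + 2960*r ^ 5*s ^ 8 - 6446*r ^ 5*s ^ 7 + 7902*r ^ 5*s ^ 6 - 3570*r ^ 5*s ^ 5 - 4562*r ^ 5*s ^ 4 + 8946*r ^ 5*s ^ 3 - 6062*r ^ 5*s ^ 2 + 846*r ^ 5*s + 880*r ^ 5 + 2*r ^ 4*s ^ 13 - 26*r ^ 4*s ^ 12 + 138*r ^ 4*s ^ 11 - 432*r ^ 4*s ^ 10 + 1112*r ^ 4*s ^ 9 - 2834*r ^ 4*s ^ 8 + 5970*r ^ 4*s ^ 7 - 8358*r ^ 4*s ^ 6 + 6198*r ^ 4*s ^ 5 + 304*r ^ 4*s ^ 4 - 5262*r ^ 4*s ^ 3 + 4672*r ^ 4*s ^ 2 - 1304*r ^ 4*s - 460*r ^ 4 + 10*r ^ 3*s ^ 12 - 108*r ^ 3*s ^ 11 + 480*r ^ 3*s ^ 10 - 1238*r ^ 3*s ^ 9 + 2396*r ^ 3*s ^ 8 - 4060*r ^ 3*s ^ 7 + 5480*r ^ 3*s ^ 6 - 4724*r ^ 3*s ^ 5 + 1404*r ^ 3*s ^ 4 + 1690*r ^ 3*s ^ 3 - 2074*r ^ 3*s ^ 2 + 822*r ^ 3*s + 146*r ^ 3 + 20*r ^ 2*s ^ 11 - 168*r ^ 2*s ^ 10 + 570*r ^ 2*s ^ 9 - 1134*r ^ 2*s ^ 8 + 1716*r ^ 2*s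 ^ 7 - 2156*r ^ 2*s ^ 6 + 1944*r ^ 2*s ^ 5 - 880*r ^ 2*s ^ 4 - 258*r ^ 2*s ^ 3 + 542*r ^ 2*s ^ 2 - 282*r ^ 2*s - 26*r ^ 2 + 20*r*s ^ 10 - 114*r*s ^ 9 + 270*r*s ^ 8 - 400*r*s ^ 7 + 468*r*s ^ 6 - 418*r*s ^ 5 + 224*r*s ^ 4 + 6*r*s ^ 3 - 78*r*s ^ 2 + 52*r*s + 2*r - 2*s ^ 10 + 16*s ^ 9 - 46*s ^ 8 + 72*s ^ 7 - 78*s ^ 6 + 62*s ^ 5 - 34*s ^ 4 + 6*s ^ 3 + 4*s ^ 2 - 4*s)) * hF

section Order

variable [DecidableEq K] {E : WeierstrassCurve K}

theorem nsmul_ne_of_order {G : Type*} [AddCommGroup G] {p : ℕ} {P : G}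
    (hP : addOrderOf P = p) {i j : ℕ} (h : ¬ p ∣ i + j) (h' : ¬ (p : ℤ) ∣ (i : ℤ) - j) :
    i • P ≠ j • P ∧ i • P ≠ -(j • P) := by
  constructor <;> intro e
  · apply h'
    rw [← hP, addOrderOf_dvd_iff_zsmul_eq_zero, sub_zsmul, natCast_zsmul, natCast_zsmul, e]
    exact add_neg_cancel _
  · apply h
    rw [← hP, addOrderOf_dvd_iff_nsmul_eq_zero, add_nsmul, e, neg_add_cancel]

/-- A Tate normal form at a point of order eleven: the raw equation, and the form at `2P`. -/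
theorem tate_eleven {x y u l b c : K} (h : IsTate E x y u l b c)
    {h0 : E.toAffine.Nonsingular x y} (hP : addOrderOf (Affine.Point.some x y h0) = 11) :
    c ≠ 0 ∧ b - c ≠ 0 ∧ c ^ 2 / (b - c) - 1 ≠ 0 ∧ Raw11 (b / c) (c ^ 2 / (b - c)) := by
  set P := Affine.Point.some x y h0 with hPdef
  have ne : ∀ i j : ℕ, ¬ 11 ∣ i + j → ¬ ((11 : ℕ) : ℤ) ∣ (i : ℤ) - j →
      i • P ≠ j • P ∧ i • P ≠ -(j • P) := fun i j => nsmul_ne_of_order hP
  have ne2 : ∀ i : ℕ, ¬ 11 ∣ i + i → i • P ≠ -(i • P) := by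
    intro i hi e
    apply hi
    rw [← hP, addOrderOf_dvd_iff_nsmul_eq_zero, add_nsmul]
    nth_rewrite 1 [e]
    exact neg_add_cancel _
  have p1 : AtPt E x y u l 0 0 ((1 : ℕ) • P) := by rw [one_nsmul]; exact IsTate.atPt_origin
  have p2 : AtPt E x y u l b (b * c) ((2 : ℕ) • P) := by
    rw [show (2 : ℕ) • P = (1 : ℕ) • P + (1 : ℕ) • P by abel]
    exact h.add_tangent p1 (ne2 1 (by norm_num)) (L := 0) (by ring) (by ring) (by ring)
  have x21 := h.X_ne_of_ne p2 p1 (ne 2 1 (by norm_num) (by norm_num)).1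
    (ne 2 1 (by norm_num) (by norm_num)).2
  have p3 : AtPt E x y u l c (b - c) ((3 : ℕ) • P) := by
    rw [show (3 : ℕ) • P = (2 : ℕ) • P + (1 : ℕ) • P by abel]
    exact h.add_chord p2 p1 x21 (L := c) (by ring) (by ring) (by ring)
  have hc : c ≠ 0 := h.X_ne_of_ne p3 p1 (ne 3 1 (by norm_num) (by norm_num)).1
    (ne 3 1 (by norm_num) (by norm_num)).2
  have hbc : b - c ≠ 0 := sub_ne_zero.2 (h.X_ne_of_ne p2 p3 (ne 2 3 (by norm_num) (by norm_num)).1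
    (ne 2 3 (by norm_num) (by norm_num)).2)
  have p4 : AtPt E x y u l (b * (b - c) / c ^ 2) (b ^ 2 * (c ^ 2 - b + c) / c ^ 3)
      ((4 : ℕ) • P) := by
    rw [show (4 : ℕ) • P = (3 : ℕ) • P + (1 : ℕ) • P by abel]
    exact h.add_chord p3 p1 hc (L := (b - c) / c) (by field_simp; ring) (by field_simp; ring)
      (by field_simp; ring)
  have hx4 : b * (b - c) / c ^ 2 ≠ 0 := div_ne_zero (mul_ne_zero h.b0 hbc) (pow_ne_zero 2 hc)
  have p5 : AtPt E x y u l (b * c * (c ^ 2 + c - b) / (b - c) ^ 2)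
      (-(b * (c ^ 2 - b + c) / (c * (b - c)) * (b * c * (c ^ 2 + c - b) / (b - c) ^ 2
        - b * (b - c) / c ^ 2) + b ^ 2 * (c ^ 2 - b + c) / c ^ 3)
        - (1 - c) * (b * c * (c ^ 2 + c - b) / (b - c) ^ 2) + b)
      ((5 : ℕ) • P) := by
    rw [show (5 : ℕ) • P = (4 : ℕ) • P + (1 : ℕ) • P by abel]
    exact h.add_chord p4 p1 hx4 (L := b * (c ^ 2 - b + c) / (c * (b - c)))
      (by field_simp [h.b0]; ring) (by field_simp; ring) rfl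
  have hden : 2 * (b - c) + (1 - c) * c - b ≠ 0 := by
    intro e
    obtain ⟨h3, e3⟩ := p3
    apply ne2 3 (by norm_num)
    rw [e3, Affine.Point.neg_some]
    simp only [Affine.Point.some.injEq, true_and, Affine.negY, h.a3, h.a1]
    linear_combination u ^ 3 * e
  set L6 := (3 * c ^ 2 - 2 * b * c - (1 - c) * (b - c)) / (2 * (b - c) + (1 - c) * c - b) with hL6
  obtain ⟨Y6, p6⟩ : ∃ Y6, AtPt E x y u l (L6 ^ 2 + (1 - c) * L6 + b - c - c) Y6 ((6 : ℕ) • P) := by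
    rw [show (6 : ℕ) • P = (3 : ℕ) • P + (3 : ℕ) • P by abel]
    exact ⟨_, h.add_tangent p3 (ne2 3 (by norm_num)) (L := L6)
      (by rw [hL6, div_mul_cancel₀ _ hden]) rfl rfl⟩
  have h56 : (6 : ℕ) • P = -((5 : ℕ) • P) := by
    apply eq_neg_of_add_eq_zero_left
    rw [← add_nsmul, show 6 + 5 = 11 from rfl, ← hP, addOrderOf_nsmul_eq_zero]
  obtain ⟨_, e5⟩ := p5
  obtain ⟨_, e6⟩ := p6
  rw [e5, e6, Affine.Point.neg_some, Affine.Point.some.injEq] at h56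
  have hx := mul_left_cancel₀ (pow_ne_zero 2 h.u0) (add_left_cancel h56.1)
  have hs1 : c ^ 2 / (b - c) - 1 ≠ 0 := by
    have h24 := h.X_ne_of_ne p4 p2 (ne 4 2 (by norm_num) (by norm_num)).1
      (ne 4 2 (by norm_num) (by norm_num)).2
    intro e
    apply h24
    have : c ^ 2 = b - c := by
      field_simp at e; linear_combination e
    rw [← this]; field_simp
  refine ⟨hc, hbc, hs1, ?_⟩
  generalize hD : 2 * (b - c) + (1 - c) * c - b = D at hL6 hden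
  rw [hL6] at hx
  field_simp at hx
  subst hD
  unfold Raw11
  field_simp
  linear_combination hx

end Order

section R11

variable [DecidableEq K] {E : WeierstrassCurve K}

/-- The point of 11a3 attached to a point of order eleven. -/
def R11 (P : E.toAffine.Point) (Z Y : K) : Prop :=
  ∃ x y h0 u l b c, P = Affine.Point.some x y h0 ∧ addOrderOf P = 11 ∧ IsTate E x y u l b c ∧
    Z = ZR (c ^ 2 / (b - c)) ∧ Y = YR (b / c) (c ^ 2 / (b - c))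

theorem R11.exists (P : E.toAffine.Point) (hP : addOrderOf P = 11) : ∃ Z Y, R11 P Z Y := by
  match P, hP with
  | .zero, hP => exact absurd (addOrderOf_zero.symm.trans hP) (by norm_num)
  | .some x y h0, hP =>
    have hne : ∀ k : ℕ, 0 < k → k < 11 → k • (Affine.Point.some x y h0) ≠ 0 := fun k hk hk' =>
      nsmul_ne_zero_of_lt_addOrderOf hk.ne' (hP ▸ hk')
    obtain ⟨u, l, b, c, h⟩ := exists_isTate h0 (hne 2 (by norm_num) (by norm_num))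
      (hne 3 (by norm_num) (by norm_num))
    exact ⟨_, _, x, y, h0, u, l, b, c, rfl, hP, h, rfl, rfl⟩

theorem R11.unique {P : E.toAffine.Point} {Z Y Z' Y' : K} (h : R11 P Z Y) (h' : R11 P Z' Y') :
    Z = Z' ∧ Y = Y' := by
  obtain ⟨x, y, h0, u, l, b, c, e, -, hT, rfl, rfl⟩ := h
  obtain ⟨x', y', h0', u', l', b', c', e', -, hT', rfl, rfl⟩ := h'
  rw [e, Affine.Point.some.injEq] at e'
  obtain ⟨rfl, rfl⟩ := e'
  obtain ⟨-, -, rfl, rfl⟩ := hT.ext_eq hT'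
  exact ⟨rfl, rfl⟩

theorem R11.spec {P : E.toAffine.Point} {Z Y : K} (h : R11 P Z Y) :
    Z ≠ 0 ∧ Z - 4 ≠ 0 ∧ Y ^ 2 = Z ^ 3 - 4 * Z ^ 2 + 16 := by
  obtain ⟨x, y, h0, u, l, b, c, rfl, hP, hT, rfl, rfl⟩ := h
  obtain ⟨hc, hbc, hs1, hF⟩ := tate_eleven hT hP
  have hs : c ^ 2 / (b - c) ≠ 0 := div_ne_zero (pow_ne_zero 2 hc) hbc
  refine ⟨div_ne_zero (mul_ne_zero (by norm_num) hs1) hs, ?_, YR_sq hs hs1 hF⟩
  generalize c ^ 2 / (b - c) = s at hs ⊢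
  have : ZR s - 4 = -4 / s := by unfold ZR; field_simp; ring
  rw [this]
  exact div_ne_zero (by norm_num) hs

theorem R11.double {P : E.toAffine.Point} {Z Y : K} (h : R11 P Z Y) :
    R11 ((2 : ℕ) • P) (((Y - 4) / (Z - 4)) ^ 2 - Z)
      (-((Y - 4) / (Z - 4) * (((Y - 4) / (Z - 4)) ^ 2 - Z - Z) + Y)) := by
  obtain ⟨x, y, h0, u, l, b, c, rfl, hP, hT, rfl, rfl⟩ := h
  obtain ⟨hc, hbc, hs1, hF⟩ := tate_eleven hT hP
  obtain ⟨s, hs⟩ : ∃ s, s = c ^ 2 / (b - c) := ⟨_, rfl⟩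
  obtain ⟨r, hr⟩ : ∃ r, r = b / c := ⟨_, rfl⟩
  rw [← hs] at hs1 hF ⊢
  rw [← hr] at hF ⊢
  have hs0 : s ≠ 0 := hs ▸ div_ne_zero (pow_ne_zero 2 hc) hbc
  have hr0 : r ≠ 0 := hr ▸ div_ne_zero hT.b0 hc
  have hr1 : r - 1 ≠ 0 := by rw [hr, div_sub_one hc]; exact div_ne_zero hbc hc
  have ec : c = s * (r - 1) := by rw [hs, hr]; field_simp
  have eb : b = r * s * (r - 1) := by rw [hs, hr]; field_simp
  set P := Affine.Point.some x y h0
  have hne2 : P ≠ -P := by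
    intro e
    have : (2 : ℕ) • P = 0 := by rw [two_nsmul]; nth_rewrite 1 [e]; exact neg_add_cancel _
    exact nsmul_ne_zero_of_lt_addOrderOf two_ne_zero (by rw [hP]; norm_num) this
  have p2 : AtPt E x y u l b (b * c) ((2 : ℕ) • P) := by
    rw [two_nsmul]
    exact hT.add_tangent IsTate.atPt_origin hne2 (L := 0) (by ring) (by ring) (by ring)
  obtain ⟨h2, e2⟩ := p2
  have hord : addOrderOf ((2 : ℕ) • P) = 11 := by
    rw [addOrderOf_nsmul' _ two_ne_zero, hP]; rfl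
  have hu := hT.u0
  have hr' : r * s ^ 2 * (r - 1) ^ 2 ≠ 0 :=
    mul_ne_zero (mul_ne_zero hr0 (pow_ne_zero 2 hs0)) (pow_ne_zero 2 hr1)
  have hT' : IsTate E (x + u ^ 2 * b) (y + l * u ^ 2 * b + u ^ 3 * (b * c))
      (u * (s ^ 2 * (r - 1)) / (s - 1)) (l + u * ((r - 1) * (1 + s)))
      (-r * (s - 1) ^ 3 / (s ^ 4 * (r - 1)))
      (((r - 1) * (2 - s) - (s - 1)) / (s ^ 2 * (r - 1))) := by
    refine ⟨div_ne_zero (mul_ne_zero hu (mul_ne_zero (pow_ne_zero 2 hs0) hr1)) hs1,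
      div_ne_zero (mul_ne_zero (neg_ne_zero.2 hr0) (pow_ne_zero 3 hs1))
        (mul_ne_zero (pow_ne_zero 4 hs0) hr1), ?_, ?_, ?_, ?_, ?_⟩
    · simp only [hT.a1, eb, ec]; field_simp; ring
    · simp only [hT.a2, hT.a1, eb, ec]; field_simp; ring
    · simp only [hT.a3, hT.a1, eb, ec]; field_simp; ring
    · simp only [hT.a4, hT.a2, hT.a1, eb, ec]; field_simp; ring
    · have := (Affine.equation_iff _ _).1 h2.1
      linear_combination (-1 : K) * this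
  obtain ⟨hc', hbc', hs1', -⟩ := tate_eleven hT' (h0 := h2) (by rw [← e2]; exact hord)
  obtain ⟨N, hN⟩ : ∃ N, N = (r - 1) * (2 - s) - (s - 1) := ⟨_, rfl⟩
  obtain ⟨M, hM⟩ : ∃ M, M = -r * (s - 1) ^ 3 - s ^ 2 * N := ⟨_, rfl⟩
  rw [← hN] at hc' hbc' hs1' hT'
  have hN0 : N ≠ 0 := by rintro rfl; exact hc' (zero_div _)
  have eM : -r * (s - 1) ^ 3 / (s ^ 4 * (r - 1)) - N / (s ^ 2 * (r - 1)) = M / (s ^ 4 * (r - 1)) := by
    rw [hM]; field_simp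
  have hM0 : M ≠ 0 := by
    intro e; rw [eM, e, zero_div] at hbc'; exact hbc' rfl
  have es : (N / (s ^ 2 * (r - 1))) ^ 2
      / (-r * (s - 1) ^ 3 / (s ^ 4 * (r - 1)) - N / (s ^ 2 * (r - 1))) = N ^ 2 / ((r - 1) * M) := by
    rw [eM]; field_simp
  have er : -r * (s - 1) ^ 3 / (s ^ 4 * (r - 1)) / (N / (s ^ 2 * (r - 1)))
      = -r * (s - 1) ^ 3 / (s ^ 2 * N) := by
    field_simp
  rw [es] at hs1'
  refine ⟨_, _, h2, _, _, _, _, e2, hord, hT', ?_, ?_⟩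
  · rw [es]; exact (diamond_Z hs0 hs1 hr1 hN hM hN0 hM0 hF rfl rfl).symm
  · rw [es, er]; exact (diamond_Y hs0 hs1 hr1 hN hM hN0 hM0 hs1' hF rfl rfl).symm

/-- The quotient map to 11a1, abscissa. -/
def chi11 (Z : K) : K := Z + 64 / Z ^ 2 + 32 / (Z - 4) + 64 / (Z - 4) ^ 2

/-- The derivative of `chi11`. -/
def psi11 (Z : K) : K := 1 - 128 / Z ^ 3 - 32 / (Z - 4) ^ 2 - 128 / (Z - 4) ^ 3

/-- 11a3. -/
def B11 : WeierstrassCurve K := ⟨0, -4, 0, 0, 16⟩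

/-- Coordinates of a point, `0` at infinity. -/
def coords {C : WeierstrassCurve K} : C.toAffine.Point → K × K
  | .zero => 0
  | .some x y _ => (x, y)

theorem B11_nonsingular {Z Y : K} (h : Y ^ 2 = Z ^ 3 - 4 * Z ^ 2 + 16) :
    (B11 (K := K)).toAffine.Nonsingular Z Y := by
  refine (Affine.equation_iff_nonsingular_of_Δ_ne_zero ?_).1 ((Affine.equation_iff _ _).2 ?_)
  · simp [B11, WeierstrassCurve.Δ, b₂, b₄, b₆, b₈]; norm_num
  · simp [B11]; linear_combination h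

theorem B11_add {Z Y a d : K} (h : (B11 (K := K)).toAffine.Nonsingular Z Y)
    (h' : (B11 (K := K)).toAffine.Nonsingular a d) (ha : Z ≠ a) :
    coords (Affine.Point.some Z Y h + Affine.Point.some a d h') =
      (((Y - d) / (Z - a)) ^ 2 + 4 - Z - a,
        -((Y - d) / (Z - a) * (((Y - d) / (Z - a)) ^ 2 + 4 - Z - a - Z) + Y)) := by
  rw [Affine.Point.add_of_X_ne ha]
  simp only [coords, Affine.slope_of_X_ne ha, Affine.addX, Affine.addY, Affine.negAddY, Affine.negY,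
    B11]
  ext <;> simp

/-- `chi11` and `psi11 · Y` are invariant under translation by `(4, 4)`. -/
theorem quotient_invariant {Z Y Z' Y' : K} (h0 : Z ≠ 0) (h4 : Z - 4 ≠ 0)
    (hY : Y ^ 2 = Z ^ 3 - 4 * Z ^ 2 + 16) (hZ' : Z' = ((Y - 4) / (Z - 4)) ^ 2 - Z)
    (hY' : Y' = -((Y - 4) / (Z - 4) * (Z' - Z) + Y)) (h0' : Z' ≠ 0) (h4' : Z' - 4 ≠ 0)
    (hYsq' : Y' ^ 2 = Z' ^ 3 - 4 * Z' ^ 2 + 16) :
    chi11 Z' = chi11 Z ∧ psi11 Z' * Y' = psi11 Z * Y := by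
  have n4 : Z ≠ 4 := sub_ne_zero.1 h4
  have t1 : (B11 (K := K)).toAffine.Nonsingular 4 4 := B11_nonsingular (by norm_num)
  have t2 : (B11 (K := K)).toAffine.Nonsingular 0 4 := B11_nonsingular (by norm_num)
  have t3 : (B11 (K := K)).toAffine.Nonsingular 0 (-4) := B11_nonsingular (by norm_num)
  have t4 : (B11 (K := K)).toAffine.Nonsingular 4 (-4) := B11_nonsingular (by norm_num)
  set T := Affine.Point.some 4 4 t1 with hT
  have hy : (4 : K) ≠ (B11 (K := K)).toAffine.negY 4 4 := by simp [B11]; norm_num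
  have hy2 : (4 : K) ≠ (B11 (K := K)).toAffine.negY 0 4 := by simp [B11]; norm_num
  have e2 : T + T = Affine.Point.some 0 4 t2 := by
    rw [hT, Affine.Point.add_self_of_Y_ne hy, Affine.Point.some.injEq]
    simp only [Affine.slope_of_Y_ne rfl hy]
    simp [B11, Affine.addX, Affine.addY, Affine.negAddY, Affine.negY]; norm_num
  have e4 : (T + T) + (T + T) = Affine.Point.some 4 (-4) t4 := by
    rw [e2, Affine.Point.add_self_of_Y_ne hy2, Affine.Point.some.injEq]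
    simp only [Affine.slope_of_Y_ne rfl hy2]
    simp [B11, Affine.addX, Affine.addY, Affine.negAddY, Affine.negY]
  have eneg : -T = Affine.Point.some 4 (-4) t4 := by
    rw [hT, Affine.Point.neg_some, Affine.Point.some.injEq]; simp [B11]
  have h5 : (5 : ℕ) • T = 0 := by
    rw [show (5 : ℕ) • T = ((T + T) + (T + T)) + T by abel, e4, ← eneg, neg_add_cancel]
  have e3 : (3 : ℕ) • T = Affine.Point.some 0 (-4) t3 := by
    have : (3 : ℕ) • T = -(T + T) := eq_neg_of_add_eq_zero_left (by rw [← h5]; abel)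
    rw [this, e2, Affine.Point.neg_some, Affine.Point.some.injEq]; simp [B11]
  let S : (B11 (K := K)).toAffine.Point → K × K := fun R =>
    coords R + coords (R + T) + coords (R + (T + T)) + coords (R + (3 : ℕ) • T)
      + coords (R + ((T + T) + (T + T)))
  have inv : ∀ R, S (R + T) = S R := by
    intro R
    simp only [S]
    rw [show R + T + T = R + (T + T) by abel,
      show R + T + (T + T) = R + (3 : ℕ) • T by abel,
      show R + T + (3 : ℕ) • T = R + ((T + T) + (T + T)) by abel,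
      show R + T + ((T + T) + (T + T)) = R + (5 : ℕ) • T by abel, h5, add_zero]
    abel
  have val : ∀ {Z Y : K} (h : (B11 (K := K)).toAffine.Nonsingular Z Y), Z ≠ 0 → Z ≠ 4 →
      Y ^ 2 = Z ^ 3 - 4 * Z ^ 2 + 16 →
      S (Affine.Point.some Z Y h) = (chi11 Z + 8, psi11 Z * Y) := by
    intro Z Y h z0 z4 hY
    have z4' : Z - 4 ≠ 0 := sub_ne_zero.2 z4
    simp only [S]
    rw [e4, e3, e2, hT, B11_add h t1 z4, B11_add h t2 z0, B11_add h t3 z0, B11_add h t4 z4]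
    simp only [coords, chi11, psi11, sub_zero]
    ext
    · simp only [Prod.fst_add]
      field_simp
      linear_combination (2 * Z ^ 2 + 2 * (Z - 4) ^ 2) * hY
    · simp only [Prod.snd_add]
      field_simp
      linear_combination (-2 * Y * ((Z - 4) ^ 3 + Z ^ 3)) * hY
  have hR := B11_nonsingular hY
  have hR' := B11_nonsingular hYsq'
  have eRT : Affine.Point.some Z Y hR + T = Affine.Point.some Z' Y' hR' := by
    rw [hT, Affine.Point.add_of_X_ne n4, Affine.Point.some.injEq]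
    simp only [Affine.slope_of_X_ne n4]
    subst hY' hZ'
    simp [B11, Affine.addX, Affine.addY, Affine.negAddY, Affine.negY]
    exact ⟨by ring, Or.inl (by ring)⟩
  have := inv (Affine.Point.some Z Y hR)
  rw [eRT, val hR' h0' (sub_ne_zero.1 h4') hYsq', val hR h0 n4 hY, Prod.mk.injEq] at this
  exact ⟨add_right_cancel this.1, this.2⟩

theorem R11.double_invariant {P : E.toAffine.Point} {Z Y Z' Y' : K} (h : R11 P Z Y)
    (h' : R11 ((2 : ℕ) • P) Z' Y') : chi11 Z' = chi11 Z ∧ psi11 Z' * Y' = psi11 Z * Y := by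
  obtain ⟨eZ, eY⟩ := h'.unique h.double
  obtain ⟨h0, h4, hsq⟩ := h.spec
  obtain ⟨h0', h4', hsq'⟩ := h'.spec
  refine quotient_invariant h0 h4 hsq eZ ?_ h0' h4' hsq'
  rw [eY, eZ]

theorem R11.pow_invariant {P : E.toAffine.Point} {Z Y : K} (h : R11 P Z Y) (i : ℕ) :
    ∀ {Z' Y' : K}, R11 ((2 ^ i) • P) Z' Y' →
      chi11 Z' = chi11 Z ∧ psi11 Z' * Y' = psi11 Z * Y := by
  induction i with
  | zero => intro Z' Y' h'; rw [pow_zero, one_nsmul] at h'; obtain ⟨rfl, rfl⟩ := h'.unique h; exact ⟨rfl, rfl⟩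
  | succ i ih =>
    intro Z' Y' h'
    rw [pow_succ, mul_comm, mul_nsmul'] at h'
    obtain ⟨x, y, h0, u, l, b, c, e, hP, -⟩ := h
    have hord : addOrderOf ((2 ^ i) • P) = 11 := by
      rw [addOrderOf_nsmul' _ (pow_ne_zero i two_ne_zero), hP,
        Nat.Coprime.gcd_eq_one (Nat.Coprime.pow_right i (by norm_num)), Nat.div_one]
    obtain ⟨Z₁, Y₁, h₁⟩ := R11.exists _ hord
    obtain ⟨a1, a2⟩ := R11.double_invariant h₁ h'
    obtain ⟨b1, b2⟩ := ih h₁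
    exact ⟨a1.trans b1, a2.trans b2⟩

end R11

end Fermat.Agent.Mazur
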