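import Mathlib.Tactic

/-!
The four non-trivial rational fibres of the quotient map from 11a3 to 11a1 (`X = 20, 64`).
-/

set_option autoImplicit false
set_option maxHeartbeats 400000

namespace Fermat.Agent.Mazur

variable {K : Type*} [Field K] [CharZero K]

/-- `c₄` of the Tate normal curve. -/
def c4T (b c : K) : K := ((1 - c) ^ 2 - 4 * b) ^ 2 - 24 * -((1 - c) * b)

/-- `Δ` of the Tate normal curve. -/
def deltaT (b c : K) : K :=
  -((1 - c) ^ 2 - 4 * b) ^ 2 * -(b * b ^ 2) - 8 * ((-((1 - c) * b)) ^ 2 * -((1 - c) * b))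
    - 27 * (b ^ 2 * b ^ 2) + 9 * (((1 - c) ^ 2 - 4 * b) * -((1 - c) * b) * b ^ 2)

theorem fibre_0 {Z Y r s b c : K} (hu : Z - 4 ≠ 0) (hs : s * (4 - Z) = 4)
    (hr : 2 * r = Y * s ^ 2 * (s - 1) / 4 + s ^ 3 - 3 * s ^ 2 + 4 * s)
    (hb : b = r * s * (r - 1)) (hc : c = s * (r - 1)) (hQ : (1 * Z ^ 5 - 28 * Z ^ 4 + 208 * Z ^ 3 - 320 * Z ^ 2 - 512 * Z + 1024) = 0)
    (hpsi : (1 * Z ^ 6 - 12 * Z ^ 5 + 16 * Z ^ 4 - 192 * Z ^ 3 + 1536 * Z ^ 2 - 6144 * Z + 8192) ≠ 0)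
    (hY : Y * (1 * Z ^ 6 - 12 * Z ^ 5 + 16 * Z ^ 4 - 192 * Z ^ 3 + 1536 * Z ^ 2 - 6144 * Z + 8192) = 44 * (Z ^ 3 * (Z - 4) ^ 3)) :
    c4T b c ^ 3 = -121 * deltaT b c := by
  have eY : Y = ((1 / 32) * Z ^ 4 - (3 / 4) * Z ^ 3 + 4 * Z ^ 2 - 12) := mul_right_cancel₀ hpsi (by
    linear_combination hY - ((1 / 32) * Z ^ 5 - (1 / 4) * Z ^ 4 - 4 * Z ^ 2 + 24 * Z - 96) * hQ)
  have es : s = ((1 / 256) * Z ^ 4 - (3 / 32) * Z ^ 3 + (7 / 16) * Z ^ 2 + (1 / 2) * Z) := mul_right_cancel₀ hu (by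
    linear_combination -hs - ((1 / 256)) * hQ)
  have es2 : s ^ 2 = ((1 / 64) * Z ^ 4 - (25 / 64) * Z ^ 3 + (33 / 16) * Z ^ 2 + (3 / 2) * Z - 4) := by
    rw [es]; linear_combination ((1 / 65536) * Z ^ 3 - (5 / 16384) * Z ^ 2 + (1 / 2048) * Z + (1 / 256)) * hQ
  have eys : Y * s ^ 2 = ((1 / 8) * Z ^ 4 - (51 / 16) * Z ^ 3 + (73 / 4) * Z ^ 2 + 2 * Z - 56) := by
    rw [es2, eY]; linear_combination ((1 / 2048) * Z ^ 3 - (21 / 2048) * Z ^ 2 + (1 / 32) * Z + (13 / 128)) * hQ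
  have er : r = ((1 / 32) * Z ^ 4 - (51 / 64) * Z ^ 3 + (9 / 2) * Z ^ 2 + (5 / 4) * Z - 12) := by
    have h2 : 2 * r = ((1 / 8) * Z ^ 4 - (51 / 16) * Z ^ 3 + (73 / 4) * Z ^ 2 + 2 * Z - 56) * (s - 1) / 4 + ((1 / 64) * Z ^ 4 - (25 / 64) * Z ^ 3 + (33 / 16) * Z ^ 2 + (3 / 2) * Z - 4) * s - 3 * ((1 / 64) * Z ^ 4 - (25 / 64) * Z ^ 3 + (33 / 16) * Z ^ 2 + (3 / 2) * Z - 4) + 4 * s := by
      rw [← eys, ← es2]; linear_combination hr
    rw [es] at h2; linear_combination h2 / 2 + ((3 / 32768) * Z ^ 3 - (1 / 512) * Z ^ 2 + (21 / 4096) * Z + (25 / 1024)) * hQ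
  have ec : c = ((21 / 256) * Z ^ 4 - (67 / 32) * Z ^ 3 + (95 / 8) * Z ^ 2 + (13 / 4) * Z - 34) := by
    rw [hc, er, es]; linear_combination ((1 / 8192) * Z ^ 3 - (43 / 16384) * Z ^ 2 + (29 / 4096) * Z + (17 / 512)) * hQ
  have eb : b = ((83 / 128) * Z ^ 4 - (529 / 32) * Z ^ 3 + (1495 / 16) * Z ^ 2 + (107 / 4) * Z - 265) := by
    rw [hb, show r * s * (r - 1) = r * c by rw [hc]; ring, er, ec]; linear_combination ((21 / 8192) * Z ^ 3 - (967 / 16384) * Z ^ 2 + (913 / 4096) * Z + (673 / 1024)) * hQ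
  have e2 : (1 - c) ^ 2 - 4 * b = (-(317 / 256) * Z ^ 4 + (2021 / 64) * Z ^ 3 - (1429 / 8) * Z ^ 2 - (101 / 2) * Z + 509) := by
    rw [eb, ec]; linear_combination ((441 / 65536) * Z ^ 3 - (2541 / 16384) * Z ^ 2 + (151 / 256) * Z + (111 / 64)) * hQ
  have e4 : -((1 - c) * b) = ((1497 / 128) * Z ^ 4 - (2385 / 8) * Z ^ 3 + (13477 / 8) * Z ^ 2 + (1937 / 4) * Z - 4773) := by
    rw [eb, ec]; linear_combination ((1743 / 32768) * Z ^ 3 - (5015 / 4096) * Z ^ 2 + (18969 / 4096) * Z + (439 / 32)) * hQ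
  have e6 : b ^ 2 = ((25645 / 256) * Z ^ 4 - (81715 / 32) * Z ^ 3 + (230879 / 16) * Z ^ 2 + (8293 / 2) * Z - 40887) := by
    rw [eb]; linear_combination ((6889 / 16384) * Z ^ 3 - (39591 / 4096) * Z ^ 2 + (2327 / 64) * Z + (13889 / 128)) * hQ
  have e8 : -(b * b ^ 2) = (-(3971827 / 256) * Z ^ 4 + (12655801 / 32) * Z ^ 3 - (17878975 / 8) * Z ^ 2 - (1284383 / 2) * Z + 6332487) := by
    rw [e6, eb]; linear_combination (-(2128535 / 32768) * Z ^ 3 + (6115575 / 4096) * Z ^ 2 - (22996119 / 4096) * Z - (8583771 / 512)) * hQ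
  have f1 : ((1 - c) ^ 2 - 4 * b) ^ 2 = ((91401 / 256) * Z ^ 4 - (582475 / 64) * Z ^ 3 + (411427 / 8) * Z ^ 2 + (59131 / 4) * Z - 145712) := by
    rw [e2]; linear_combination ((100489 / 65536) * Z ^ 3 - (577891 / 16384) * Z ^ 2 + (544819 / 4096) * Z + (404793 / 1024)) * hQ
  have f2 : (-((1 - c) * b)) ^ 2 = ((1048529 / 32) * Z ^ 4 - (13364101 / 16) * Z ^ 3 + (75518389 / 16) * Z ^ 2 + (2712531 / 2) * Z - 13373787) := by
    rw [e4]; linear_combination ((2241009 / 16384) * Z ^ 3 - (12875697 / 4096) * Z ^ 2 + (6049371 / 512) * Z + (9038829 / 256)) * hQ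
  have f3 : ((1 - c) ^ 2 - 4 * b) * -((1 - c) * b) = (-(875703 / 256) * Z ^ 4 + (1395167 / 16) * Z ^ 3 - (7883867 / 16) * Z ^ 2 - (566355 / 4) * Z + 1396180) := by
    rw [e2, e4]; linear_combination (-(474549 / 32768) * Z ^ 3 + (1363887 / 4096) * Z ^ 2 - (641855 / 512) * Z - (3825637 / 1024)) * hQ
  have eD : deltaT b c = (-(53998990315 / 256) * Z ^ 4 + (43015498471 / 8) * Z ^ 3 - (486147352799 / 16) * Z ^ 2 - (34923669713 / 4) * Z + 86093352005) := by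
    rw [deltaT, f3, f1, e8, f2, e4, e6]; linear_combination (-(57759586827 / 65536) * Z ^ 3 + (165934431661 / 8192) * Z ^ 2 - (311882011747 / 4096) * Z - (58236589193 / 256)) * hQ
  have eC : c4T b c = ((19545 / 256) * Z ^ 4 - (124555 / 64) * Z ^ 3 + (87979 / 8) * Z ^ 2 + (12643 / 4) * Z - 31160) := by
    rw [c4T, f1, e4]; ring
  have eC2 : c4T b c ^ 2 = ((357376459 / 256) * Z ^ 4 - (2277483527 / 64) * Z ^ 3 + (3217423429 / 16) * Z ^ 2 + (231132055 / 4) * Z - 569783555) := by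
    rw [eC]; linear_combination ((382007025 / 65536) * Z ^ 3 - (2194805775 / 16384) * Z ^ 2 + (2062414495 / 4096) * Z + (1540729155 / 1024)) * hQ
  rw [pow_succ, eC2, eC, eD]; linear_combination ((6984922891155 / 65536) * Z ^ 3 - (40131980147875 / 16384) * Z ^ 2 + (2356993123617 / 256) * Z + (28171751166405 / 1024)) * hQ

theorem fibre_1 {Z Y r s b c : K} (hu : Z - 4 ≠ 0) (hs : s * (4 - Z) = 4)
    (hr : 2 * r = Y * s ^ 2 * (s - 1) / 4 + s ^ 3 - 3 * s ^ 2 + 4 * s)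
    (hb : b = r * s * (r - 1)) (hc : c = s * (r - 1)) (hQ : (1 * Z ^ 5 - 28 * Z ^ 4 + 208 * Z ^ 3 - 320 * Z ^ 2 - 512 * Z + 1024) = 0)
    (hpsi : (1 * Z ^ 6 - 12 * Z ^ 5 + 16 * Z ^ 4 - 192 * Z ^ 3 + 1536 * Z ^ 2 - 6144 * Z + 8192) ≠ 0)
    (hY : Y * (1 * Z ^ 6 - 12 * Z ^ 5 + 16 * Z ^ 4 - 192 * Z ^ 3 + 1536 * Z ^ 2 - 6144 * Z + 8192) = -44 * (Z ^ 3 * (Z - 4) ^ 3)) :
    c4T b c ^ 3 = -32768 * deltaT b c := by
  have eY : Y = (-(1 / 32) * Z ^ 4 + (3 / 4) * Z ^ 3 - 4 * Z ^ 2 + 12) := mul_right_cancel₀ hpsi (by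
    linear_combination hY - (-(1 / 32) * Z ^ 5 + (1 / 4) * Z ^ 4 + 4 * Z ^ 2 - 24 * Z + 96) * hQ)
  have es : s = ((1 / 256) * Z ^ 4 - (3 / 32) * Z ^ 3 + (7 / 16) * Z ^ 2 + (1 / 2) * Z) := mul_right_cancel₀ hu (by
    linear_combination -hs - ((1 / 256)) * hQ)
  have es2 : s ^ 2 = ((1 / 64) * Z ^ 4 - (25 / 64) * Z ^ 3 + (33 / 16) * Z ^ 2 + (3 / 2) * Z - 4) := by
    rw [es]; linear_combination ((1 / 65536) * Z ^ 3 - (5 / 16384) * Z ^ 2 + (1 / 2048) * Z + (1 / 256)) * hQ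
  have eys : Y * s ^ 2 = (-(1 / 8) * Z ^ 4 + (51 / 16) * Z ^ 3 - (73 / 4) * Z ^ 2 - 2 * Z + 56) := by
    rw [es2, eY]; linear_combination (-(1 / 2048) * Z ^ 3 + (21 / 2048) * Z ^ 2 - (1 / 32) * Z - (13 / 128)) * hQ
  have er : r = (-(1 / 128) * Z ^ 4 + (7 / 32) * Z ^ 3 - (3 / 2) * Z ^ 2 + (1 / 4) * Z + 6) := by
    have h2 : 2 * r = (-(1 / 8) * Z ^ 4 + (51 / 16) * Z ^ 3 - (73 / 4) * Z ^ 2 - 2 * Z + 56) * (s - 1) / 4 + ((1 / 64) * Z ^ 4 - (25 / 64) * Z ^ 3 + (33 / 16) * Z ^ 2 + (3 / 2) * Z - 4) * s - 3 * ((1 / 64) * Z ^ 4 - (25 / 64) * Z ^ 3 + (33 / 16) * Z ^ 2 + (3 / 2) * Z - 4) + 4 * s := by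
      rw [← eys, ← es2]; linear_combination hr
    rw [es] at h2; linear_combination h2 / 2 + (-(1 / 32768) * Z ^ 3 + (11 / 16384) * Z ^ 2 - (9 / 4096) * Z - (7 / 1024)) * hQ
  have ec : c = (-(3 / 128) * Z ^ 4 + (19 / 32) * Z ^ 3 - (27 / 8) * Z ^ 2 + 11) := by
    rw [hc, er, es]; linear_combination (-(1 / 32768) * Z ^ 3 + (3 / 4096) * Z ^ 2 - (3 / 1024) * Z - (11 / 1024)) * hQ
  have eb : b = (-(3 / 128) * Z ^ 4 + (23 / 32) * Z ^ 3 - (45 / 8) * Z ^ 2 + (7 / 4) * Z + 20) := by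
    rw [hb, show r * s * (r - 1) = r * c by rw [hc]; ring, er, ec]; linear_combination ((3 / 16384) * Z ^ 3 - (19 / 4096) * Z ^ 2 + (3 / 128) * Z + (23 / 512)) * hQ
  have e2 : (1 - c) ^ 2 - 4 * b = ((3 / 32) * Z ^ 4 - (47 / 16) * Z ^ 3 + (47 / 2) * Z ^ 2 - 6 * Z - 80) := by
    rw [eb, ec]; linear_combination ((9 / 16384) * Z ^ 3 - (51 / 4096) * Z ^ 2 + (49 / 1024) * Z + (25 / 256)) * hQ
  have e4 : -((1 - c) * b) = ((1 / 32) * Z ^ 4 - (1 / 8) * Z ^ 3 - (59 / 8) * Z ^ 2 + (15 / 2) * Z + 30) := by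
    rw [eb, ec]; linear_combination ((9 / 16384) * Z ^ 3 - (63 / 4096) * Z ^ 2 + (95 / 1024) * Z + (85 / 512)) * hQ
  have e6 : b ^ 2 = (-(19 / 16) * Z ^ 4 + (407 / 16) * Z ^ 3 - (1435 / 16) * Z ^ 2 - 31 * Z + 288) := by
    rw [eb]; linear_combination ((9 / 16384) * Z ^ 3 - (75 / 4096) * Z ^ 2 + (157 / 1024) * Z + (7 / 64)) * hQ
  have e8 : -(b * b ^ 2) = (-(2759 / 64) * Z ^ 4 + (53031 / 64) * Z ^ 3 - (3129 / 2) * Z ^ 2 - (4443 / 2) * Z + 4044) := by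
    rw [e6, eb]; linear_combination (-(57 / 2048) * Z ^ 3 + (1373 / 2048) * Z ^ 2 - (5129 / 2048) * Z - (2451 / 256)) * hQ
  have f1 : ((1 - c) ^ 2 - 4 * b) ^ 2 = (-(93 / 4) * Z ^ 4 + (959 / 2) * Z ^ 3 - 1427 * Z ^ 2 - 796 * Z + 4432) := by
    rw [e2]; linear_combination ((9 / 1024) * Z ^ 3 - (39 / 128) * Z ^ 2 + (685 / 256) * Z + (123 / 64)) * hQ
  have f2 : (-((1 - c) * b)) ^ 2 = (-(2407 / 64) * Z ^ 4 + (5991 / 8) * Z ^ 3 - (7313 / 4) * Z ^ 2 - 1638 * Z + 5284) := by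
    rw [e4]; linear_combination ((1 / 1024) * Z ^ 3 + (5 / 256) * Z ^ 2 - (13 / 128) * Z - (137 / 32)) * hQ
  have f3 : ((1 - c) ^ 2 - 4 * b) * -((1 - c) * b) = ((117 / 4) * Z ^ 4 - 591 * Z ^ 3 + (3149 / 2) * Z ^ 2 + 1180 * Z - 4680) := by
    rw [e2, e4]; linear_combination ((3 / 1024) * Z ^ 3 - (11 / 512) * Z ^ 2 - (205 / 256) * Z + (285 / 128)) * hQ
  have eD : deltaT b c = ((923022509 / 256) * Z ^ 4 - 70839805 * Z ^ 3 + 158259550 * Z ^ 2 + 168092104 * Z - 442032728) := by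
    rw [deltaT, f3, f1, e8, f2, e4, e6]; linear_combination (-(343955 / 256) * Z ^ 3 + (4284191 / 256) * Z ^ 2 + (13532709 / 256) * Z + (51058939 / 128)) * hQ
  have eC : c4T b c = (-24 * Z ^ 4 + (965 / 2) * Z ^ 3 - 1250 * Z ^ 2 - 976 * Z + 3712) := by
    rw [c4T, f1, e4]; ring
  have eC2 : c4T b c ^ 2 = (-1625876 * Z ^ 4 + 31949696 * Z ^ 3 - 71462464 * Z ^ 2 - 75734784 * Z + 199699456) := by
    rw [eC]; linear_combination (576 * Z ^ 3 - 7032 * Z ^ 2 - (95591 / 4) * Z - 181563) * hQ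
  rw [pow_succ, eC2, eC, eD]; linear_combination (39021024 * Z ^ 3 - 458689202 * Z ^ 2 - 1796498192 * Z - 13421136768) * hQ

theorem fibre_2 {Z Y r s b c : K} (hu : Z - 4 ≠ 0) (hs : s * (4 - Z) = 4)
    (hr : 2 * r = Y * s ^ 2 * (s - 1) / 4 + s ^ 3 - 3 * s ^ 2 + 4 * s)
    (hb : b = r * s * (r - 1)) (hc : c = s * (r - 1)) (hQ : (1 * Z ^ 5 - 72 * Z ^ 4 + 560 * Z ^ 3 - 1024 * Z ^ 2 - 512 * Z + 1024) = 0)
    (hpsi : (1 * Z ^ 6 - 12 * Z ^ 5 + 16 * Z ^ 4 - 192 * Z ^ 3 + 1536 * Z ^ 2 - 6144 * Z + 8192) ≠ 0)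
    (hY : Y * (1 * Z ^ 6 - 12 * Z ^ 5 + 16 * Z ^ 4 - 192 * Z ^ 3 + 1536 * Z ^ 2 - 6144 * Z + 8192) = -484 * (Z ^ 3 * (Z - 4) ^ 3)) :
    c4T b c ^ 3 = -24729001 * deltaT b c := by
  have eY : Y = (-(3 / 352) * Z ^ 4 + (13 / 22) * Z ^ 3 - (37 / 11) * Z ^ 2 + (34 / 11) * Z + (36 / 11)) := mul_right_cancel₀ hpsi (by
    linear_combination hY - (-(3 / 352) * Z ^ 5 + (7 / 88) * Z ^ 4 - (1 / 11) * Z ^ 3 - (58 / 11) * Z ^ 2 + (200 / 11) * Z + (288 / 11)) * hQ)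
  have es : s = ((1 / 256) * Z ^ 4 - (17 / 64) * Z ^ 3 + (9 / 8) * Z ^ 2 + (1 / 2) * Z) := mul_right_cancel₀ hu (by
    linear_combination -hs - ((1 / 256)) * hQ)
  have es2 : s ^ 2 = ((1 / 64) * Z ^ 4 - (69 / 64) * Z ^ 3 + (11 / 2) * Z ^ 2 + (3 / 2) * Z - 4) := by
    rw [es]; linear_combination ((1 / 65536) * Z ^ 3 - (1 / 1024) * Z ^ 2 + (1 / 2048) * Z + (1 / 256)) * hQ
  have eys : Y * s ^ 2 = (-(27 / 352) * Z ^ 4 + (925 / 176) * Z ^ 3 - (545 / 22) * Z ^ 2 - (2 / 11) * Z + (280 / 11)) := by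
    rw [es2, eY]; linear_combination (-(3 / 22528) * Z ^ 3 + (199 / 22528) * Z ^ 2 - (73 / 2816) * Z - (53 / 1408)) * hQ
  have er : r = ((45 / 2816) * Z ^ 4 - (747 / 704) * Z ^ 3 + (527 / 176) * Z ^ 2 + (53 / 44) * Z - (18 / 11)) := by
    have h2 : 2 * r = (-(27 / 352) * Z ^ 4 + (925 / 176) * Z ^ 3 - (545 / 22) * Z ^ 2 - (2 / 11) * Z + (280 / 11)) * (s - 1) / 4 + ((1 / 64) * Z ^ 4 - (69 / 64) * Z ^ 3 + (11 / 2) * Z ^ 2 + (3 / 2) * Z - 4) * s - 3 * ((1 / 64) * Z ^ 4 - (69 / 64) * Z ^ 3 + (11 / 2) * Z ^ 2 + (3 / 2) * Z - 4) + 4 * s := by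
      rw [← eys, ← es2]; linear_combination hr
    rw [es] at h2; linear_combination h2 / 2 + (-(5 / 720896) * Z ^ 3 + (39 / 90112) * Z ^ 2 + (17 / 45056) * Z + (49 / 11264)) * hQ
  have ec : c = (-(151 / 2816) * Z ^ 4 + (1261 / 352) * Z ^ 3 - (126 / 11) * Z ^ 2 - (127 / 44) * Z + (122 / 11)) := by
    rw [hc, er, es]; linear_combination ((45 / 720896) * Z ^ 3 - (351 / 90112) * Z ^ 2 - (175 / 45056) * Z - (61 / 5632)) * hQ
  have eb : b = ((767 / 256) * Z ^ 4 - (12773 / 64) * Z ^ 3 + (4821 / 8) * Z ^ 2 + (359 / 2) * Z - 569) := by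
    rw [hb, show r * s * (r - 1) = r * c by rw [hc]; ring, er, ec]; linear_combination (-(6795 / 7929856) * Z ^ 3 + (103977 / 1982464) * Z ^ 2 + (13795 / 123904) * Z + (66653 / 123904)) * hQ
  have e2 : (1 - c) ^ 2 - 4 * b = (-(58161 / 2816) * Z ^ 4 + (968535 / 704) * Z ^ 3 - (730649 / 176) * Z ^ 2 - (54409 / 44) * Z + (43137 / 11)) := by
    rw [eb, ec]; linear_combination ((22801 / 7929856) * Z ^ 3 - (175613 / 991232) * Z ^ 2 - (150787 / 495616) * Z - (93395 / 61952)) * hQ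
  have e4 : -((1 - c) * b) = ((746287 / 1408) * Z ^ 4 - (12428303 / 352) * Z ^ 3 + (18771087 / 176) * Z ^ 2 + (348433 / 11) * Z - (1108501 / 11)) := by
    rw [eb, ec]; linear_combination (-(115817 / 720896) * Z ^ 3 + (1778391 / 180224) * Z ^ 2 + (848913 / 45056) * Z + (522671 / 5632)) * hQ
  have e6 : b ^ 2 = (-(4136081 / 128) * Z ^ 4 + (137760569 / 64) * Z ^ 3 - (13004131 / 2) * Z ^ 2 - (3862203 / 2) * Z + 6143521) := by
    rw [eb]; linear_combination ((588289 / 65536) * Z ^ 3 - (2251145 / 4096) * Z ^ 2 - (2366099 / 2048) * Z - (363735 / 64)) * hQ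
  have e8 : -(b * b ^ 2) = (-(44592976307 / 128) * Z ^ 4 + (1485259544643 / 64) * Z ^ 3 - (1121627727519 / 16) * Z ^ 2 - (83280360607 / 4) * Z + 66236097516) := by
    rw [e6, eb]; linear_combination ((3172374127 / 32768) * Z ^ 3 - (97117213077 / 16384) * Z ^ 2 - (51006742619 / 4096) * Z - (62740434067 / 1024)) * hQ
  have f1 : ((1 - c) ^ 2 - 4 * b) ^ 2 = (-(4333257343 / 2816) * Z ^ 4 + (72163962269 / 704) * Z ^ 3 - (54496248799 / 176) * Z ^ 2 - (2023161759 / 22) * Z + (3218196939 / 11)) := by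
    rw [e2]; linear_combination ((3382701921 / 7929856) * Z ^ 3 - (12943323423 / 495616) * Z ^ 2 - (3407906811 / 61952) * Z - (4192420695 / 15488)) * hQ
  have f2 : (-((1 - c) * b)) ^ 2 = (-(2845848784509 / 2816) * Z ^ 4 + (11848345916359 / 176) * Z ^ 3 - (17895099012101 / 88) * Z ^ 2 - (664351576837 / 11) * Z + (2113538198367 / 11)) := by
    rw [e4]; linear_combination ((556944286369 / 1982464) * Z ^ 3 - (532822797955 / 30976) * Z ^ 2 - (4474682170177 / 123904) * Z - (5505036428759 / 30976)) * hQ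
  have f3 : ((1 - c) ^ 2 - 4 * b) * -((1 - c) * b) = ((111048644733 / 2816) * Z ^ 4 - (1849350202377 / 704) * Z ^ 3 + (698289559559 / 88) * Z ^ 2 + (25923844813 / 11) * Z - (82472952876 / 11)) := by
    rw [e2, e4]; linear_combination (-(43404798207 / 3964928) * Z ^ 3 + (332180621301 / 495616) * Z ^ 2 + (698554824419 / 495616) * Z + (859385073999 / 123904)) * hQ
  have eD : deltaT b c = ((500330987214094370341 / 256) * Z ^ 4 - (4166134645983522998563 / 32) * Z ^ 3 + (6292303796162711130257 / 16) * Z ^ 2 + (467200762184961330313 / 4) * Z - 371582868022196144230) := by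
    rw [deltaT, f3, f1, e8, f2, e4, e6]; linear_combination (-(538538448422008183537 / 991232) * Z ^ 3 + (32973693451466453564397 / 991232) * Z ^ 2 + (8653683788360476645475 / 123904) * Z + (42585216971920391533051 / 123904)) * hQ
  have eC : c4T b c = (-(4369079119 / 2816) * Z ^ 4 + (72760520813 / 704) * Z ^ 3 - (54946754887 / 176) * Z ^ 2 - (2039886543 / 22) * Z + (3244800963 / 11)) := by
    rw [c4T, f1, e4]; ring
  have eC2 : c4T b c ^ 2 = (-(2216821387755367431 / 256) * Z ^ 4 + (36917866866130885491 / 64) * Z ^ 3 - (13939685917972323329 / 8) * Z ^ 2 - 517507744100631348 * Z + 1646375839605069991) := by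
    rw [eC]; linear_combination ((19088852348081816161 / 7929856) * Z ^ 3 - (73048400519453429149 / 495616) * Z ^ 2 - (9585490108581154643 / 30976) * Z - (94341371651363870771 / 61952)) * hQ
  rw [pow_succ, eC2, eC, eD]; linear_combination ((9685468035794578122954773289 / 720896) * Z ^ 3 - (74127867660504984611130042315 / 90112) * Z ^ 2 - (77817073785794495050992544673 / 45056) * Z - (8703222032193714232270795927 / 1024)) * hQ

theorem fibre_3 {Z Y r s b c : K} (hu : Z - 4 ≠ 0) (hs : s * (4 - Z) = 4)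
    (hr : 2 * r = Y * s ^ 2 * (s - 1) / 4 + s ^ 3 - 3 * s ^ 2 + 4 * s)
    (hb : b = r * s * (r - 1)) (hc : c = s * (r - 1)) (hQ : (1 * Z ^ 5 - 72 * Z ^ 4 + 560 * Z ^ 3 - 1024 * Z ^ 2 - 512 * Z + 1024) = 0)
    (hpsi : (1 * Z ^ 6 - 12 * Z ^ 5 + 16 * Z ^ 4 - 192 * Z ^ 3 + 1536 * Z ^ 2 - 6144 * Z + 8192) ≠ 0)
    (hY : Y * (1 * Z ^ 6 - 12 * Z ^ 5 + 16 * Z ^ 4 - 192 * Z ^ 3 + 1536 * Z ^ 2 - 6144 * Z + 8192) = 484 * (Z ^ 3 * (Z - 4) ^ 3)) :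
    deltaT b c = 0 := by
  have eY : Y = ((3 / 352) * Z ^ 4 - (13 / 22) * Z ^ 3 + (37 / 11) * Z ^ 2 - (34 / 11) * Z - (36 / 11)) := mul_right_cancel₀ hpsi (by
    linear_combination hY - ((3 / 352) * Z ^ 5 - (7 / 88) * Z ^ 4 + (1 / 11) * Z ^ 3 + (58 / 11) * Z ^ 2 - (200 / 11) * Z - (288 / 11)) * hQ)
  have es : s = ((1 / 256) * Z ^ 4 - (17 / 64) * Z ^ 3 + (9 / 8) * Z ^ 2 + (1 / 2) * Z) := mul_right_cancel₀ hu (by
    linear_combination -hs - ((1 / 256)) * hQ)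
  have es2 : s ^ 2 = ((1 / 64) * Z ^ 4 - (69 / 64) * Z ^ 3 + (11 / 2) * Z ^ 2 + (3 / 2) * Z - 4) := by
    rw [es]; linear_combination ((1 / 65536) * Z ^ 3 - (1 / 1024) * Z ^ 2 + (1 / 2048) * Z + (1 / 256)) * hQ
  have eys : Y * s ^ 2 = ((27 / 352) * Z ^ 4 - (925 / 176) * Z ^ 3 + (545 / 22) * Z ^ 2 + (2 / 11) * Z - (280 / 11)) := by
    rw [es2, eY]; linear_combination ((3 / 22528) * Z ^ 3 - (199 / 22528) * Z ^ 2 + (73 / 2816) * Z + (53 / 1408)) * hQ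
  have er : r = ((71 / 1408) * Z ^ 4 - (2443 / 704) * Z ^ 3 + (1513 / 88) * Z ^ 2 + (67 / 22) * Z - (169 / 11)) := by
    have h2 : 2 * r = ((27 / 352) * Z ^ 4 - (925 / 176) * Z ^ 3 + (545 / 22) * Z ^ 2 + (2 / 11) * Z - (280 / 11)) * (s - 1) / 4 + ((1 / 64) * Z ^ 4 - (69 / 64) * Z ^ 3 + (11 / 2) * Z ^ 2 + (3 / 2) * Z - 4) * s - 3 * ((1 / 64) * Z ^ 4 - (69 / 64) * Z ^ 3 + (11 / 2) * Z ^ 2 + (3 / 2) * Z - 4) + 4 * s := by
      rw [← eys, ← es2]; linear_combination hr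
    rw [es] at h2; linear_combination h2 / 2 + ((49 / 720896) * Z ^ 3 - (793 / 180224) * Z ^ 2 + (59 / 11264) * Z + (135 / 5632)) * hQ
  have ec : c = ((679 / 2816) * Z ^ 4 - (11685 / 704) * Z ^ 3 + (14523 / 176) * Z ^ 2 + (633 / 44) * Z - (859 / 11)) := by
    rw [hc, er, es]; linear_combination ((71 / 360448) * Z ^ 3 - (2301 / 180224) * Z ^ 2 + (725 / 45056) * Z + (859 / 11264)) * hQ
  have eb : b = ((3815 / 256) * Z ^ 4 - (32823 / 32) * Z ^ 3 + (40745 / 8) * Z ^ 2 + (1777 / 2) * Z - 4813) := by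
    rw [hb, show r * s * (r - 1) = r * c by rw [hc]; ring, er, ec]; linear_combination ((48209 / 3964928) * Z ^ 3 - (1582543 / 1982464) * Z ^ 2 + (802971 / 495616) * Z + (90943 / 15488)) * hQ
  have e2 : (1 - c) ^ 2 - 4 * b = ((29891 / 2816) * Z ^ 4 - (514345 / 704) * Z ^ 3 + (638491 / 176) * Z ^ 2 + (6961 / 11) * Z - (37692 / 11)) := by
    rw [eb, ec]; linear_combination ((461041 / 7929856) * Z ^ 3 - (1892373 / 495616) * Z ^ 2 + (484271 / 61952) * Z + (875251 / 30976)) * hQ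
  have e4 : -((1 - c) * b) = ((12227847 / 2816) * Z ^ 4 - (13150543 / 44) * Z ^ 3 + (130595765 / 88) * Z ^ 2 + (11391227 / 44) * Z - (15426292 / 11)) := by
    rw [eb, ec]; linear_combination ((2590385 / 720896) * Z ^ 3 - (42524979 / 180224) * Z ^ 2 + (246561 / 512) * Z + (9806801 / 5632)) * hQ
  have e6 : b ^ 2 = ((68735221 / 256) * Z ^ 4 - (1182750133 / 64) * Z ^ 3 + (367052709 / 4) * Z ^ 2 + (64032411 / 4) * Z - 86714339) := by
    rw [eb]; linear_combination ((14554225 / 65536) * Z ^ 3 - (119451465 / 8192) * Z ^ 2 + (121515401 / 4096) * Z + (27469827 / 256)) * hQ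
  have e8 : -(b * b ^ 2) = (-(1238410171597 / 256) * Z ^ 4 + (2663717694245 / 8) * Z ^ 3 - (26452918996825 / 16) * Z ^ 2 - (576839558711 / 2) * Z + 1562341953521) := by
    rw [e6, eb]; linear_combination (-(262224868115 / 65536) * Z ^ 3 + (4304336449091 / 16384) * Z ^ 2 - (2189346261885 / 4096) * Z - (247462258391 / 128)) * hQ
  have f1 : ((1 - c) ^ 2 - 4 * b) ^ 2 = ((383713173 / 2816) * Z ^ 4 - (6602682001 / 704) * Z ^ 3 + (2049065357 / 44) * Z ^ 2 + (89364953 / 11) * Z - (484081258 / 11)) := by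
    rw [e2]; linear_combination ((893471881 / 7929856) * Z ^ 3 - (3666519733 / 495616) * Z ^ 2 + (466256961 / 30976) * Z + (3372790351 / 61952)) * hQ
  have f2 : (-((1 - c) * b)) ^ 2 = ((64194578416985 / 2816) * Z ^ 4 - (1104617764457873 / 704) * Z ^ 3 + (1371220958812051 / 176) * Z ^ 2 + (59802435630741 / 44) * Z - (80985997490730 / 11)) := by
    rw [e4]; linear_combination ((149520242255409 / 7929856) * Z ^ 3 - (1227163064036055 / 991232) * Z ^ 2 + (1248357334715869 / 495616) * Z + (564408228633647 / 61952)) * hQ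
  have f3 : ((1 - c) ^ 2 - 4 * b) * -((1 - c) * b) = ((156946825185 / 2816) * Z ^ 4 - (675159240273 / 176) * Z ^ 3 + (3352444730067 / 176) * Z ^ 2 + (73104323153 / 22) * Z - (197999511858 / 11)) := by
    rw [e2, e4]; linear_combination ((365502574677 / 7929856) * Z ^ 3 - (5999611714037 / 1982464) * Z ^ 2 + (1525850972553 / 247808) * Z + (1379721214251 / 61952)) * hQ
  have eD : deltaT b c = (0 : K) := by
    rw [deltaT, f3, f1, e8, f2, e4, e6]; linear_combination ((50939452463799 / 7929856) * Z ^ 3 - (414533315253539 / 991232) * Z ^ 2 + (78812064240451 / 123904) * Z + (358728861161749 / 123904)) * hQ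
  rw [eD]

end Fermat.Agent.Mazur
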