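import Fermat.Agent.Mazur.Descent11
import Fermat.Agent.Mazur.Eleven
import Fermat.Agent.Mazur.ElevenFibres
import Fermat.Agent.EC.Rep
import Fermat.Agent.Galois.Places

/-!
# Elliptic curves over `ℚ` with a rational 11-isogeny

`c₄³ = kΔ` with `k ∈ {-11², -2¹⁵, -11·131³}`.
-/

set_option autoImplicit false

namespace Fermat.Agent.Mazur

open WeierstrassCurve WeierstrassCurve.Affine.Point
open scoped WeierstrassCurve.Affine

theorem exists_two_pow : ∀ k : ZMod 11, k ≠ 0 →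
    ∃ i : Fin 10, k = ((2 ^ (i : ℕ) : ℕ) : ZMod 11) := by decide

theorem no_int_root_mod_three {q0 q1 q2 q3 : ℤ}
    (h : ∀ n : ZMod 3, n ^ 4 + (q3 : ZMod 3) * n ^ 3 + (q2 : ZMod 3) * n ^ 2 + (q1 : ZMod 3) * n + q0 ≠ 0)
    (x : ℚ) : x ^ 4 + (q3 : ℚ) * x ^ 3 + (q2 : ℚ) * x ^ 2 + (q1 : ℚ) * x + q0 ≠ 0 := by
  intro hx
  have hint : IsIntegral ℤ x :=
    ⟨Polynomial.X ^ 4 + Polynomial.C q3 * Polynomial.X ^ 3 + Polynomial.C q2 * Polynomial.X ^ 2
      + Polynomial.C q1 * Polynomial.X + Polynomial.C q0, by monicity!, by rw [← Polynomial.aeval_def]; simpa using hx⟩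
  obtain ⟨n, rfl⟩ := IsIntegrallyClosed.isIntegral_iff.1 hint
  rw [eq_intCast] at hx
  have : n ^ 4 + q3 * n ^ 3 + q2 * n ^ 2 + q1 * n + q0 = 0 := by exact_mod_cast hx
  have := congrArg (Int.cast : ℤ → ZMod 3) this
  push_cast at this
  exact h n this

/-- The rational points of 11a1 relevant to us, through the dual isogeny to 11a3. -/
theorem rational_points_11a1 {X W : ℚ} (h : W ^ 2 = X ^ 3 - 4 * X ^ 2 - 160 * X - 1264) :
    X = 20 ∨ X = 64 := by
  set q := 5 * X ^ 2 + 20 * X - 464 with hq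
  have hq0 : q ≠ 0 := by
    intro e
    have h5 : ((10 * X + 20) / 22) * ((10 * X + 20) / 22) = ((20 : ℕ) : ℚ) := by
      push_cast; linear_combination (20 / 484 : ℚ) * e
    have hsq : IsSquare ((20 : ℕ) : ℚ) := ⟨_, h5.symm⟩
    rw [Rat.isSquare_natCast_iff] at hsq
    obtain ⟨r, hr⟩ := hsq
    have : r < 5 := by nlinarith
    interval_cases r <;> norm_num at hr
  set N := X ^ 5 + 40 * X ^ 4 + 720 * X ^ 3 - 25600 * X ^ 2 - 216320 * X - 793600 with hN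
  set S := X ^ 6 + 12 * X ^ 5 - 864 * X ^ 4 + 39232 * X ^ 3 + 448512 * X ^ 2 + 8791040 * X + 26423296
    with hS
  have key : (S / q ^ 3 * W) ^ 2 = (N / q ^ 2) ^ 3 - 4 * (N / q ^ 2) ^ 2 + 16 := by
    rw [mul_pow, h]
    field_simp
    rw [hS, hN, hq]; ring
  rcases rational_points_11a3 key with e | e
  · left
    rw [div_eq_zero_iff, or_iff_left (pow_ne_zero 2 hq0)] at e
    have h1 : (X - 20) * (X ^ 4 + 60 * X ^ 3 + 1920 * X ^ 2 + 12800 * X + 39680) = 0 := by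
      rw [hN] at e; linear_combination e
    rcases mul_eq_zero.1 h1 with h1 | h1
    · linarith
    · exact absurd (by push_cast; exact h1)
        (no_int_root_mod_three (q0 := 39680) (q1 := 12800) (q2 := 1920) (q3 := 60) (by decide) X)
  · right
    rw [div_eq_iff (pow_ne_zero 2 hq0)] at e
    have h1 : (X - 64) * (X ^ 4 + 4 * X ^ 3 + 176 * X ^ 2 + 2624 * X + 25856) = 0 := by
      rw [hN, hq] at e; linear_combination e
    rcases mul_eq_zero.1 h1 with h1 | h1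
    · linarith
    · exact absurd (by push_cast; exact h1)
        (no_int_root_mod_three (q0 := 25856) (q1 := 2624) (q2 := 176) (q3 := 4) (by decide) X)

section Field

variable {K : Type*} [Field K] [CharZero K]

theorem quotient_curve {Z Y : K} (h0 : Z ≠ 0) (h4 : Z - 4 ≠ 0)
    (hY : Y ^ 2 = Z ^ 3 - 4 * Z ^ 2 + 16) :
    (psi11 Z * Y) ^ 2 = chi11 Z ^ 3 - 4 * chi11 Z ^ 2 - 160 * chi11 Z - 1264 := by
  rw [mul_pow, hY]; unfold psi11 chi11
  field_simp
  ring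

/-- The rational fibres give `c₄³ = kΔ`. -/
theorem fibre_cases {Z Y b c : K} {X W : K} (hc : c ≠ 0) (hbc : b - c ≠ 0)
    (hs1 : c ^ 2 / (b - c) - 1 ≠ 0) (hD : deltaT b c ≠ 0)
    (eZ : Z = ZR (c ^ 2 / (b - c))) (eY : Y = YR (b / c) (c ^ 2 / (b - c)))
    (h0 : Z ≠ 0) (h4 : Z - 4 ≠ 0) (hX : chi11 Z = X) (hW : psi11 Z * Y = W)
    (hcase : (X = 20 ∧ (W = 44 ∨ W = -44)) ∨ (X = 64 ∧ (W = 484 ∨ W = -484))) :
    c4T b c ^ 3 = -121 * deltaT b c ∨ c4T b c ^ 3 = -32768 * deltaT b c ∨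
      c4T b c ^ 3 = -24729001 * deltaT b c := by
  obtain ⟨s, hs⟩ : ∃ s, s = c ^ 2 / (b - c) := ⟨_, rfl⟩
  obtain ⟨r, hr⟩ : ∃ r, r = b / c := ⟨_, rfl⟩
  rw [← hs] at hs1 eZ eY
  rw [← hr] at eY
  have hs0 : s ≠ 0 := hs ▸ div_ne_zero (pow_ne_zero 2 hc) hbc
  have ec : c = s * (r - 1) := by rw [hs, hr]; field_simp
  have eb : b = r * s * (r - 1) := by rw [hs, hr]; field_simp
  have e1 : s * (4 - Z) = 4 := by rw [eZ]; unfold ZR; field_simp; ring
  have e2 : 2 * r = Y * s ^ 2 * (s - 1) / 4 + s ^ 3 - 3 * s ^ 2 + 4 * s := by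
    rw [eY]; unfold YR; field_simp; ring
  subst hX hW
  have hden : Z ^ 3 * (Z - 4) ^ 3 ≠ 0 := mul_ne_zero (pow_ne_zero 3 h0) (pow_ne_zero 3 h4)
  have hpsi : psi11 Z ≠ 0 := by
    intro e
    rw [e, zero_mul] at hcase
    rcases hcase with ⟨-, h | h⟩ | ⟨-, h | h⟩ <;> norm_num at h
  have epsi : 1 * Z ^ 6 - 12 * Z ^ 5 + 16 * Z ^ 4 - 192 * Z ^ 3 + 1536 * Z ^ 2 - 6144 * Z + 8192
      = psi11 Z * (Z ^ 3 * (Z - 4) ^ 3) := by
    unfold psi11; field_simp; ring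
  have hpsi' : 1 * Z ^ 6 - 12 * Z ^ 5 + 16 * Z ^ 4 - 192 * Z ^ 3 + 1536 * Z ^ 2 - 6144 * Z + 8192
      ≠ (0 : K) := by rw [epsi]; exact mul_ne_zero hpsi hden
  rcases hcase with ⟨hx, hw⟩ | ⟨hx, hw⟩
  · have hQ : 1 * Z ^ 5 - 28 * Z ^ 4 + 208 * Z ^ 3 - 320 * Z ^ 2 - 512 * Z + 1024 = 0 := by
      unfold chi11 at hx; field_simp at hx; linear_combination hx
    rcases hw with hw | hw
    · exact Or.inl (fibre_0 h4 e1 e2 eb ec hQ hpsi' (by rw [epsi, ← hw]; ring))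
    · exact Or.inr (Or.inl (fibre_1 h4 e1 e2 eb ec hQ hpsi' (by rw [epsi, ← hw]; ring)))
  · have hQ : 1 * Z ^ 5 - 72 * Z ^ 4 + 560 * Z ^ 3 - 1024 * Z ^ 2 - 512 * Z + 1024 = 0 := by
      unfold chi11 at hx; field_simp at hx; linear_combination hx
    rcases hw with hw | hw
    · exact absurd (fibre_3 h4 e1 e2 eb ec hQ hpsi' (by rw [epsi, ← hw]; ring)) hD
    · exact Or.inr (Or.inr (fibre_2 h4 e1 e2 eb ec hQ hpsi' (by rw [epsi, ← hw]; ring)))

end Field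

local notation "Qbar" => AlgebraicClosure ℚ

theorem exists_rat_of_fixed {z : Qbar} (hz : ∀ σ : Qbar ≃ₐ[ℚ] Qbar, σ z = z) :
    ∃ q : ℚ, algebraMap ℚ Qbar q = z := by
  have : IsGalois ℚ Qbar := Fermat.Agent.Galois.isGalois_qbar
  exact IntermediateField.mem_bot.mp ((InfiniteGalois.mem_bot_iff_fixed z).mpr hz)

variable (E : WeierstrassCurve ℚ)

theorem R11_map {σ : Qbar ≃ₐ[ℚ] Qbar} {P : (E⁄Qbar).toAffine.Point} {Z Y : Qbar}
    (h : R11 P Z Y) : R11 (σ • P : (E⁄Qbar).toAffine.Point) (σ Z) (σ Y) := by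
  obtain ⟨x, y, h0, u, l, b, c, rfl, hP, hT, rfl, rfl⟩ := h
  have hE : (E⁄Qbar).map (σ : Qbar →+* Qbar) = (E⁄Qbar) := by
    ext <;> simp [WeierstrassCurve.baseChange]
  have hT' : IsTate (E⁄Qbar) (σ x) (σ y) (σ u) (σ l) (σ b) (σ c) := by
    have h' := hT.map (σ : Qbar →+* Qbar)
    convert h' using 1 <;> first | exact hE.symm | rfl
  obtain ⟨h', e'⟩ : ∃ h', σ • (Affine.Point.some x y h0 : (E⁄Qbar).toAffine.Point) =
      Affine.Point.some (σ x) (σ y) h' := ⟨_, rfl⟩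
  refine ⟨_, _, h', _, _, _, _, e', ?_, hT', ?_, ?_⟩
  · refine (addOrderOf_injective (DistribSMul.toAddMonoidHom (E⁄Qbar).toAffine.Point σ)
      (MulAction.injective σ) _).trans hP
  · simp [ZR, map_div₀, map_ofNat]
  · simp [YR, map_div₀, map_ofNat]

/-- An elliptic curve over `ℚ` with a Galois-stable line in `E[11]`. -/
theorem stable_line_eleven (hΔ : E.Δ ≠ 0)
    {N : Submodule (ZMod 11) (Submodule.torsionBy ℤ (E.toAffine⁄Qbar).Point (11 : ℕ))}
    (hN : IsGaloisStable ℚ N) (hb : N ≠ ⊥) (ht : N ≠ ⊤) :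
    E.c₄ ^ 3 = -121 * E.Δ ∨ E.c₄ ^ 3 = -32768 * E.Δ ∨ E.c₄ ^ 3 = -24729001 * E.Δ := by
  have : Fact (Nat.Prime 11) := ⟨by norm_num⟩
  have : (E.toAffine⁄Qbar).IsElliptic := by
    rw [WeierstrassCurve.isElliptic_iff, isUnit_iff_ne_zero]
    simpa [WeierstrassCurve.baseChange, WeierstrassCurve.map_Δ] using hΔ
  have h1 := Fermat.Agent.EC.finrank_eq_one_of_ne E.toAffine 11 hb ht
  obtain ⟨P, hPN, hP0⟩ := (Submodule.ne_bot_iff N).1 hb
  have hord : addOrderOf (P : (E.toAffine⁄Qbar).Point) = 11 := by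
    refine addOrderOf_eq_prime ?_ (fun h => hP0 (Subtype.ext h))
    rw [← natCast_zsmul]; exact (Submodule.mem_torsionBy_iff _ _).1 P.2
  obtain ⟨Z, Y, hR⟩ := R11.exists (E := (E⁄Qbar)) (P : (E.toAffine⁄Qbar).Point) hord
  obtain ⟨h0, h4, hsq⟩ := hR.spec
  have fixed : ∀ σ : Qbar ≃ₐ[ℚ] Qbar, σ (chi11 Z) = chi11 Z ∧
      σ (psi11 Z * Y) = psi11 Z * Y := by
    intro σ
    obtain ⟨k, hk⟩ := Fermat.Agent.EC.exists_smul_eq E.toAffine 11 hN h1 σ hPN hP0
    have hk0 : k ≠ 0 := by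
      rintro rfl
      rw [zero_smul] at hk
      exact hP0 ((MulAction.injective σ) (hk.trans (smul_zero σ).symm))
    obtain ⟨i, hi⟩ : ∃ i : Fin 10, k = ((2 ^ (i : ℕ) : ℕ) : ZMod 11) := by
      exact exists_two_pow k hk0
    rw [hi, Nat.cast_smul_eq_nsmul] at hk
    have hk' : σ • (P : (E.toAffine⁄Qbar).Point) = (2 ^ (i : ℕ)) • (P : (E.toAffine⁄Qbar).Point) :=
      congrArg Subtype.val hk
    have hσ := R11_map E (σ := σ) hR
    rw [hk'] at hσ
    obtain ⟨e1, e2⟩ := hR.pow_invariant _ hσ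
    constructor
    · refine Eq.trans ?_ e1; simp [chi11, map_div₀, map_ofNat]
    · refine Eq.trans ?_ e2; simp [psi11, map_div₀, map_ofNat]
  obtain ⟨X, hX⟩ := exists_rat_of_fixed fun σ => (fixed σ).1
  obtain ⟨W, hW⟩ := exists_rat_of_fixed fun σ => (fixed σ).2
  have hq : W ^ 2 = X ^ 3 - 4 * X ^ 2 - 160 * X - 1264 := by
    apply (algebraMap ℚ Qbar).injective
    simp only [map_pow, map_sub, map_mul, map_ofNat, hX, hW]
    exact quotient_curve h0 h4 hsq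
  have hcase : (chi11 Z = 20 ∧ (psi11 Z * Y = 44 ∨ psi11 Z * Y = -44)) ∨
      (chi11 Z = 64 ∧ (psi11 Z * Y = 484 ∨ psi11 Z * Y = -484)) := by
    rw [← hX, ← hW]
    rcases rational_points_11a1 hq with rfl | rfl
    · left
      have : (W - 44) * (W + 44) = 0 := by linear_combination hq
      rcases mul_eq_zero.1 this with h | h
      · rw [sub_eq_zero] at h; subst h; exact ⟨map_ofNat _ _, Or.inl (map_ofNat _ _)⟩
      · rw [add_eq_zero_iff_eq_neg] at h; subst h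
        exact ⟨map_ofNat _ _, Or.inr (by rw [map_neg, map_ofNat])⟩
    · right
      have : (W - 484) * (W + 484) = 0 := by linear_combination hq
      rcases mul_eq_zero.1 this with h | h
      · rw [sub_eq_zero] at h; subst h; exact ⟨map_ofNat _ _, Or.inl (map_ofNat _ _)⟩
      · rw [add_eq_zero_iff_eq_neg] at h; subst h
        exact ⟨map_ofNat _ _, Or.inr (by rw [map_neg, map_ofNat])⟩
  obtain ⟨x, y, h00, u, l, b, c, hPe, hordP, hT, eZ, eY⟩ := hR
  obtain ⟨hc, hbc, hs1, -⟩ := tate_eleven hT (h0 := h00) (by rw [← hPe]; exact hord)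
  have eC : (tateCurve b c).c₄ = c4T b c := by
    simp only [tateCurve, WeierstrassCurve.c₄, b₂, b₄, c4T]; ring
  have eD : (tateCurve b c).Δ = deltaT b c := by
    simp only [tateCurve, WeierstrassCurve.Δ, b₂, b₄, b₆, b₈, deltaT]; ring
  have hc4 : algebraMap ℚ Qbar E.c₄ = u ^ 4 * c4T b c := by
    rw [← eC, ← hT.c4_eq]; simp [WeierstrassCurve.baseChange, WeierstrassCurve.map_c₄]
  have hd : algebraMap ℚ Qbar E.Δ = u ^ 12 * deltaT b c := by
    rw [← eD, ← hT.delta_eq]; simp [WeierstrassCurve.baseChange, WeierstrassCurve.map_Δ]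
  have hD : deltaT b c ≠ 0 := by
    intro e; rw [e, mul_zero] at hd
    exact hΔ ((map_eq_zero (algebraMap ℚ Qbar)).1 hd)
  rcases fibre_cases hc hbc hs1 hD eZ eY h0 h4 rfl rfl hcase with h | h | h
  · left; apply (algebraMap ℚ Qbar).injective
    simp only [map_pow, map_mul, map_neg, map_ofNat, hc4, hd]; linear_combination u ^ 12 * h
  · right; left; apply (algebraMap ℚ Qbar).injective
    simp only [map_pow, map_mul, map_neg, map_ofNat, hc4, hd]; linear_combination u ^ 12 * h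
  · right; right; apply (algebraMap ℚ Qbar).injective
    simp only [map_pow, map_mul, map_neg, map_ofNat, hc4, hd]; linear_combination u ^ 12 * h

end Fermat.Agent.Mazur
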