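import Fermat.Agent.Mazur.TateInvariant

/-!
# Elliptic curves with a Galois-stable line in `E[5]`

The `j`-invariant lies in the image of `X₀(5) ≅ ℙ¹`.
-/

set_option autoImplicit false

namespace Fermat.Agent.Mazur

open WeierstrassCurve

section Field

variable {K : Type*} [Field K]

/-- The parameter on `X₀(5)` as a function of the Tate normal form. -/
def f5 (b _c : K) : K := b - 1 / b

theorem f5_map {L : Type*} [Field L] {F : Type*} [FunLike F K L] [RingHomClass F K L] (σ : F)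
    (b c : K) : σ (f5 b c) = f5 (σ b) (σ c) := by
  simp [f5]

variable [DecidableEq K] [CharZero K] {E : WeierstrassCurve K}

omit [CharZero K] in
theorem tate_five {x y u l b c : K} (h : IsTate E x y u l b c)
    {h0 : E.toAffine.Nonsingular x y} (hP : addOrderOf (Affine.Point.some x y h0) = 5) :
    b = c := by
  set P := Affine.Point.some x y h0 with hPdef
  have ne : ∀ i j : ℕ, ¬ 5 ∣ i + j → ¬ ((5 : ℕ) : ℤ) ∣ (i : ℤ) - j →
      i • P ≠ j • P ∧ i • P ≠ -(j • P) := fun i j => nsmul_ne_of_order hP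
  have ne2 : P ≠ -P := by
    intro e
    have : (2 : ℕ) • P = 0 := by rw [two_nsmul]; nth_rewrite 1 [e]; exact neg_add_cancel _
    exact nsmul_ne_zero_of_lt_addOrderOf two_ne_zero (by rw [hP]; norm_num) this
  have p1 : AtPt E x y u l 0 0 P := IsTate.atPt_origin
  have p1' : AtPt E x y u l 0 0 ((1 : ℕ) • P) := by rw [one_nsmul]; exact p1
  have p2 : AtPt E x y u l b (b * c) ((2 : ℕ) • P) := by
    rw [two_nsmul]
    exact h.add_tangent p1 ne2 (L := 0) (by ring) (by ring) (by ring)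
  have x21 := h.X_ne_of_ne p2 p1' (ne 2 1 (by norm_num) (by norm_num)).1
    (ne 2 1 (by norm_num) (by norm_num)).2
  have p3 : AtPt E x y u l c (b - c) ((3 : ℕ) • P) := by
    rw [show (3 : ℕ) • P = (2 : ℕ) • P + P by abel]
    exact h.add_chord p2 p1 x21 (L := c) (by ring) (by ring) (by ring)
  have h23 : (3 : ℕ) • P = -((2 : ℕ) • P) := by
    apply eq_neg_of_add_eq_zero_left
    rw [← add_nsmul, show 3 + 2 = 5 from rfl, ← hP, addOrderOf_nsmul_eq_zero]
  obtain ⟨_, e2⟩ := p2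
  obtain ⟨_, e3⟩ := p3
  rw [e2, e3, Affine.Point.neg_some, Affine.Point.some.injEq] at h23
  exact (mul_left_cancel₀ (pow_ne_zero 2 h.u0) (add_left_cancel h23.1)).symm

theorem TateVal.double_five {P : E.toAffine.Point} {t : K}
    (h : TateVal 5 f5 P t) : TateVal 5 f5 ((2 : ℕ) • P) t := by
  obtain ⟨x, y, h0, u, l, b, c, rfl, hP, hT, rfl⟩ := h
  obtain rfl := tate_five hT hP
  have hb := hT.b0
  have hu := hT.u0
  set P := Affine.Point.some x y h0
  have hne2 : P ≠ -P := by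
    intro e
    have : (2 : ℕ) • P = 0 := by rw [two_nsmul]; nth_rewrite 1 [e]; exact neg_add_cancel _
    exact nsmul_ne_zero_of_lt_addOrderOf two_ne_zero (by rw [hP]; norm_num) this
  have p2 : AtPt E x y u l b (b * b) ((2 : ℕ) • P) := by
    rw [two_nsmul]
    exact hT.add_tangent IsTate.atPt_origin hne2 (L := 0) (by ring) (by ring) (by ring)
  obtain ⟨h2, e2⟩ := p2
  have hord : addOrderOf ((2 : ℕ) • P) = 5 := by
    rw [addOrderOf_nsmul' _ two_ne_zero, hP]; rfl
  have hT' : IsTate E (x + u ^ 2 * b) (y + l * u ^ 2 * b + u ^ 3 * (b * b))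
      (u * b) (l + u * b) (-1 / b) (-1 / b) := by
    refine ⟨mul_ne_zero hu hb, div_ne_zero (neg_ne_zero.2 one_ne_zero) hb, ?_, ?_, ?_, ?_, ?_⟩
    · simp only [hT.a1]; field_simp; ring
    · simp only [hT.a2, hT.a1]; field_simp; ring
    · simp only [hT.a3, hT.a1]; field_simp; ring
    · simp only [hT.a4, hT.a2, hT.a1]; field_simp; ring
    · have := (Affine.equation_iff _ _).1 h2.1
      linear_combination (-1 : K) * this
  refine ⟨_, _, h2, _, _, _, _, e2, hord, hT', ?_⟩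
  unfold f5; field_simp; ring

omit [DecidableEq K] [CharZero K] in
theorem j_five (b : K) (hb : b ≠ 0) :
    c4T b b ^ 3 * (f5 b b - 11) =
      (f5 b b ^ 2 - 12 * f5 b b + 16) ^ 3 * deltaT b b := by
  unfold f5 c4T deltaT
  field_simp
  ring

end Field

theorem zmod_five_gen : ∀ k : ZMod 5, k ≠ 0 →
    ∃ i : ℕ, k = ((2 ^ i : ℕ) : ZMod 5) ∨ k = -((2 ^ i : ℕ) : ZMod 5) := by
  have : ∀ k : ZMod 5, k ≠ 0 → ∃ i : Fin 4, k = ((2 ^ (i : ℕ) : ℕ) : ZMod 5) := by decide
  intro k hk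
  obtain ⟨i, hi⟩ := this k hk
  exact ⟨i, Or.inl hi⟩

open WeierstrassCurve.Affine.Point in
open scoped WeierstrassCurve.Affine in
/-- An elliptic curve over `ℚ` with a Galois-stable line in `E[5]`. -/
theorem stable_line_five (E : WeierstrassCurve ℚ) (hΔ : E.Δ ≠ 0)
    {N : Submodule (ZMod 5)
      (Submodule.torsionBy ℤ (E.toAffine⁄(AlgebraicClosure ℚ)).Point (5 : ℕ))}
    (hN : IsGaloisStable ℚ N) (hb : N ≠ ⊥) (ht : N ≠ ⊤) :
    ∃ q : ℚ, E.c₄ ^ 3 * (q - 11) = (q ^ 2 - 12 * q + 16) ^ 3 * E.Δ := by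
  have : Fact (Nat.Prime 5) := ⟨by norm_num⟩
  obtain ⟨q, x, y, u, l, b, c, h0, hP, hT, hq, hc4, hd⟩ :=
    exists_rat_val E (p := 5) (f := f5) (by norm_num) zmod_five_gen
      (fun σ b c => f5_map σ b c) (fun h => h.double_five) hΔ hN hb ht
  obtain rfl := tate_five hT hP
  refine ⟨q, (algebraMap ℚ (AlgebraicClosure ℚ)).injective ?_⟩
  simp only [map_pow, map_mul, map_add, map_sub, map_ofNat, hq, hc4, hd]
  linear_combination u ^ 12 * j_five b hT.b0

end Fermat.Agent.Mazur
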