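import Mathlib

/-!
Infinite descent for `X⁴ + 2kX²Z² + BZ⁴ = Y²` with `(k, B) = (3, 13)` or `(11, 125)`, and the
rational points of `Y² = u(u² + 6u + 13)` and `Y² = u(u² + 22u + 125)`: only `u = 0`.
-/

set_option autoImplicit false

namespace Fermat.Agent.Mazur

theorem isCoprime_of_no_prime {u v : ℤ}
    (h : ∀ q : ℕ, q.Prime → (q : ℤ) ∣ u → (q : ℤ) ∣ v → False) : IsCoprime u v := by
  rw [Int.isCoprime_iff_gcd_eq_one]
  by_contra hne
  obtain ⟨q, hq, hd⟩ := Nat.exists_prime_and_dvd hne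
  exact h q hq ((Int.natCast_dvd_natCast.2 hd).trans (Int.gcd_dvd_left u v))
    ((Int.natCast_dvd_natCast.2 hd).trans (Int.gcd_dvd_right u v))

theorem prime_not_dvd_both {u v : ℤ} (h : IsCoprime u v) {q : ℕ} (hq : q.Prime)
    (hu : (q : ℤ) ∣ u) (hv : (q : ℤ) ∣ v) : False := by
  obtain ⟨x, y, hxy⟩ := h
  have : (q : ℤ) ∣ 1 := hxy ▸ dvd_add (hu.mul_left x) (hv.mul_left y)
  exact hq.ne_one (Nat.dvd_one.1 (by exact_mod_cast this))

/-- Coprime factors of a fourth power are fourth powers up to sign. -/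
theorem fourth_powers {u v Z : ℤ} (hco : IsCoprime u v) (h : u * v = Z ^ 4) :
    ∃ a b : ℕ, |u| = (a : ℤ) ^ 4 ∧ |v| = (b : ℤ) ^ 4 ∧ |Z| = (a : ℤ) * b := by
  have hc : Nat.Coprime u.natAbs v.natAbs := Int.isCoprime_iff_nat_coprime.1 hco
  have hm : u.natAbs * v.natAbs = Z.natAbs ^ 4 := by rw [← Int.natAbs_mul, h, Int.natAbs_pow]
  obtain ⟨a, ha⟩ := exists_eq_pow_of_mul_eq_pow (Nat.isUnit_iff.2 hc) hm
  obtain ⟨b, hb⟩ := exists_eq_pow_of_mul_eq_pow (Nat.isUnit_iff.2 hc.symm) (by rw [mul_comm, hm])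
  refine ⟨a, b, ?_, ?_, ?_⟩
  · rw [Int.abs_eq_natAbs, ha]; push_cast; ring
  · rw [Int.abs_eq_natAbs, hb]; push_cast; ring
  · have : Z.natAbs = a * b := by
      refine Nat.pow_left_injective (by norm_num : 4 ≠ 0) ?_
      show Z.natAbs ^ 4 = (a * b) ^ 4
      rw [mul_pow, ← ha, ← hb, hm]
    rw [Int.abs_eq_natAbs, this]; push_cast; ring

/-- The data of the two quartics. -/
structure QuarticData (k B : ℤ) : Prop where
  kmod : k % 8 = 3
  hB : B = k ^ 2 + 4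
  pp : ∀ u v : ℤ, IsCoprime u v → B ∣ u * v → B ∣ u ∨ B ∣ v
  res : ∀ q : ℕ, q.Prime → (q : ℤ) ∣ B → ∀ a b : ℤ, (q : ℤ) ∣ a ^ 2 - 2 * k * b ^ 2 →
    (q : ℤ) ∣ a ∧ (q : ℤ) ∣ b

theorem quartic_coprime {k B : ℤ} (hd : QuarticData k B) :
    ∀ (n : ℕ) (X Z Y : ℤ), Z.natAbs = n → IsCoprime X Z → Z ≠ 0 →
      X ^ 4 + 2 * k * X ^ 2 * Z ^ 2 + B * Z ^ 4 ≠ Y ^ 2 := by
  intro n
  induction n using Nat.strong_induction_on with
  | _ n ih =>
    intro X Z Y hn hco hZ hY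
    obtain ⟨k₀, hk₀⟩ : ∃ k₀, k = 8 * k₀ + 3 := ⟨k / 8, by have := hd.kmod; omega⟩
    wlog hY0 : 0 ≤ Y generalizing Y
    · exact this (-Y) (by rw [hY]; ring) (by omega)
    obtain ⟨M, hM⟩ : ∃ M, M = X ^ 2 + k * Z ^ 2 := ⟨_, rfl⟩
    have hk : 0 < k ∨ k ≤ 0 := lt_or_ge 0 k
    have hsq : (Y - M) * (Y + M) = 4 * Z ^ 4 := by
      rw [hM]; linear_combination -hY + Z ^ 4 * hd.hB
    have odd_sq : ∀ x : ℤ, ¬ (2 : ℤ) ∣ x → ∃ m, x ^ 2 = 8 * m + 1 := by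
      intro x hx
      obtain ⟨j, rfl⟩ : ∃ j, x = 2 * j + 1 := ⟨x / 2, by omega⟩
      obtain ⟨i, hi⟩ := Int.even_mul_succ_self j
      exact ⟨i, by linear_combination 4 * hi⟩
    have hMY : ¬ (2 : ℤ) ∣ M ∧ ¬ (2 : ℤ) ∣ Y := by
      have hModd : ¬ (2 : ℤ) ∣ M := by
        by_cases hX2 : (2 : ℤ) ∣ X
        · have hZ2 : ¬ (2 : ℤ) ∣ Z := fun h => prime_not_dvd_both hco Nat.prime_two hX2 h
          obtain ⟨j, rfl⟩ := hX2
          obtain ⟨m, hm⟩ := odd_sq Z hZ2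
          rw [hM, hk₀, hm]; ring_nf; omega
        · obtain ⟨m, hm⟩ := odd_sq X hX2
          by_cases hZ2 : (2 : ℤ) ∣ Z
          · obtain ⟨j, rfl⟩ := hZ2
            rw [hM, hm]; ring_nf; omega
          · exfalso
            obtain ⟨m', hm'⟩ := odd_sq Z hZ2
            obtain ⟨M', hM'⟩ : ∃ M', M = 4 * (2 * M' + 1) :=
              ⟨m + 8 * k₀ * m' + k₀ + 3 * m', by rw [hM, hk₀, hm, hm']; ring⟩
            have hY2 : (2 : ℤ) ∣ Y := Int.prime_two.dvd_of_dvd_pow (n := 2)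
              ⟨2 * Z ^ 4 + 8 * (2 * M' + 1) ^ 2, by
                have : Y ^ 2 = 4 * Z ^ 4 + M ^ 2 := by linear_combination hsq
                rw [this, hM']; ring⟩
            obtain ⟨y, rfl⟩ := hY2
            have h5 : y ^ 2 = (8 * m' + 1) ^ 2 + 4 * (2 * M' + 1) ^ 2 := by
              have : (2 * y) ^ 2 = 4 * Z ^ 4 + M ^ 2 := by linear_combination hsq
              rw [hM', show Z ^ 4 = (Z ^ 2) ^ 2 by ring, hm'] at this
              linarith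
            have h8 := congrArg (Int.cast : ℤ → ZMod 8) h5
            push_cast at h8
            have : ∀ a b c : ZMod 8, a ^ 2 ≠ (8 * b + 1) ^ 2 + 4 * (2 * c + 1) ^ 2 := by decide
            exact this _ _ _ h8
      refine ⟨hModd, fun hY2 => hModd (Int.prime_two.dvd_of_dvd_pow (n := 2) ?_)⟩
      have : M ^ 2 = Y ^ 2 - 4 * Z ^ 4 := by linear_combination -hsq
      rw [this]; exact dvd_sub (hY2.pow two_ne_zero) ⟨2 * Z ^ 4, by ring⟩
    obtain ⟨u, hu⟩ : (2 : ℤ) ∣ Y - M := by omega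
    obtain ⟨v, hv⟩ : (2 : ℤ) ∣ Y + M := by omega
    have huv : u * v = Z ^ 4 := by rw [hu, hv] at hsq; linarith
    have hcouv : IsCoprime u v := isCoprime_of_no_prime fun q hq h1 h2 => by
      have hq' : Prime (q : ℤ) := Nat.prime_iff_prime_int.1 hq
      have hqM : (q : ℤ) ∣ M := by
        rw [show M = v - u by omega]; exact dvd_sub h2 h1
      have hqZ : (q : ℤ) ∣ Z := hq'.dvd_of_dvd_pow (huv ▸ h1.mul_right v)
      have hqX : (q : ℤ) ∣ X := hq'.dvd_of_dvd_pow (n := 2) <| by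
        rw [show X ^ 2 = M - k * Z ^ 2 by rw [hM]; ring]
        exact dvd_sub hqM ((hqZ.pow two_ne_zero).mul_left k)
      exact prime_not_dvd_both hco hq hqX hqZ
    obtain ⟨p, q, hp, hq, hpq⟩ := fourth_powers hcouv huv
    have hvpos : 0 ≤ u ∧ 0 ≤ v := by
      have h4 : 0 ≤ u * v := by rw [huv]; positivity
      rcases mul_nonneg_iff.1 h4 with h | h
      · exact h
      · have : u + v = Y := by omega
        omega
    rw [abs_of_nonneg hvpos.1] at hp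
    rw [abs_of_nonneg hvpos.2] at hq
    have hX2eq : X ^ 2 = (q : ℤ) ^ 4 - k * ((p : ℤ) * q) ^ 2 - (p : ℤ) ^ 4 := by
      rw [← hq, ← hp, ← hpq, sq_abs]
      have : M = v - u := by omega
      rw [hM] at this; linarith
    have hpqco : IsCoprime (p : ℤ) q := by
      have := hcouv
      rw [hp, hq] at this
      exact (IsCoprime.pow_iff (by norm_num) (by norm_num)).1 this
    have hpq0 : (p : ℤ) * q ≠ 0 := by rw [← hpq]; exact abs_ne_zero.2 hZ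
    -- `q` is odd and `p` is even
    have hq2 : ¬ (2 : ℤ) ∣ q := by
      intro h
      obtain ⟨j, hj⟩ := h
      have hp2 : ¬ (2 : ℤ) ∣ p := fun h' => prime_not_dvd_both hpqco Nat.prime_two h' ⟨j, hj⟩
      obtain ⟨m, hm⟩ := odd_sq p hp2
      rw [show ((p : ℤ) * q) ^ 2 = (p : ℤ) ^ 2 * (q : ℤ) ^ 2 by ring, show (p : ℤ) ^ 4 = ((p : ℤ) ^ 2) ^ 2 by ring, hm,
        hj] at hX2eq
      have h4 := congrArg (Int.cast : ℤ → ZMod 4) hX2eq
      push_cast at h4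
      have : ∀ a b c d : ZMod 4, a ^ 2 ≠ (2 * b) ^ 4 - c * ((8 * d + 1) * (2 * b) ^ 2) - (8 * d + 1) ^ 2 := by decide
      exact this _ _ _ _ h4
    have hp2 : (2 : ℤ) ∣ p := by
      by_contra h
      obtain ⟨m, hm⟩ := odd_sq p h
      obtain ⟨m', hm'⟩ := odd_sq q hq2
      rw [show ((p : ℤ) * q) ^ 2 = (p : ℤ) ^ 2 * (q : ℤ) ^ 2 by ring, show (p : ℤ) ^ 4 = ((p : ℤ) ^ 2) ^ 2 by ring,
        show (q : ℤ) ^ 4 = ((q : ℤ) ^ 2) ^ 2 by ring, hm, hm', hk₀] at hX2eq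
      have h8 := congrArg (Int.cast : ℤ → ZMod 8) hX2eq
      push_cast at h8
      have e8 : (8 : ZMod 8) = 0 := rfl
      rw [e8] at h8
      simp only [zero_mul, zero_add, mul_one, one_pow] at h8
      have : ∀ a : ZMod 8, a ^ 2 ≠ 1 - 3 - 1 := by decide
      exact this _ h8
    obtain ⟨t, ht⟩ := hp2
    obtain ⟨M', hM'⟩ : ∃ M', M' = (q : ℤ) ^ 2 - 2 * k * t ^ 2 := ⟨_, rfl⟩
    have hsq' : (M' - X) * (M' + X) = 4 * (B * t ^ 4) := by
      rw [ht] at hX2eq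
      rw [hM']; linear_combination -hX2eq - 4 * t ^ 4 * hd.hB
    have hM'odd : ¬ (2 : ℤ) ∣ M' := by
      intro h
      apply hq2
      refine Int.prime_two.dvd_of_dvd_pow (n := 2) ?_
      rw [show (q : ℤ) ^ 2 = M' + 2 * k * t ^ 2 by rw [hM']; ring]
      exact dvd_add h ⟨k * t ^ 2, by ring⟩
    have hXodd : ¬ (2 : ℤ) ∣ X := fun h => prime_not_dvd_both hco Nat.prime_two h (by
      rcases abs_choice Z with e | e
      · rw [← e, hpq, ht]; exact ⟨t * q, by ring⟩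
      · rw [← dvd_neg, ← e, hpq, ht]; exact ⟨t * q, by ring⟩)
    obtain ⟨u', hu'⟩ : (2 : ℤ) ∣ M' - X := by omega
    obtain ⟨v', hv'⟩ : (2 : ℤ) ∣ M' + X := by omega
    have huv' : u' * v' = B * t ^ 4 := by rw [hu', hv'] at hsq'; linarith
    have hco' : IsCoprime u' v' := isCoprime_of_no_prime fun r hr h1 h2 => by
      have hr' : Prime (r : ℤ) := Nat.prime_iff_prime_int.1 hr
      have hrM : (r : ℤ) ∣ M' := by rw [show M' = u' + v' by omega]; exact dvd_add h1 h2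
      have hrt : (r : ℤ) ∣ t → False := fun hrt => by
        have hrp : (r : ℤ) ∣ (p : ℤ) := ht ▸ hrt.mul_left 2
        have : (r : ℤ) ∣ (q : ℤ) := hr'.dvd_of_dvd_pow (n := 2) <| by
          rw [show (q : ℤ) ^ 2 = M' + 2 * k * t ^ 2 by rw [hM']; ring]
          exact dvd_add hrM ((hrt.pow two_ne_zero).mul_left _)
        exact prime_not_dvd_both hpqco hr hrp this
      rcases hr'.dvd_or_dvd (huv' ▸ h1.mul_right v') with h | h
      · exact hrt (hd.res r hr h q t (hM' ▸ hrM)).2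
      · exact hrt (hr'.dvd_of_dvd_pow h)
    have ht0 : t ≠ 0 := by
      intro e; rw [e, mul_zero] at ht; rw [ht, zero_mul] at hpq0; exact hpq0 rfl
    have key : ∀ w z : ℤ, IsCoprime w z → w * z = t ^ 4 → (q : ℤ) ^ 2 = 2 * k * t ^ 2 + (B * w + z) →
        False := by
      intro w z hwz hprod hq'
      obtain ⟨a, b, ha, hb, hab⟩ := fourth_powers hwz hprod
      have htt : t ^ 2 = ((a : ℤ) * b) ^ 2 := by rw [← hab, sq_abs]
      have hBpos : 0 < B := by rw [hd.hB]; positivity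
      have hsame : (w = (a : ℤ) ^ 4 ∧ z = (b : ℤ) ^ 4) ∨ (w = -(a : ℤ) ^ 4 ∧ z = -(b : ℤ) ^ 4) := by
        have hwz0 : 0 < w * z := by rw [hprod]; positivity
        rcases mul_pos_iff.1 hwz0 with ⟨h1, h2⟩ | ⟨h1, h2⟩
        · left; rw [abs_of_pos h1] at ha; rw [abs_of_pos h2] at hb; exact ⟨ha, hb⟩
        · right; rw [abs_of_neg h1] at ha; rw [abs_of_neg h2] at hb; constructor <;> linarith
      have ha0 : (a : ℤ) * b ≠ 0 := by rw [← hab]; exact abs_ne_zero.2 ht0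
      rcases hsame with ⟨rfl, rfl⟩ | ⟨rfl, rfl⟩
      · refine ih a ?_ (b : ℤ) (a : ℤ) (q : ℤ) (Int.natAbs_natCast a)
          ((IsCoprime.pow_iff (by norm_num : 0 < 4) (by norm_num : 0 < 4)).1 hwz).symm
          (left_ne_zero_of_mul ha0) (by rw [hq', htt]; ring)
        have h2 : t.natAbs = a * b := by zify; exact hab
        have h3 : Z.natAbs = p * q := by zify; exact hpq
        have h4 : p = 2 * t.natAbs := by omega
        have hq1 : 1 ≤ q := by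
          rcases Nat.eq_zero_or_pos q with e | e
          · subst e; simp at hpq0
          · exact e
        have hb1 : 1 ≤ b := by
          rcases Nat.eq_zero_or_pos b with e | e
          · subst e; simp at ha0
          · exact e
        have ha1 : 1 ≤ a := by
          rcases Nat.eq_zero_or_pos a with e | e
          · subst e; simp at ha0
          · exact e
        rw [← hn, h3, h4, h2]
        calc a < 2 * (a * b) := by nlinarith
          _ ≤ 2 * (a * b) * q := Nat.le_mul_of_pos_right _ hq1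
      · rw [htt, hd.hB] at hq'
        have hb4 : (b : ℤ) ≠ 0 := right_ne_zero_of_mul ha0
        have ha4 : (a : ℤ) ≠ 0 := left_ne_zero_of_mul ha0
        have hpos : 0 < (a : ℤ) ^ 4 := by positivity
        have : (q : ℤ) ^ 2 + ((b : ℤ) ^ 2 - k * (a : ℤ) ^ 2) ^ 2 + 4 * (a : ℤ) ^ 4 = 0 := by
          linear_combination hq'
        linarith [sq_nonneg ((b : ℤ) ^ 2 - k * (a : ℤ) ^ 2), sq_nonneg (q : ℤ)]
    rcases hd.pp u' v' hco' ⟨t ^ 4, huv'⟩ with ⟨w, hw⟩ | ⟨w, hw⟩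
    · subst hw
      refine key w v' hco'.of_mul_left_right (mul_left_cancel₀ (show B ≠ 0 by rw [hd.hB]; positivity) (by linear_combination huv')) ?_
      rw [show (q : ℤ) ^ 2 = M' + 2 * k * t ^ 2 by rw [hM']; ring, show M' = B * w + v' by linarith]; ring
    · subst hw
      refine key w u' hco'.of_mul_right_right.symm (mul_left_cancel₀ (show B ≠ 0 by rw [hd.hB]; positivity) (by linear_combination huv')) ?_
      rw [show (q : ℤ) ^ 2 = M' + 2 * k * t ^ 2 by rw [hM']; ring, show M' = u' + B * w by linarith]; ring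

/-- Without coprimality. -/
theorem quartic_ne {k B : ℤ} (hd : QuarticData k B) {X Z Y : ℤ} (hZ : Z ≠ 0) :
    X ^ 4 + 2 * k * X ^ 2 * Z ^ 2 + B * Z ^ 4 ≠ Y ^ 2 := by
  intro h
  obtain ⟨g, X', Z', hg, hco, rfl, rfl⟩ := Int.exists_gcd_one' (m := X) (n := Z)
    (Int.gcd_pos_of_ne_zero_right _ hZ)
  have hgY : ((g : ℤ) ^ 2) ∣ Y := (Int.pow_dvd_pow_iff two_ne_zero).1
    ⟨X' ^ 4 + 2 * k * X' ^ 2 * Z' ^ 2 + B * Z' ^ 4, by rw [← h]; ring⟩
  obtain ⟨Y', rfl⟩ := hgY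
  refine quartic_coprime hd _ X' Z' Y' rfl (Int.isCoprime_iff_gcd_eq_one.2 hco)
    (left_ne_zero_of_mul hZ) (mul_left_cancel₀ (pow_ne_zero 4 (by positivity : (g : ℤ) ≠ 0)) ?_)
  linear_combination h

/-- Only `u = 0` makes `u(u² + 2ku + B)` a rational square. -/
theorem isogeny_curve_point {k B : ℤ} (hd : QuarticData k B) {ℓ : ℕ} (hℓ : ℓ.Prime) {e₀ : ℕ}
    (hBℓ : B = (ℓ : ℤ) ^ (2 * e₀ + 1)) {u y : ℚ}
    (h : y ^ 2 = u * (u ^ 2 + 2 * (k : ℚ) * u + (B : ℚ))) : u = 0 := by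
  by_contra hu
  obtain ⟨n, hn⟩ : ∃ n, n = u.num := ⟨_, rfl⟩
  obtain ⟨d, hdd⟩ : ∃ d : ℤ, d = (u.den : ℤ) := ⟨_, rfl⟩
  have hd0 : d ≠ 0 := by simp [hdd]
  have hn0 : n ≠ 0 := hn ▸ Rat.num_ne_zero.2 hu
  obtain ⟨N, hN⟩ : ∃ N, N = n * (n ^ 2 + 2 * k * n * d + B * d ^ 2) := ⟨_, rfl⟩
  have hco : IsCoprime n d := Int.isCoprime_iff_gcd_eq_one.2 (by simpa [hn, hdd, Int.gcd] using u.reduced)
  have hsq : IsSquare (N * d) := by
    rw [← Rat.isSquare_intCast_iff]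
    refine ⟨y * (d : ℚ) ^ 2, ?_⟩
    have hud : (n : ℚ) = u * (d : ℚ) := by
      rw [hn, hdd]; push_cast; exact (Rat.mul_den_eq_num u).symm
    rw [hN]; push_cast; rw [hud]; linear_combination -((d : ℚ) ^ 4) * h
  obtain ⟨w, hw⟩ := hsq
  have hQpos : 0 < n ^ 2 + 2 * k * n * d + B * d ^ 2 := by
    have h4 : 0 < d ^ 2 := by positivity
    rw [hd.hB]; nlinarith [sq_nonneg (n + k * d)]
  have hNd : IsCoprime N d := by
    rw [hN]
    refine IsCoprime.mul_left hco ?_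
    rw [show n ^ 2 + 2 * k * n * d + B * d ^ 2 = n ^ 2 + d * (2 * k * n + B * d) by ring]
    exact hco.pow_left.add_mul_left_left _
  have hdpos : 0 < d := by simp [hdd, u.den_pos]
  have hNnn : 0 ≤ N := by
    by_contra hneg
    push Not at hneg
    nlinarith [mul_neg_of_neg_of_pos hneg hdpos, mul_self_nonneg w]
  have hnpos : 0 < n := by
    rcases lt_or_gt_of_ne hn0 with h | h
    · exact absurd (mul_neg_of_neg_of_pos h hQpos) (not_lt.2 (hN ▸ hNnn))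
    · exact h
  obtain ⟨e, he⟩ : ∃ e, d = e ^ 2 := by
    obtain ⟨e, he | he⟩ := Int.sq_of_isCoprime hNd.symm (show d * N = w ^ 2 by rw [mul_comm, hw, sq])
    · exact ⟨e, he⟩
    · nlinarith [sq_nonneg e]
  have he0 : e ≠ 0 := by rintro rfl; exact hd0 (by rw [he]; ring)
  obtain ⟨m, hm⟩ : ∃ m, N = m ^ 2 := by
    obtain ⟨m, hm | hm⟩ := Int.sq_of_isCoprime hNd (show N * d = w ^ 2 by rw [hw, sq])
    · exact ⟨m, hm⟩
    · exact ⟨0, by nlinarith [sq_nonneg m]⟩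
  have hℓ' : Prime (ℓ : ℤ) := Nat.prime_iff_prime_int.1 hℓ
  by_cases hln : (ℓ : ℤ) ∣ n
  · -- translate by the point of order two: `u ↦ B / u`
    have hn2 : IsCoprime n ((ℓ : ℤ)) → False := fun hc => hℓ'.not_isUnit (hc.isUnit_of_dvd' hln dvd_rfl)
    have hld : ¬ (ℓ : ℤ) ∣ d := fun h => prime_not_dvd_both hco hℓ hln h
    -- `n = ℓ^j n'`
    obtain ⟨j, n', hn', rfl⟩ := WfDvdMonoid.max_power_factor hn0 hℓ'.irreducible
    have hj : j ≠ 0 := by rintro rfl; simp at hln; exact hn' hln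
    have hn'pos : 0 < n' :=
      pos_of_mul_pos_right hnpos (le_of_lt (pow_pos (by exact_mod_cast hℓ.pos) j))
    have hm' : (m * ((ℓ : ℤ) ^ e₀ * e ^ 2) ) ^ 2 * (ℓ : ℤ) = ((ℓ : ℤ) ^ j * n') *
        (((ℓ : ℤ) ^ j * n') ^ 2 + 2 * k * ((ℓ : ℤ) ^ j * n') * d + B * d ^ 2) * (B * d ^ 2) := by
      rw [mul_pow, ← hm, hN, hBℓ, he]; ring
    obtain ⟨Q', hQ'⟩ : ∃ Q', Q' = ((ℓ : ℤ) ^ j * n') ^ 2 + 2 * k * ((ℓ : ℤ) ^ j * n') * d + B * d ^ 2 :=
      ⟨_, rfl⟩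
    have hcn : IsCoprime n' (B * d ^ 2) := by
      refine IsCoprime.mul_right ?_ (hco.of_mul_left_right.pow_right)
      rw [hBℓ]; exact (hℓ'.coprime_iff_not_dvd.2 hn').symm.pow_right
    have hcQ : IsCoprime n' (((ℓ : ℤ) ^ j) * Q') := by
      refine IsCoprime.mul_right ((hℓ'.coprime_iff_not_dvd.2 hn').symm.pow_right) ?_
      rw [hQ', show ((ℓ : ℤ) ^ j * n') ^ 2 + 2 * k * ((ℓ : ℤ) ^ j * n') * d + B * d ^ 2
        = B * d ^ 2 + n' * ((ℓ : ℤ) ^ (2 * j) * n' + 2 * k * (ℓ : ℤ) ^ j * d) by ring]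
      exact hcn.add_mul_left_right _
    have hmul : n' * ((ℓ : ℤ) ^ j * Q') = m ^ 2 := by rw [← hm, hN, hQ']; ring
    obtain ⟨z, hz⟩ : ∃ z, n' = z ^ 2 := by
      obtain ⟨z, hz | hz⟩ := Int.sq_of_isCoprime hcQ hmul
      · exact ⟨z, hz⟩
      · nlinarith [sq_nonneg z]
    have hz0 : z ≠ 0 := by rintro rfl; simp [hz] at hn'pos
    rcases Nat.even_or_odd j with ⟨i, rfl⟩ | ⟨i, rfl⟩
    · -- `n` is a square
      have hc : ((ℓ : ℤ) ^ i * z) ^ 2 = (ℓ : ℤ) ^ (i + i) * n' := by rw [hz]; ring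
      obtain ⟨Y, hY⟩ : ((ℓ : ℤ) ^ i * z) ∣ m := by
        rw [← Int.pow_dvd_pow_iff two_ne_zero, ← hm, hN, hc]
        exact dvd_mul_right _ _
      apply quartic_ne hd (X := (ℓ : ℤ) ^ i * z) (Z := e) (Y := Y) he0
      refine mul_left_cancel₀ (pow_ne_zero 2 (mul_ne_zero (pow_ne_zero i hℓ'.ne_zero) hz0)) ?_
      rw [← mul_pow, ← hY, ← hm, hN, ← hc, he]; ring
    · have hc : (ℓ : ℤ) * ((ℓ : ℤ) ^ i * z) ^ 2 = (ℓ : ℤ) ^ (2 * i + 1) * n' := by rw [hz]; ring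
      set s := (ℓ : ℤ) ^ i * z with hs
      have hs0 : s ≠ 0 := mul_ne_zero (pow_ne_zero i hℓ'.ne_zero) hz0
      -- `ℓ s² Q = m²`; multiply by `B ℓ`
      obtain ⟨Y, hY⟩ : s ∣ m := by
        rw [← Int.pow_dvd_pow_iff two_ne_zero, ← hm, hN, ← hc]
        exact ⟨(ℓ : ℤ) * ((ℓ * s ^ 2) ^ 2 + 2 * k * (ℓ * s ^ 2) * d + B * d ^ 2), by ring⟩
      have hY2 : (ℓ : ℤ) * (((ℓ : ℤ) * s ^ 2) ^ 2 + 2 * k * ((ℓ : ℤ) * s ^ 2) * d + B * d ^ 2) = Y ^ 2 := by
        refine mul_left_cancel₀ (pow_ne_zero 2 hs0) ?_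
        rw [← mul_pow, ← hY, ← hm, hN, ← hc]; ring
      apply quartic_ne hd (X := (ℓ : ℤ) ^ e₀ * e) (Z := s)
        (Y := ((ℓ : ℤ) ^ e₀) * Y / (ℓ : ℤ)) hs0
      obtain ⟨Y', rfl⟩ : (ℓ : ℤ) ∣ Y := hℓ'.dvd_of_dvd_pow (hY2 ▸ dvd_mul_right _ _)
      rw [show (ℓ : ℤ) ^ e₀ * ((ℓ : ℤ) * Y') = (ℓ : ℤ) * ((ℓ : ℤ) ^ e₀ * Y') by ring,
        Int.mul_ediv_cancel_left _ hℓ'.ne_zero]
      refine mul_left_cancel₀ (mul_ne_zero hℓ'.ne_zero hℓ'.ne_zero) ?_
      rw [he, hBℓ] at hY2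
      rw [hBℓ]; linear_combination ((ℓ : ℤ) ^ e₀) ^ 2 * hY2
  · -- `n` is a square
    have hcQ : IsCoprime n (n ^ 2 + 2 * k * n * d + B * d ^ 2) := by
      rw [show n ^ 2 + 2 * k * n * d + B * d ^ 2 = B * d ^ 2 + n * (n + 2 * k * d) by ring]
      refine IsCoprime.add_mul_left_right (IsCoprime.mul_right ?_ hco.pow_right) _
      rw [hBℓ]; exact (hℓ'.coprime_iff_not_dvd.2 hln).symm.pow_right
    have hmul : n * (n ^ 2 + 2 * k * n * d + B * d ^ 2) = m ^ 2 := by rw [← hm, hN]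
    obtain ⟨z, hz | hz⟩ := Int.sq_of_isCoprime hcQ hmul
    · have hz0 : z ≠ 0 := by rintro rfl; exact hn0 (by rw [hz]; ring)
      obtain ⟨Y, hY⟩ : z ∣ m := by
        rw [← Int.pow_dvd_pow_iff two_ne_zero, ← hmul, ← hz]; exact dvd_mul_right _ _
      apply quartic_ne hd (X := z) (Z := e) (Y := Y) he0
      refine mul_left_cancel₀ (pow_ne_zero 2 hz0) ?_
      rw [← mul_pow, ← hY, ← hmul, hz, he]; ring
    · nlinarith [sq_nonneg z]

theorem quarticData_thirteen : QuarticData 3 13 where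
  kmod := by norm_num
  hB := by norm_num
  pp := fun u v _ h => (Int.Prime.dvd_mul' (p := 13) (by norm_num) h)
  res := by
    intro q hq h a b hab
    have h13 : q ∣ 13 := by exact_mod_cast h
    obtain rfl : q = 13 := ((Nat.prime_dvd_prime_iff_eq hq (by norm_num)).1 h13)
    have key : ∀ a b : ZMod 13, a ^ 2 - 2 * 3 * b ^ 2 = 0 → a = 0 ∧ b = 0 := by decide
    rw [← ZMod.intCast_zmod_eq_zero_iff_dvd] at hab
    push_cast at hab
    obtain ⟨ha, hb⟩ := key _ _ hab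
    exact ⟨(ZMod.intCast_zmod_eq_zero_iff_dvd _ _).1 ha, (ZMod.intCast_zmod_eq_zero_iff_dvd _ _).1 hb⟩

theorem quarticData_oneTwentyFive : QuarticData 11 125 where
  kmod := by norm_num
  hB := by norm_num
  pp := by
    intro u v hco h
    have h5 : Prime (5 : ℤ) := Nat.prime_iff_prime_int.1 (by norm_num : Nat.Prime 5)
    by_cases hu : (5 : ℤ) ∣ u
    · have hv : ¬ (5 : ℤ) ∣ v := fun hv => h5.not_isUnit (hco.isUnit_of_dvd' hu hv)
      exact Or.inl ((h5.coprime_iff_not_dvd.2 hv).pow_left (m := 3) |>.dvd_of_dvd_mul_right (by simpa using h))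
    · exact Or.inr ((h5.coprime_iff_not_dvd.2 hu).pow_left (m := 3) |>.dvd_of_dvd_mul_left (by simpa using h))
  res := by
    intro q hq h a b hab
    have h13 : q ∣ 5 ^ 3 := by exact_mod_cast h
    obtain rfl : q = 5 := (Nat.prime_dvd_prime_iff_eq hq (by norm_num)).1 (hq.dvd_of_dvd_pow h13)
    have key : ∀ a b : ZMod 5, a ^ 2 - 2 * 11 * b ^ 2 = 0 → a = 0 ∧ b = 0 := by decide
    rw [← ZMod.intCast_zmod_eq_zero_iff_dvd] at hab
    push_cast at hab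
    obtain ⟨ha, hb⟩ := key _ _ hab
    exact ⟨(ZMod.intCast_zmod_eq_zero_iff_dvd _ _).1 ha, (ZMod.intCast_zmod_eq_zero_iff_dvd _ _).1 hb⟩

theorem eq_zero_of_square_fiftyTwo {u y : ℚ} (h : y ^ 2 = u * (u ^ 2 + 6 * u + 13)) : u = 0 :=
  isogeny_curve_point quarticData_thirteen (ℓ := 13) (by norm_num) (e₀ := 0) (by norm_num)
    (u := u) (y := y) (by push_cast; linear_combination h)

theorem eq_zero_of_square_twenty {u y : ℚ} (h : y ^ 2 = u * (u ^ 2 + 22 * u + 125)) : u = 0 :=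
  isogeny_curve_point quarticData_oneTwentyFive (ℓ := 5) (by norm_num) (e₀ := 1) (by norm_num)
    (u := u) (y := y) (by push_cast; linear_combination h)

end Fermat.Agent.Mazur
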