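import Fermat.Agent.Mazur.FreyFacts
import Fermat.Agent.Mazur.QuarticDescent

/-!
# The Frey curve avoids the images of `X₀(5)` and `X₀(13)`

Its discriminant is a square, so `j - 1728` is a square.
-/

set_option autoImplicit false

namespace Fermat.Agent.Mazur

variable (P : FreyPackage)

/-- If `j = (S² m + 1728 a) / a` for the Frey curve then `a m` is a square. -/
theorem freyCurve_square {a S m : ℚ} (ha : a ≠ 0)
    (h : P.freyCurve.c₄ ^ 3 * a = (S ^ 2 * m + 1728 * a) * P.freyCurve.Δ) :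
    ∃ y : ℚ, y ^ 2 = a * m := by
  have hc6 : P.freyCurve.c₆ ≠ 0 := by
    intro e
    apply freyCurve_c4_cube_ne P 1728
    have := P.freyCurve.c_relation
    rw [e] at this
    push_cast
    linear_combination (-1 : ℚ) * this
  obtain ⟨w, hw⟩ : ∃ w, w = (((P.a * P.b * P.c) ^ P.p : ℤ) : ℚ) / 16 := ⟨_, rfl⟩
  have hd := freyCurve_delta P
  rw [← hw] at hd
  have hr : P.freyCurve.c₆ ^ 2 * a = S ^ 2 * m * w ^ 2 := by
    have := P.freyCurve.c_relation
    rw [hd] at this h
    linear_combination a * this + h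
  have hS : S * w ≠ 0 := by
    intro e
    exact mul_ne_zero (pow_ne_zero 2 hc6) ha (by rw [hr]; linear_combination S * w * m * e)
  refine ⟨P.freyCurve.c₆ * a / (S * w), ?_⟩
  rw [div_pow, div_eq_iff (pow_ne_zero 2 hS)]
  linear_combination a * hr

theorem freyCurve_j_not_thirteen (q : ℚ) : P.freyCurve.c₄ ^ 3 * q ≠
    (q ^ 2 + 5 * q + 13) * (q ^ 4 + 7 * q ^ 3 + 20 * q ^ 2 + 19 * q + 1) ^ 3
      * P.freyCurve.Δ := by
  intro h
  rcases eq_or_ne q 0 with rfl | hq
  · exact freyCurve_delta_ne_zero P (by linear_combination (-1 / 13 : ℚ) * h)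
  obtain ⟨y, hy⟩ := freyCurve_square P (a := q) (m := q ^ 2 + 6 * q + 13)
    (S := q ^ 6 + 10 * q ^ 5 + 46 * q ^ 4 + 108 * q ^ 3 + 122 * q ^ 2 + 38 * q - 1) hq
    (by linear_combination h)
  exact hq (eq_zero_of_square_fiftyTwo hy)

theorem freyCurve_j_not_five (q : ℚ) : P.freyCurve.c₄ ^ 3 * (q - 11) ≠
    (q ^ 2 - 12 * q + 16) ^ 3 * P.freyCurve.Δ := by
  intro h
  rcases eq_or_ne q 11 with rfl | hq
  · exact freyCurve_delta_ne_zero P (by linear_combination (-1 / 125 : ℚ) * h)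
  obtain ⟨y, hy⟩ := freyCurve_square P (a := q - 11) (m := q ^ 2 + 4)
    (S := q ^ 2 - 18 * q + 76) (sub_ne_zero.2 hq) (by linear_combination h)
  exact hq (sub_eq_zero.1 (eq_zero_of_square_twenty (u := q - 11) (y := y)
    (by linear_combination hy)))

end Fermat.Agent.Mazur
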