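import Fermat.Agent.Mazur.QuarticDescent

/-!
# The exponent seven

Genocchi's reduction of `a⁷ + b⁷ = c⁷` to `x⁴ + 294 x² z² - 343 z⁴ = y²`, and a descent.
-/

set_option autoImplicit false

namespace Fermat.Agent.Mazur

theorem quarticSeven_not_both_odd {x z y : ℤ} (hx : ¬ (2 : ℤ) ∣ x) (hz : ¬ (2 : ℤ) ∣ z) :
    x ^ 4 + 294 * x ^ 2 * z ^ 2 - 343 * z ^ 4 ≠ y ^ 2 := by
  intro h
  obtain ⟨i, rfl⟩ : ∃ i, x = 2 * i + 1 := ⟨x / 2, by omega⟩
  obtain ⟨j, rfl⟩ : ∃ j, z = 2 * j + 1 := ⟨z / 2, by omega⟩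
  obtain ⟨i', hi⟩ := Int.even_mul_succ_self i
  obtain ⟨j', hj⟩ := Int.even_mul_succ_self j
  have ex : (2 * i + 1) ^ 2 = 8 * i' + 1 := by linear_combination 4 * hi
  have ez : (2 * j + 1) ^ 2 = 8 * j' + 1 := by linear_combination 4 * hj
  obtain ⟨m, hm⟩ : ∃ m, m = 2 * i' + 294 * j' + 37 := ⟨_, rfl⟩
  have hM : (2 * i + 1) ^ 2 + 147 * (2 * j + 1) ^ 2 = 4 * m := by rw [ex, ez, hm]; ring
  have h16 : (4 : ℤ) ^ 2 ∣ y ^ 2 :=
    ⟨m ^ 2 - 1372 * (2 * j + 1) ^ 4, by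
      linear_combination -h + ((2 * i + 1) ^ 2 + 147 * (2 * j + 1) ^ 2 + 4 * m) * hM⟩
  obtain ⟨y', rfl⟩ := (Int.pow_dvd_pow_iff two_ne_zero).1 h16
  have h2 : (m - y') * (m + y') = 4 * (343 * (2 * j + 1) ^ 4) := by
    apply mul_left_cancel₀ (show (16 : ℤ) ≠ 0 by norm_num)
    linear_combination h - ((2 * i + 1) ^ 2 + 147 * (2 * j + 1) ^ 2 + 4 * m) * hM
  have hy' : ¬ (2 : ℤ) ∣ y' := by
    intro hy
    have : (2 : ℤ) ∣ m ^ 2 := by
      rw [show m ^ 2 = 4 * (343 * (2 * j + 1) ^ 4) + y' ^ 2 by linear_combination h2]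
      exact dvd_add ⟨2 * (343 * (2 * j + 1) ^ 4), by ring⟩ (hy.pow two_ne_zero)
    have := Int.prime_two.dvd_of_dvd_pow this
    omega
  obtain ⟨u, hu⟩ : (2 : ℤ) ∣ m - y' := by omega
  obtain ⟨v, hv⟩ : (2 : ℤ) ∣ m + y' := by omega
  have huv : u * v = 343 * (2 * j + 1) ^ 4 := by rw [hu, hv] at h2; linarith
  have hodd : ¬ (2 : ℤ) ∣ u * v := by
    rw [huv]; intro hd
    rcases Int.prime_two.dvd_or_dvd hd with hd | hd
    · norm_num at hd
    · have := Int.prime_two.dvd_of_dvd_pow hd; omega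
  have h1 : ¬ (2 : ℤ) ∣ u := fun hd => hodd (hd.mul_right v)
  have h3 : ¬ (2 : ℤ) ∣ v := fun hd => hodd (hd.mul_left u)
  omega

theorem not_seven_square {c e b : ℤ} (hc : ¬ (7 : ℤ) ∣ c) : b ^ 2 ≠ 7 * e - c ^ 4 := by
  intro h
  have h7 := congrArg (Int.cast : ℤ → ZMod 7) h
  push_cast at h7
  rw [show (7 : ZMod 7) = 0 from rfl, zero_mul, zero_sub] at h7
  have : ∀ b c : ZMod 7, b ^ 2 = -c ^ 4 → c = 0 := by decide
  exact hc ((ZMod.intCast_zmod_eq_zero_iff_dvd _ 7).1 (this _ _ h7))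

/-- Coprime nonnegative `u v = 343 z⁴`. -/
theorem split_seven {u v z : ℤ} (hco : IsCoprime u v) (hu : 0 ≤ u) (hv : 0 ≤ v)
    (h : u * v = 343 * z ^ 4) :
    ∃ c d : ℕ, ((u = 343 * (d : ℤ) ^ 4 ∧ v = (c : ℤ) ^ 4) ∨ (u = (c : ℤ) ^ 4 ∧ v = 343 * (d : ℤ) ^ 4))
      ∧ |z| = (c : ℤ) * d := by
  have h7 : Prime (7 : ℤ) := Nat.prime_iff_prime_int.1 (by norm_num : Nat.Prime 7)
  have h343 : (343 : ℤ) = (7 : ℤ) ^ 3 := by norm_num
  by_cases hd : (7 : ℤ) ∣ u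
  · have hv7 : ¬ (7 : ℤ) ∣ v := fun h' => h7.not_isUnit (hco.isUnit_of_dvd' hd h')
    have hdu : (343 : ℤ) ∣ u := (h343 ▸ ((h7.coprime_iff_not_dvd.2 hv7).pow_left (m := 3))).dvd_of_dvd_mul_right
      ⟨z ^ 4, h⟩
    obtain ⟨w, rfl⟩ := hdu
    obtain ⟨d, c, hd', hc', hz⟩ := fourth_powers hco.of_mul_left_right
      (show w * v = z ^ 4 by linarith)
    rw [abs_of_nonneg (by linarith)] at hd'
    rw [abs_of_nonneg hv] at hc'
    exact ⟨c, d, Or.inl ⟨by rw [hd'], hc'⟩, by rw [hz]; ring⟩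
  · have hdv : (343 : ℤ) ∣ v := (h343 ▸ ((h7.coprime_iff_not_dvd.2 hd).pow_left (m := 3))).dvd_of_dvd_mul_left
      ⟨z ^ 4, h⟩
    obtain ⟨w, rfl⟩ := hdv
    obtain ⟨c, d, hc', hd', hz⟩ := fourth_powers hco.of_mul_right_right
      (show u * w = z ^ 4 by linarith)
    rw [abs_of_nonneg (by linarith)] at hd'
    rw [abs_of_nonneg hu] at hc'
    exact ⟨c, d, Or.inr ⟨hc', by rw [hd']⟩, hz⟩

theorem quarticSeven_coprime : ∀ (n : ℕ) (x z y : ℤ), z.natAbs = n → IsCoprime x z → z ≠ 0 →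
    x ^ 4 + 294 * x ^ 2 * z ^ 2 - 343 * z ^ 4 ≠ y ^ 2 := by
  intro n
  induction n using Nat.strong_induction_on with
  | _ n ih =>
  intro x z y hn hco hz h
  have h7 : Prime (7 : ℤ) := Nat.prime_iff_prime_int.1 (by norm_num : Nat.Prime 7)
  obtain ⟨M, hM⟩ : ∃ M, M = x ^ 2 + 147 * z ^ 2 := ⟨_, rfl⟩
  have hMpos : 0 < M := by rw [hM]; positivity
  have hModd : ¬ (2 : ℤ) ∣ M := by
    by_cases hx : (2 : ℤ) ∣ x
    · have hz2 : ¬ (2 : ℤ) ∣ z := fun h' => prime_not_dvd_both hco Nat.prime_two hx h'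
      obtain ⟨i, rfl⟩ := hx
      obtain ⟨j, rfl⟩ : ∃ j, z = 2 * j + 1 := ⟨z / 2, by omega⟩
      rw [hM]; ring_nf; omega
    · have hz2 : (2 : ℤ) ∣ z := by_contra fun h' => quarticSeven_not_both_odd hx h' h
      obtain ⟨j, rfl⟩ := hz2
      obtain ⟨i, rfl⟩ : ∃ i, x = 2 * i + 1 := ⟨x / 2, by omega⟩
      rw [hM]; ring_nf; omega
  have hsq : (M - y) * (M + y) = 4 * (5488 * z ^ 4) := by rw [hM]; linear_combination h
  have hy : ¬ (2 : ℤ) ∣ y := by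
    intro hy
    apply hModd
    refine Int.prime_two.dvd_of_dvd_pow (n := 2) ?_
    rw [show M ^ 2 = 4 * (5488 * z ^ 4) + y ^ 2 by linear_combination hsq]
    exact dvd_add ⟨2 * (5488 * z ^ 4), by ring⟩ (hy.pow two_ne_zero)
  have hx7 : ¬ (7 : ℤ) ∣ x := by
    rintro ⟨x', rfl⟩
    have hz7 : ¬ (7 : ℤ) ∣ z := fun h' =>
      prime_not_dvd_both hco (by norm_num : Nat.Prime 7) (dvd_mul_right _ _) h'
    obtain ⟨y₁, rfl⟩ : (7 : ℤ) ∣ y := h7.dvd_of_dvd_pow (n := 2)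
      ⟨343 * x' ^ 4 + 2058 * x' ^ 2 * z ^ 2 - 49 * z ^ 4, by linear_combination -h⟩
    obtain ⟨y₂, rfl⟩ : (7 : ℤ) ∣ y₁ := h7.dvd_of_dvd_pow (n := 2)
      ⟨7 * x' ^ 4 + 42 * x' ^ 2 * z ^ 2 - z ^ 4, by
        apply mul_left_cancel₀ (show (49 : ℤ) ≠ 0 by norm_num)
        linear_combination -h⟩
    apply hz7 (h7.dvd_of_dvd_pow (n := 4) ⟨x' ^ 4 + 6 * x' ^ 2 * z ^ 2 - y₂ ^ 2, _⟩)
    apply mul_left_cancel₀ (show (343 : ℤ) ≠ 0 by norm_num)
    linear_combination -h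
  obtain ⟨u, hu⟩ : (2 : ℤ) ∣ M - y := by omega
  obtain ⟨v, hv⟩ : (2 : ℤ) ∣ M + y := by omega
  have huv : u * v = 5488 * z ^ 4 := by rw [hu, hv] at hsq; linarith
  have hsum : u + v = M := by omega
  have hcouv : IsCoprime u v := isCoprime_of_no_prime fun q hq h1 h2 => by
    have hq' : Prime (q : ℤ) := Nat.prime_iff_prime_int.1 hq
    have hqM : (q : ℤ) ∣ M := hsum ▸ dvd_add h1 h2
    have hq2 : q ≠ 2 := by rintro rfl; exact hModd hqM
    have h5 : (q : ℤ) ∣ 5488 * z ^ 4 := huv ▸ h1.mul_right v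
    have hqz : (q : ℤ) ∣ z → False := fun hqz => by
      refine prime_not_dvd_both hco hq (hq'.dvd_of_dvd_pow (n := 2) ?_) hqz
      rw [show x ^ 2 = M - 147 * z ^ 2 by rw [hM]; ring]
      exact dvd_sub hqM ((hqz.pow two_ne_zero).mul_left _)
    rcases hq'.dvd_or_dvd h5 with h' | h'
    · have hq5 : q ∣ 2 ^ 4 * 7 ^ 3 := by exact_mod_cast h'
      obtain rfl : q = 7 := by
        rcases (Nat.Prime.dvd_mul hq).1 hq5 with h'' | h''
        · exact absurd ((Nat.prime_dvd_prime_iff_eq hq Nat.prime_two).1 (hq.dvd_of_dvd_pow h'')) hq2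
        · exact (Nat.prime_dvd_prime_iff_eq hq (by norm_num)).1 (hq.dvd_of_dvd_pow h'')
      refine hx7 (h7.dvd_of_dvd_pow (n := 2) ?_)
      rw [show x ^ 2 = M - 7 * (21 * z ^ 2) by rw [hM]; ring]
      exact dvd_sub hqM (dvd_mul_right _ _)
    · exact hqz (hq'.dvd_of_dvd_pow h')
  have hnn : 0 ≤ u ∧ 0 ≤ v := by
    have h4 : 0 ≤ u * v := by rw [huv]; positivity
    rcases mul_nonneg_iff.1 h4 with h' | h'
    · exact h'
    · omega
  -- first form: `x² = 5488 a⁴ - 147 a² b² + b⁴`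
  have key1 : ∀ a b : ℕ, IsCoprime (5488 * (a : ℤ) ^ 4) ((b : ℤ) ^ 4) → a ≠ 0 → |z| = (a : ℤ) * b →
      x ^ 2 = 5488 * (a : ℤ) ^ 4 - 147 * (a : ℤ) ^ 2 * (b : ℤ) ^ 2 + (b : ℤ) ^ 4 → False := by
    intro a b hab ha hzab hX
    have hb2 : ¬ (2 : ℤ) ∣ b := fun h' => prime_not_dvd_both hab Nat.prime_two
      ⟨2744 * (a : ℤ) ^ 4, by ring⟩ (h'.pow (by norm_num))
    have hb7 : ¬ (7 : ℤ) ∣ b := fun h' => prime_not_dvd_both hab (by norm_num : Nat.Prime 7)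
      ⟨784 * (a : ℤ) ^ 4, by push_cast; ring⟩ (h'.pow (by norm_num))
    have ha2 : (2 : ℤ) ∣ a := by
      by_contra ha2
      obtain ⟨i, hi⟩ : ∃ i, (a : ℤ) = 2 * i + 1 := ⟨(a : ℤ) / 2, by omega⟩
      obtain ⟨j, hj⟩ : ∃ j, (b : ℤ) = 2 * j + 1 := ⟨(b : ℤ) / 2, by omega⟩
      rw [hi, hj] at hX
      have h8 := congrArg (Int.cast : ℤ → ZMod 8) hX
      push_cast at h8
      have : ∀ i j w : ZMod 8, w ^ 2 ≠ 5488 * (2 * i + 1) ^ 4
          - 147 * (2 * i + 1) ^ 2 * (2 * j + 1) ^ 2 + (2 * j + 1) ^ 4 := by decide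
      exact this _ _ _ h8
    obtain ⟨a₁, ha₁⟩ := ha2
    obtain ⟨N, hN⟩ : ∃ N, N = (b : ℤ) ^ 2 - 294 * a₁ ^ 2 := ⟨_, rfl⟩
    have hprod : (|x| - N) * (|x| + N) = 4 * (343 * a₁ ^ 4) := by
      rw [ha₁] at hX
      rw [hN]; linear_combination (sq_abs x) + hX
    have hNodd : ¬ (2 : ℤ) ∣ N := fun h' => hb2 (Int.prime_two.dvd_of_dvd_pow (n := 2) (by
      rw [show (b : ℤ) ^ 2 = N + 2 * (147 * a₁ ^ 2) by rw [hN]; ring]
      exact dvd_add h' (dvd_mul_right _ _)))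
    have hxodd : ¬ (2 : ℤ) ∣ |x| := fun h' => hNodd (Int.prime_two.dvd_of_dvd_pow (n := 2) (by
      rw [show N ^ 2 = |x| ^ 2 - 2 * (686 * a₁ ^ 4) by linear_combination -hprod]
      exact dvd_sub (h'.pow two_ne_zero) (dvd_mul_right _ _)))
    obtain ⟨s, hs⟩ : (2 : ℤ) ∣ |x| - N := by omega
    obtain ⟨t, ht⟩ : (2 : ℤ) ∣ |x| + N := by omega
    have hst : s * t = 343 * a₁ ^ 4 := by rw [hs, ht] at hprod; linarith
    have hts : t - s = N := by omega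
    have hnn' : 0 ≤ s ∧ 0 ≤ t := by
      have h4 : 0 ≤ s * t := by rw [hst]; positivity
      rcases mul_nonneg_iff.1 h4 with h' | h'
      · exact h'
      · have := abs_nonneg x; omega
    have hcost : IsCoprime s t := isCoprime_of_no_prime fun q hq h1 h2 => by
      have hq' : Prime (q : ℤ) := Nat.prime_iff_prime_int.1 hq
      have hqN : (q : ℤ) ∣ N := hts ▸ dvd_sub h2 h1
      have hqb : (q : ℤ) ∣ 294 * a₁ ^ 2 → (q : ℤ) ∣ b := fun h' =>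
        hq'.dvd_of_dvd_pow (n := 2) (by
          rw [show (b : ℤ) ^ 2 = N + 294 * a₁ ^ 2 by rw [hN]; ring]; exact dvd_add hqN h')
      rcases hq'.dvd_or_dvd (hst ▸ h1.mul_right t : (q : ℤ) ∣ 343 * a₁ ^ 4) with h' | h'
      · have hq7 : q ∣ 7 ^ 3 := by exact_mod_cast h'
        obtain rfl : q = 7 := (Nat.prime_dvd_prime_iff_eq hq (by norm_num)).1 (hq.dvd_of_dvd_pow hq7)
        exact hb7 (hqb ⟨42 * a₁ ^ 2, by push_cast; ring⟩)
      · have hqa : (q : ℤ) ∣ a₁ := hq'.dvd_of_dvd_pow h'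
        refine prime_not_dvd_both hab hq ?_ ((hqb ((hqa.pow two_ne_zero).mul_left _)).pow (by norm_num))
        rw [ha₁]; exact ((hqa.mul_left 2).pow (by norm_num)).mul_left _
    obtain ⟨c, d, hcd, ha1⟩ := split_seven hcost hnn'.1 hnn'.2 hst
    have hcd0 : (c : ℤ) * d ≠ 0 := by
      rw [← ha1, abs_ne_zero]; rintro rfl; simp at ha₁; exact ha ha₁
    have hb' : (b : ℤ) ^ 2 = t - s + 294 * ((c : ℤ) * d) ^ 2 := by
      rw [hts, hN, ← ha1, sq_abs]; ring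
    rcases hcd with ⟨rfl, rfl⟩ | ⟨rfl, rfl⟩
    · refine ih d ?_ c d b (Int.natAbs_natCast d)
        (((IsCoprime.pow_iff (by norm_num : 0 < 4) (by norm_num : 0 < 4)).1
          hcost.of_mul_left_right)).symm (right_ne_zero_of_mul hcd0)
        (by rw [hb']; ring)
      have e1 : a₁.natAbs = c * d := by zify; exact ha1
      have e2 : z.natAbs = a * b := by zify; exact hzab
      have e3 : a = 2 * a₁.natAbs := by omega
      have hc1 : 1 ≤ c := by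
        rcases Nat.eq_zero_or_pos c with e | e
        · subst e; simp at hcd0
        · exact e
      have hd1 : 1 ≤ d := by
        rcases Nat.eq_zero_or_pos d with e | e
        · subst e; simp at hcd0
        · exact e
      have hb1 : 1 ≤ b := by omega
      rw [← hn, e2, e3, e1]
      calc d < 2 * (c * d) := by nlinarith
        _ ≤ 2 * (c * d) * b := Nat.le_mul_of_pos_right _ hb1
    · refine not_seven_square (b := (b : ℤ)) (c := (c : ℤ))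
        (e := 49 * (d : ℤ) ^ 4 + 42 * ((c : ℤ) * d) ^ 2) ?_ (by rw [hb']; ring)
      exact fun h' => h7.not_isUnit (hcost.isUnit_of_dvd' (h'.pow (by norm_num))
        ⟨49 * (d : ℤ) ^ 4, by ring⟩)
  -- second form: `x² = 16 a⁴ - 147 a² b² + 343 b⁴`
  have key2 : ∀ a b : ℕ, IsCoprime (16 * (a : ℤ) ^ 4) (343 * (b : ℤ) ^ 4) → a ≠ 0 →
      x ^ 2 = 16 * (a : ℤ) ^ 4 - 147 * (a : ℤ) ^ 2 * (b : ℤ) ^ 2 + 343 * (b : ℤ) ^ 4 → False := by
    intro a b hab ha hX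
    have hb2 : ¬ (2 : ℤ) ∣ b := fun h' => prime_not_dvd_both hab Nat.prime_two
      ⟨8 * (a : ℤ) ^ 4, by ring⟩ ((h'.pow (by norm_num)).mul_left _)
    have ha7 : ¬ (7 : ℤ) ∣ a := fun h' => prime_not_dvd_both hab (by norm_num : Nat.Prime 7)
      ((h'.pow (by norm_num)).mul_left _) ⟨49 * (b : ℤ) ^ 4, by push_cast; ring⟩
    obtain ⟨N, hN⟩ : ∃ N, N = 32 * (a : ℤ) ^ 2 - 147 * (b : ℤ) ^ 2 := ⟨_, rfl⟩
    have hprod : (8 * |x| - N) * (8 * |x| + N) = 343 * (b : ℤ) ^ 4 := by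
      rw [hN]; linear_combination 64 * sq_abs x + 64 * hX
    have hodd : ¬ (2 : ℤ) ∣ 343 * (b : ℤ) ^ 4 := fun h' => by
      rcases Int.prime_two.dvd_or_dvd h' with h'' | h''
      · norm_num at h''
      · exact hb2 (Int.prime_two.dvd_of_dvd_pow h'')
    obtain ⟨s, hs⟩ : ∃ s, s = 8 * |x| - N := ⟨_, rfl⟩
    obtain ⟨t, ht⟩ : ∃ t, t = 8 * |x| + N := ⟨_, rfl⟩
    rw [← hs, ← ht] at hprod
    have hnn' : 0 ≤ s ∧ 0 ≤ t := by
      have h4 : 0 ≤ s * t := by rw [hprod]; positivity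
      rcases mul_nonneg_iff.1 h4 with h' | h'
      · exact h'
      · have := abs_nonneg x; omega
    have hcost : IsCoprime s t := isCoprime_of_no_prime fun q hq h1 h2 => by
      have hq' : Prime (q : ℤ) := Nat.prime_iff_prime_int.1 hq
      have hq2 : ¬ (q : ℤ) ∣ 2 := by
        intro h'
        obtain rfl : q = 2 := (Nat.prime_dvd_prime_iff_eq hq Nat.prime_two).1 (by exact_mod_cast h')
        exact hodd (hprod ▸ h1.mul_right t)
      have hqN : (q : ℤ) ∣ N := by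
        refine (hq'.dvd_or_dvd (?_ : (q : ℤ) ∣ 2 * N)).resolve_left hq2
        rw [show 2 * N = t - s by omega]; exact dvd_sub h2 h1
      have hqa : (q : ℤ) ∣ 147 * (b : ℤ) ^ 2 → (q : ℤ) ∣ a := fun h' => by
        have h32 : (q : ℤ) ∣ 2 ^ 5 * (a : ℤ) ^ 2 := by
          rw [show 2 ^ 5 * (a : ℤ) ^ 2 = N + 147 * (b : ℤ) ^ 2 by rw [hN]; ring]
          exact dvd_add hqN h'
        exact hq'.dvd_of_dvd_pow
          ((hq'.dvd_or_dvd h32).resolve_left fun h'' => hq2 (hq'.dvd_of_dvd_pow h''))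
      rcases hq'.dvd_or_dvd (hprod ▸ h1.mul_right t : (q : ℤ) ∣ 343 * (b : ℤ) ^ 4) with h' | h'
      · have hq7 : q ∣ 7 ^ 3 := by exact_mod_cast h'
        obtain rfl : q = 7 := (Nat.prime_dvd_prime_iff_eq hq (by norm_num)).1 (hq.dvd_of_dvd_pow hq7)
        exact ha7 (hqa ⟨21 * (b : ℤ) ^ 2, by push_cast; ring⟩)
      · have hqb : (q : ℤ) ∣ b := hq'.dvd_of_dvd_pow h'
        exact prime_not_dvd_both hab hq
          (((hqa ((hqb.pow two_ne_zero).mul_left _)).pow (by norm_num)).mul_left _)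
          ((hqb.pow (by norm_num)).mul_left _)
    obtain ⟨c, d, hcd, hb1⟩ := split_seven hcost hnn'.1 hnn'.2 hprod
    have hbcd : (b : ℤ) = (c : ℤ) * d := by rw [← hb1]; simp
    have h64 : (8 * (a : ℤ)) ^ 2 = t - s + 294 * (b : ℤ) ^ 2 := by
      rw [show t - s = 2 * N by omega, hN]; ring
    have hc2 : ¬ (2 : ℤ) ∣ c := fun h' => hb2 (hbcd ▸ h'.mul_right _)
    have hd2 : ¬ (2 : ℤ) ∣ d := fun h' => hb2 (hbcd ▸ h'.mul_left _)
    rcases hcd with ⟨rfl, rfl⟩ | ⟨rfl, rfl⟩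
    · refine quarticSeven_not_both_odd (y := 8 * (a : ℤ)) hc2 hd2 ?_
      rw [h64, hbcd]; ring
    · refine not_seven_square (b := 8 * (a : ℤ)) (c := (c : ℤ))
        (e := 49 * (d : ℤ) ^ 4 + 42 * (b : ℤ) ^ 2) ?_ (by rw [h64]; ring)
      exact fun h' => h7.not_isUnit (hcost.isUnit_of_dvd' (h'.pow (by norm_num))
        ⟨49 * (d : ℤ) ^ 4, by ring⟩)
  -- distribution of `2` and `7`
  have main : ∀ u v : ℤ, IsCoprime u v → 0 ≤ u → 0 ≤ v → u * v = 5488 * z ^ 4 → u + v = M →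
      (16 : ℤ) ∣ u → False := by
    intro u v hcouv hu0 hv0 huv hsum h16
    obtain ⟨w, rfl⟩ := h16
    obtain ⟨c, d, hcd, hzcd⟩ := split_seven hcouv.of_mul_left_right (by omega) hv0
      (show w * v = 343 * z ^ 4 by linarith)
    have hcd0 : (c : ℤ) * d ≠ 0 := hzcd ▸ abs_ne_zero.2 hz
    have hX : x ^ 2 = 16 * w + v - 147 * ((c : ℤ) * d) ^ 2 := by
      rw [← hzcd, sq_abs]; rw [hM] at hsum; linarith
    rcases hcd with ⟨rfl, rfl⟩ | ⟨rfl, rfl⟩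
    · refine key1 d c (by convert hcouv using 1; ring) ?_ (by rw [hzcd]; ring) (by rw [hX]; ring)
      rintro rfl; simp at hcd0
    · refine key2 c d hcouv ?_ (by rw [hX]; ring)
      rintro rfl; simp at hcd0
  have h16 : (16 : ℤ) ∣ u ∨ (16 : ℤ) ∣ v := by
    have hd : (2 : ℤ) ^ 4 ∣ u * v := ⟨343 * z ^ 4, by rw [huv]; ring⟩
    by_cases h2 : (2 : ℤ) ∣ u
    · have hv2 : ¬ (2 : ℤ) ∣ v := fun h' => prime_not_dvd_both hcouv Nat.prime_two h2 h'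
      exact Or.inl (by simpa using
        ((Int.prime_two.coprime_iff_not_dvd.2 hv2).pow_left (m := 4)).dvd_of_dvd_mul_right hd)
    · exact Or.inr (by simpa using
        ((Int.prime_two.coprime_iff_not_dvd.2 h2).pow_left (m := 4)).dvd_of_dvd_mul_left hd)
  rcases h16 with h16 | h16
  · exact main u v hcouv hnn.1 hnn.2 huv hsum h16
  · exact main v u hcouv.symm hnn.2 hnn.1 (by rw [mul_comm, huv]) (by omega) h16

/-- The rational form: `x⁴ + 294 x² - 343` is not a square. -/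
theorem quarticSeven_rat (x y : ℚ) : x ^ 4 + 294 * x ^ 2 - 343 ≠ y ^ 2 := by
  intro h
  obtain ⟨n, hn⟩ : ∃ n, n = x.num := ⟨_, rfl⟩
  obtain ⟨d, hd⟩ : ∃ d : ℤ, d = (x.den : ℤ) := ⟨_, rfl⟩
  have hd0 : d ≠ 0 := by simp [hd]
  have hud : (n : ℚ) = x * (d : ℚ) := by
    rw [hn, hd]; push_cast; exact (Rat.mul_den_eq_num x).symm
  have hco : IsCoprime n d := Int.isCoprime_iff_gcd_eq_one.2 (by simpa [hn, hd, Int.gcd] using x.reduced)
  have hsq : IsSquare (n ^ 4 + 294 * n ^ 2 * d ^ 2 - 343 * d ^ 4) := by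
    rw [← Rat.isSquare_intCast_iff]
    refine ⟨y * (d : ℚ) ^ 2, ?_⟩
    push_cast; rw [hud]; linear_combination ((d : ℚ) ^ 4) * h
  obtain ⟨w, hw⟩ := hsq
  exact quarticSeven_coprime _ n d w rfl hco hd0 (by rw [hw]; ring)

/-- The exponent seven. -/
theorem no_seventh_powers {a b c : ℤ} (ha : a ≠ 0) (hb : b ≠ 0) (hc : c ≠ 0)
    (h : a ^ 7 + b ^ 7 = c ^ 7) :
    False := by
  have hab : a + b ≠ 0 → a + b - c ≠ 0 := by
    intro hab e
    have h1 : a * b * (a + b) * (a ^ 2 + a * b + b ^ 2) ^ 2 = 0 := by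
      have h' : 7 * (a * b * (a + b) * (a ^ 2 + a * b + b ^ 2) ^ 2) = 0 := by
        rw [show c = a + b by omega] at h; linear_combination -h
      simpa using h'
    have hpos : a ^ 2 + a * b + b ^ 2 ≠ 0 := by
      have : 0 < a * a + a * b + b * b := by
        nlinarith [sq_nonneg (a + b), mul_self_pos.2 ha, mul_self_pos.2 hb]
      intro e'; rw [show a * a + a * b + b * b = a ^ 2 + a * b + b ^ 2 by ring] at this; omega
    exact mul_ne_zero (mul_ne_zero (mul_ne_zero ha hb) hab) (pow_ne_zero 2 hpos) h1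
  have hp : a + b - c ≠ 0 := by
    by_cases e : a + b = 0
    · intro e'
      exact hc (by omega)
    · exact hab e
  obtain ⟨p, hpd⟩ : ∃ p : ℚ, p = (a : ℚ) + b - c := ⟨_, rfl⟩
  have hp0 : p ≠ 0 := by rw [hpd]; exact_mod_cast hp
  have hq : (a : ℚ) ^ 7 + (b : ℚ) ^ 7 = (c : ℚ) ^ 7 := by exact_mod_cast h
  obtain ⟨u, hu⟩ : ∃ u : ℚ, u = ((a : ℚ) * b - b * c - c * a) / p ^ 2 := ⟨_, rfl⟩
  obtain ⟨v, hv⟩ : ∃ v : ℚ, v = ((a : ℚ) + b) * (b - c) * (a - c) / p ^ 3 := ⟨_, rfl⟩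
  have key : 7 * v * ((1 - u) ^ 2 + u - v) = 1 := by
    rw [hu, hv]
    field_simp
    rw [hpd]; linear_combination (-1 : ℚ) * hq
  refine quarticSeven_rat (7 * (2 * u - 1)) (196 * (2 * v - (u ^ 2 - u + 1))) ?_
  linear_combination (21952 : ℚ) * key

end Fermat.Agent.Mazur
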