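import Mathlib.AlgebraicGeometry.EllipticCurve.Affine.Point
import Mathlib.Tactic

/-!
# Tate normal form at a point

`IsTate E x y u l b c` says that the substitution
`(X, Y) ↦ (x + u²X, y + l u²X + u³Y)` carries `Y² + (1-c)XY - bY = X³ - bX²` to `E`
(the constant coefficient follows from `(x, y)` being on `E`).
-/

set_option autoImplicit false

namespace Fermat.Agent.Mazur

open WeierstrassCurve

variable {K : Type*} [Field K]

/-- `E` in Tate normal form at `(x, y)`. -/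
structure IsTate (E : WeierstrassCurve K) (x y u l b c : K) : Prop where
  u0 : u ≠ 0
  b0 : b ≠ 0
  a1 : E.a₁ = (1 - c) * u - 2 * l
  a2 : E.a₂ = -b * u ^ 2 - 3 * x + l * E.a₁ + l ^ 2
  a3 : E.a₃ = -b * u ^ 3 - 2 * y - E.a₁ * x
  a4 : E.a₄ = l * (-b * u ^ 3) - 3 * x ^ 2 - 2 * E.a₂ * x + E.a₁ * y
  a6 : E.a₆ = y ^ 2 + E.a₁ * x * y + E.a₃ * y - x ^ 3 - E.a₂ * x ^ 2 - E.a₄ * x

/-- The Tate normal curve. -/
def tateCurve (b c : K) : WeierstrassCurve K := ⟨1 - c, -b, -b, 0, 0⟩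

namespace IsTate

variable {E : WeierstrassCurve K} {x y u l b c : K}

theorem ext_eq (h : IsTate E x y u l b c) {u' l' b' c' : K} (h' : IsTate E x y u' l' b' c') :
    u = u' ∧ l = l' ∧ b = b' ∧ c = c' := by
  have e3 : b * u ^ 3 = b' * u' ^ 3 := by linear_combination h.a3 - h'.a3
  have hne : b * u ^ 3 ≠ 0 := mul_ne_zero h.b0 (pow_ne_zero 3 h.u0)
  have el : l = l' := mul_right_cancel₀ hne (by linear_combination h.a4 - h'.a4 - l' * e3)
  subst el
  have e2 : b * u ^ 2 = b' * u' ^ 2 := by linear_combination h.a2 - h'.a2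
  have eu : u = u' := mul_left_cancel₀ (mul_ne_zero h.b0 (pow_ne_zero 2 h.u0))
    (by linear_combination e3 - u' * e2)
  subst eu
  refine ⟨rfl, rfl, mul_right_cancel₀ (pow_ne_zero 2 h.u0) e2, ?_⟩
  exact mul_right_cancel₀ h.u0 (by linear_combination h.a1 - h'.a1)

theorem c4_eq (h : IsTate E x y u l b c) : E.c₄ = u ^ 4 * (tateCurve b c).c₄ := by
  simp only [WeierstrassCurve.c₄, b₂, b₄, tateCurve, h.a4, h.a3, h.a2, h.a1]
  ring

theorem delta_eq (h : IsTate E x y u l b c) : E.Δ = u ^ 12 * (tateCurve b c).Δ := by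
  simp only [WeierstrassCurve.Δ, b₂, b₄, b₆, b₈, tateCurve, h.a6, h.a4, h.a3, h.a2, h.a1]
  ring

theorem map {L : Type*} [Field L] (h : IsTate E x y u l b c) (f : K →+* L) :
    IsTate (E.map f) (f x) (f y) (f u) (f l) (f b) (f c) where
  u0 := (map_ne_zero f).2 h.u0
  b0 := (map_ne_zero f).2 h.b0
  a1 := by simpa [map_ofNat] using congrArg f h.a1
  a2 := by simpa [map_ofNat] using congrArg f h.a2
  a3 := by simpa [map_ofNat] using congrArg f h.a3
  a4 := by simpa [map_ofNat] using congrArg f h.a4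
  a6 := by simpa [map_ofNat] using congrArg f h.a6

end IsTate

variable [DecidableEq K]

/-- `P` is the image of `(X, Y)` under the substitution. -/
def AtPt (E : WeierstrassCurve K) (x y u l X Y : K) (P : E.toAffine.Point) : Prop :=
  ∃ h, P = Affine.Point.some (x + u ^ 2 * X) (y + l * u ^ 2 * X + u ^ 3 * Y) h

namespace IsTate

variable {E : WeierstrassCurve K} {x y u l b c : K}

omit [DecidableEq K] in
theorem X_ne_of_ne (_h : IsTate E x y u l b c) {P Q : E.toAffine.Point} {X₁ Y₁ X₂ Y₂ : K}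
    (hP : AtPt E x y u l X₁ Y₁ P) (hQ : AtPt E x y u l X₂ Y₂ Q) (h1 : P ≠ Q) (h2 : P ≠ -Q) :
    X₁ ≠ X₂ := by
  rintro rfl
  obtain ⟨_, rfl⟩ := hP
  obtain ⟨_, rfl⟩ := hQ
  rcases Affine.Point.X_eq_iff.1 (rfl : x + u ^ 2 * X₁ = x + u ^ 2 * X₁) with h | h
  · exact h1 h
  · exact h2 h

omit [DecidableEq K] in
theorem atPt_origin {h0 : E.toAffine.Nonsingular x y} :
    AtPt E x y u l 0 0 (Affine.Point.some x y h0) := by
  refine ⟨by simpa using h0, ?_⟩
  simp

/-- Chord addition, read in the Tate normal form. -/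
theorem add_chord (h : IsTate E x y u l b c) {P Q : E.toAffine.Point} {X₁ Y₁ X₂ Y₂ L X₃ Y₃ : K}
    (hP : AtPt E x y u l X₁ Y₁ P) (hQ : AtPt E x y u l X₂ Y₂ Q) (hX : X₁ ≠ X₂)
    (hL : L * (X₁ - X₂) = Y₁ - Y₂) (hX₃ : X₃ = L ^ 2 + (1 - c) * L + b - X₁ - X₂)
    (hY₃ : Y₃ = -(L * (X₃ - X₁) + Y₁) - (1 - c) * X₃ + b) :
    AtPt E x y u l X₃ Y₃ (P + Q) := by
  obtain ⟨h₁, rfl⟩ := hP
  obtain ⟨h₂, rfl⟩ := hQ
  have hu := h.u0
  have hx : x + u ^ 2 * X₁ ≠ x + u ^ 2 * X₂ := fun e =>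
    hX (mul_left_cancel₀ (pow_ne_zero 2 hu) (add_left_cancel e))
  have hs : E.toAffine.slope (x + u ^ 2 * X₁) (x + u ^ 2 * X₂) (y + l * u ^ 2 * X₁ + u ^ 3 * Y₁)
      (y + l * u ^ 2 * X₂ + u ^ 3 * Y₂) = l + u * L := by
    rw [Affine.slope_of_X_ne hx, div_eq_iff (sub_ne_zero.2 hx)]
    linear_combination -u ^ 3 * hL
  have eX : E.toAffine.addX (x + u ^ 2 * X₁) (x + u ^ 2 * X₂) (l + u * L) = x + u ^ 2 * X₃ := by
    simp only [Affine.addX, hX₃, h.a2, h.a1]; ring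
  have eY : E.toAffine.addY (x + u ^ 2 * X₁) (x + u ^ 2 * X₂) (y + l * u ^ 2 * X₁ + u ^ 3 * Y₁)
      (l + u * L) = y + l * u ^ 2 * X₃ + u ^ 3 * Y₃ := by
    simp only [Affine.addY, Affine.negAddY, eX, Affine.negY, hY₃, h.a3, h.a1]; ring
  have hn := Affine.nonsingular_add h₁ h₂ (fun hh => hx hh.1)
  rw [hs, eX, eY] at hn
  refine ⟨hn, ?_⟩
  rw [Affine.Point.add_of_X_ne hx]
  simp only [hs, eX, eY]

/-- Tangent addition, read in the Tate normal form. -/
theorem add_tangent (h : IsTate E x y u l b c) {P : E.toAffine.Point} {X₁ Y₁ L X₃ Y₃ : K}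
    (hP : AtPt E x y u l X₁ Y₁ P) (hne : P ≠ -P)
    (hL : L * (2 * Y₁ + (1 - c) * X₁ - b) = 3 * X₁ ^ 2 - 2 * b * X₁ - (1 - c) * Y₁)
    (hX₃ : X₃ = L ^ 2 + (1 - c) * L + b - X₁ - X₁)
    (hY₃ : Y₃ = -(L * (X₃ - X₁) + Y₁) - (1 - c) * X₃ + b) :
    AtPt E x y u l X₃ Y₃ (P + P) := by
  obtain ⟨h₁, rfl⟩ := hP
  have hy : y + l * u ^ 2 * X₁ + u ^ 3 * Y₁ ≠
      E.toAffine.negY (x + u ^ 2 * X₁) (y + l * u ^ 2 * X₁ + u ^ 3 * Y₁) := by
    intro e
    apply hne
    rw [Affine.Point.neg_some]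
    simp only [Affine.Point.some.injEq, true_and]
    exact e
  have hs : E.toAffine.slope (x + u ^ 2 * X₁) (x + u ^ 2 * X₁) (y + l * u ^ 2 * X₁ + u ^ 3 * Y₁)
      (y + l * u ^ 2 * X₁ + u ^ 3 * Y₁) = l + u * L := by
    rw [Affine.slope_of_Y_ne rfl hy, div_eq_iff (sub_ne_zero.2 hy)]
    simp only [Affine.negY, h.a4, h.a3, h.a2, h.a1]
    linear_combination -u ^ 4 * hL
  have eX : E.toAffine.addX (x + u ^ 2 * X₁) (x + u ^ 2 * X₁) (l + u * L) = x + u ^ 2 * X₃ := by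
    simp only [Affine.addX, hX₃, h.a2, h.a1]; ring
  have eY : E.toAffine.addY (x + u ^ 2 * X₁) (x + u ^ 2 * X₁) (y + l * u ^ 2 * X₁ + u ^ 3 * Y₁)
      (l + u * L) = y + l * u ^ 2 * X₃ + u ^ 3 * Y₃ := by
    simp only [Affine.addY, Affine.negAddY, eX, Affine.negY, hY₃, h.a3, h.a1]; ring
  have hn := Affine.nonsingular_add h₁ h₁ (fun hh => hy hh.2)
  rw [hs, eX, eY] at hn
  refine ⟨hn, ?_⟩
  rw [Affine.Point.add_self_of_Y_ne hy]
  simp only [hs, eX, eY]

end IsTate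

/-- Existence of the Tate normal form at a point that is neither of order two nor three. -/
theorem exists_isTate {E : WeierstrassCurve K} {x y : K} (h0 : E.toAffine.Nonsingular x y)
    (h2 : (2 : ℕ) • (Affine.Point.some x y h0) ≠ 0)
    (h3 : (3 : ℕ) • (Affine.Point.some x y h0) ≠ 0) :
    ∃ u l b c, IsTate E x y u l b c := by
  set P := Affine.Point.some x y h0 with hP
  have hy : y ≠ E.toAffine.negY x y := by
    intro e; apply h2; rw [two_nsmul, hP]; exact Affine.Point.add_self_of_Y_eq e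
  set A3 := 2 * y + E.a₁ * x + E.a₃ with hA3
  have hA3' : A3 ≠ 0 := by
    intro e; apply hy; simp only [Affine.negY]; linear_combination e
  set l := (3 * x ^ 2 + 2 * E.a₂ * x + E.a₄ - E.a₁ * y) / A3 with hl
  set α := 3 * x + E.a₂ - l * E.a₁ - l ^ 2 with hα
  have hs : E.toAffine.slope x x y y = l := by
    rw [Affine.slope_of_Y_ne rfl hy, hl, hA3]; simp only [Affine.negY]; ring
  have hα' : α ≠ 0 := by
    intro e
    have hdbl := Affine.Point.add_self_of_Y_ne (h₁ := h0) hy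
    have hx : E.toAffine.addX x x (E.toAffine.slope x x y y) = x := by
      rw [hs]; simp only [Affine.addX]; linear_combination (-1 : K) * e
    generalize hR : Affine.Point.some (E.toAffine.addX x x (E.toAffine.slope x x y y))
      (E.toAffine.addY x x y (E.toAffine.slope x x y y)) _ = R at hdbl
    rw [← hR] at hdbl
    rcases (Affine.Point.X_eq_iff (h₂ := h0)).1 hx with h | h
    · rw [← hdbl, ← hP] at h
      exact Affine.Point.some_ne_zero h0 (by simpa using h)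
    · rw [← hdbl, ← hP] at h
      apply h3
      rw [show (3 : ℕ) • P = (P + P) + P by abel, h, neg_add_cancel]
  have heq := (Affine.equation_iff x y).1 h0.1
  refine ⟨A3 / α, l, -α ^ 3 / A3 ^ 2, 1 - (E.a₁ + 2 * l) * α / A3,
    div_ne_zero hA3' hα', div_ne_zero (neg_ne_zero.2 (pow_ne_zero 3 hα')) (pow_ne_zero 2 hA3'),
    ?_, ?_, ?_, ?_, by linear_combination (-1 : K) * heq⟩
  · field_simp; ring
  · field_simp; rw [hα]; ring
  · field_simp; rw [hA3]; ring
  · have hl' : l * A3 = 3 * x ^ 2 + 2 * E.a₂ * x + E.a₄ - E.a₁ * y := by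
      rw [hl]; field_simp
    field_simp
    linear_combination (-1 : K) * hl'

end Fermat.Agent.Mazur
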