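import Fermat.Agent.Mazur.Eleven
import Fermat.Agent.Mazur.ElevenMain
import Fermat.Agent.EC.Rep
import Fermat.Agent.Galois.Places

/-!
# Functions of the Tate normal form on a stable line

A function `f b c` invariant under `P ↦ 2 • P` takes a rational value at a generator of a
Galois-stable line of `E[p]`, if `±2` powers exhaust the units mod `p`.
-/

set_option autoImplicit false

namespace Fermat.Agent.Mazur

open WeierstrassCurve WeierstrassCurve.Affine.Point
open scoped WeierstrassCurve.Affine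

section Field

variable {K : Type*} [Field K] [DecidableEq K] {E : WeierstrassCurve K}

omit [DecidableEq K] in
theorem IsTate.neg {x y u l b c : K} (h : IsTate E x y u l b c) :
    IsTate E x (E.toAffine.negY x y) (-u) (-(l + E.a₁)) b c where
  u0 := neg_ne_zero.2 h.u0
  b0 := h.b0
  a1 := by linear_combination (-1 : K) * h.a1
  a2 := by linear_combination h.a2
  a3 := by simp only [Affine.negY]; linear_combination (-1 : K) * h.a3
  a4 := by simp only [Affine.negY]; linear_combination h.a4 + E.a₁ * h.a3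
  a6 := by simp only [Affine.negY]; linear_combination h.a6

/-- `t` is the value of `f` at the Tate normal form at the point `P` of order `p`. -/
def TateVal (p : ℕ) (f : K → K → K) (P : E.toAffine.Point) (t : K) : Prop :=
  ∃ x y h0 u l b c, P = Affine.Point.some x y h0 ∧ addOrderOf P = p ∧ IsTate E x y u l b c ∧
    t = f b c

variable {p : ℕ} {f : K → K → K}

theorem TateVal.exists_val (hp : 3 < p) (P : E.toAffine.Point) (hP : addOrderOf P = p) :
    ∃ t, TateVal p f P t := by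
  match P, hP with
  | .zero, hP => exact absurd (addOrderOf_zero.symm.trans hP) (by omega)
  | .some x y h0, hP =>
    have hne : ∀ k : ℕ, 0 < k → k < p → k • (Affine.Point.some x y h0) ≠ 0 := fun k hk hk' =>
      nsmul_ne_zero_of_lt_addOrderOf hk.ne' (hP ▸ hk')
    obtain ⟨u, l, b, c, h⟩ := exists_isTate h0 (hne 2 (by omega) (by omega))
      (hne 3 (by omega) hp)
    exact ⟨_, x, y, h0, u, l, b, c, rfl, hP, h, rfl⟩

theorem TateVal.unique {P : E.toAffine.Point} {t t' : K} (h : TateVal p f P t)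
    (h' : TateVal p f P t') : t = t' := by
  obtain ⟨x, y, h0, u, l, b, c, e, -, hT, rfl⟩ := h
  obtain ⟨x', y', h0', u', l', b', c', e', -, hT', rfl⟩ := h'
  rw [e, Affine.Point.some.injEq] at e'
  obtain ⟨rfl, rfl⟩ := e'
  obtain ⟨-, -, rfl, rfl⟩ := hT.ext_eq hT'
  rfl

theorem TateVal.neg {P : E.toAffine.Point} {t : K} (h : TateVal p f P t) :
    TateVal p f (-P) t := by
  obtain ⟨x, y, h0, u, l, b, c, rfl, hP, hT, rfl⟩ := h
  refine ⟨_, _, _, _, _, _, _, Affine.Point.neg_some _, ?_, hT.neg, rfl⟩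
  rw [addOrderOf_neg]; exact hP

theorem TateVal.pow_two (hp : Nat.Coprime p 2)
    (hd : ∀ {Q : E.toAffine.Point} {t : K}, TateVal p f Q t → TateVal p f ((2 : ℕ) • Q) t)
    {P : E.toAffine.Point} {t : K} (h : TateVal p f P t) (i : ℕ) :
    TateVal p f ((2 ^ i) • P) t := by
  have : Nat.Coprime p 2 := hp
  induction i with
  | zero => rwa [pow_zero, one_nsmul]
  | succ i ih => rw [pow_succ, mul_comm, mul_nsmul']; exact hd ih

end Field

local notation "Qbar" => AlgebraicClosure ℚ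

variable (E : WeierstrassCurve ℚ) {p : ℕ} {f : Qbar → Qbar → Qbar}

theorem TateVal.map (hf : ∀ (σ : Qbar ≃ₐ[ℚ] Qbar) (b c : Qbar), σ (f b c) = f (σ b) (σ c))
    {σ : Qbar ≃ₐ[ℚ] Qbar} {P : (E⁄Qbar).toAffine.Point} {t : Qbar} (h : TateVal p f P t) :
    TateVal p f (σ • P : (E⁄Qbar).toAffine.Point) (σ t) := by
  obtain ⟨x, y, h0, u, l, b, c, rfl, hP, hT, rfl⟩ := h
  have hE : (E⁄Qbar).map (σ : Qbar →+* Qbar) = (E⁄Qbar) := by
    ext <;> simp [WeierstrassCurve.baseChange]
  have hT' : IsTate (E⁄Qbar) (σ x) (σ y) (σ u) (σ l) (σ b) (σ c) := by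
    have h' := hT.map (σ : Qbar →+* Qbar)
    convert h' using 1 <;> first | exact hE.symm | rfl
  obtain ⟨h', e'⟩ : ∃ h', σ • (Affine.Point.some x y h0 : (E⁄Qbar).toAffine.Point) =
      Affine.Point.some (σ x) (σ y) h' := ⟨_, rfl⟩
  refine ⟨_, _, h', _, _, _, _, e', ?_, hT', hf σ b c⟩
  exact (addOrderOf_injective (DistribSMul.toAddMonoidHom (E⁄Qbar).toAffine.Point σ)
    (MulAction.injective σ) _).trans hP

/-- An invariant function takes a rational value on a Galois-stable line. -/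
theorem exists_rat_val [hp : Fact (Nat.Prime p)] (hp3 : 3 < p)
    (gen : ∀ k : ZMod p, k ≠ 0 → ∃ i : ℕ, k = ((2 ^ i : ℕ) : ZMod p) ∨ k = -((2 ^ i : ℕ) : ZMod p))
    (hf : ∀ (σ : Qbar ≃ₐ[ℚ] Qbar) (b c : Qbar), σ (f b c) = f (σ b) (σ c))
    (hd : ∀ {Q : (E⁄Qbar).toAffine.Point} {t : Qbar}, TateVal p f Q t →
      TateVal p f ((2 : ℕ) • Q) t)
    (hΔ : E.Δ ≠ 0)
    {N : Submodule (ZMod p) (Submodule.torsionBy ℤ (E.toAffine⁄Qbar).Point (p : ℕ))}
    (hN : IsGaloisStable ℚ N) (hb : N ≠ ⊥) (ht : N ≠ ⊤) :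
    ∃ (q : ℚ) (x y u l b c : Qbar) (h0 : (E⁄Qbar).toAffine.Nonsingular x y),
      addOrderOf (Affine.Point.some x y h0) = p ∧ IsTate (E⁄Qbar) x y u l b c ∧
      algebraMap ℚ Qbar q = f b c ∧ algebraMap ℚ Qbar E.c₄ = u ^ 4 * c4T b c ∧
      algebraMap ℚ Qbar E.Δ = u ^ 12 * deltaT b c := by
  have : (E.toAffine⁄Qbar).IsElliptic := by
    rw [WeierstrassCurve.isElliptic_iff, isUnit_iff_ne_zero]
    simpa [WeierstrassCurve.baseChange, WeierstrassCurve.map_Δ] using hΔ
  have h1 := Fermat.Agent.EC.finrank_eq_one_of_ne E.toAffine p hb ht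
  obtain ⟨P, hPN, hP0⟩ := (Submodule.ne_bot_iff N).1 hb
  have hord : addOrderOf (P : (E.toAffine⁄Qbar).Point) = p := by
    refine addOrderOf_eq_prime ?_ (fun h => hP0 (Subtype.ext h))
    rw [← natCast_zsmul]; exact (Submodule.mem_torsionBy_iff _ _).1 P.2
  obtain ⟨t, hR⟩ := TateVal.exists_val (E := (E⁄Qbar)) (f := f) hp3
    (P : (E.toAffine⁄Qbar).Point) hord
  have hcop : Nat.Coprime p 2 := (Nat.coprime_primes hp.out Nat.prime_two).2 (by omega)
  have fixed : ∀ σ : Qbar ≃ₐ[ℚ] Qbar, σ t = t := by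
    intro σ
    obtain ⟨k, hk⟩ := Fermat.Agent.EC.exists_smul_eq E.toAffine p hN h1 σ hPN hP0
    have hk0 : k ≠ 0 := by
      rintro rfl
      rw [zero_smul] at hk
      exact hP0 ((MulAction.injective σ) (hk.trans (smul_zero σ).symm))
    have hσ := TateVal.map E hf (σ := σ) hR
    obtain ⟨i, hi | hi⟩ := gen k hk0
    · rw [hi, Nat.cast_smul_eq_nsmul] at hk
      have hk' : σ • (P : (E.toAffine⁄Qbar).Point) = (2 ^ i) • (P : (E.toAffine⁄Qbar).Point) :=
        congrArg Subtype.val hk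
      rw [hk'] at hσ
      exact hσ.unique (hR.pow_two hcop hd i)
    · rw [hi, neg_smul, Nat.cast_smul_eq_nsmul] at hk
      have hk' : σ • (P : (E.toAffine⁄Qbar).Point) = -((2 ^ i) • (P : (E.toAffine⁄Qbar).Point)) :=
        congrArg Subtype.val hk
      rw [hk'] at hσ
      exact hσ.unique (hR.pow_two hcop hd i).neg
  obtain ⟨q, hq⟩ := exists_rat_of_fixed fixed
  obtain ⟨x, y, h0, u, l, b, c, e, -, hT, et⟩ := hR
  refine ⟨q, x, y, u, l, b, c, h0, ?_, hT, hq.trans et, ?_, ?_⟩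
  · rw [← e]; exact hord
  · rw [show c4T b c = (tateCurve b c).c₄ by
        simp only [tateCurve, WeierstrassCurve.c₄, b₂, b₄, c4T]; ring, ← hT.c4_eq]
    simp [WeierstrassCurve.baseChange, WeierstrassCurve.map_c₄]
  · rw [show deltaT b c = (tateCurve b c).Δ by
        simp only [tateCurve, WeierstrassCurve.Δ, b₂, b₄, b₆, b₈, deltaT]; ring, ← hT.delta_eq]
    simp [WeierstrassCurve.baseChange, WeierstrassCurve.map_Δ]

end Fermat.Agent.Mazur
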