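import Mathlib.Tactic

/-!
The identity `j = (t² + 5t + 13)(t⁴ + 7t³ + 20t² + 19t + 1)³ / t` on the optimised model
`y² + (x³ + x² + 1) y = x² + x` of `X₁(13)`, where `t = -(x³ + 4x² + x - 1) / (x² + x)`.
-/

set_option autoImplicit false
set_option maxHeartbeats 1000000

namespace Fermat.Agent.Mazur

variable {K : Type*} [Field K] [CharZero K]

theorem thirteen_identity {x y B C D : K} (hG : y ^ 2 + (x ^ 3 + x ^ 2 + 1) * y - x ^ 2 - x = 0)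
    (hD : D = ((1 * x ^ 2 + 2 * x + 1))) (hC : C = ((-1 * x ^ 3 - 1 * x ^ 2) + (1 * x ^ 4 + 1 * x ^ 3 - 1 * x ^ 2) * y)) (hB : B = ((-1 * x ^ 7 - 2 * x ^ 6 + 1 * x ^ 4 - 1 * x ^ 3 - 1 * x ^ 2) + (1 * x ^ 8 + 2 * x ^ 7 + 3 * x ^ 4 + 1 * x ^ 3 - 1 * x ^ 2) * y)) :
    ∃ L M : K, ((D - C) ^ 2 - 4 * B * D) ^ 2 - 24 * (-((D - C) * B) * D ^ 2) = (1 * x ^ 12 + 9 * x ^ 11 + 29 * x ^ 10 + 40 * x ^ 9 + 22 * x ^ 8 + 16 * x ^ 7 + 40 * x ^ 6 + 22 * x ^ 5 - 23 * x ^ 4 - 25 * x ^ 3 - 4 * x ^ 2 + 3 * x + 1) * L ∧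
      ((D - C) ^ 2 - 4 * B * D) ^ 2 * (B ^ 2 * B) - 8 * ((-((D - C) * B)) ^ 2 * -((D - C) * B) * D)
        - 27 * (B ^ 2 * B ^ 2 * D ^ 3) + 9 * (((D - C) ^ 2 - 4 * B * D) * -((D - C) * B) * B ^ 2 * D)
        = x ^ 13 * (x + 1) ^ 3 * (x ^ 3 + 4 * x ^ 2 + x - 1) * M ∧
      L ^ 3 = -((1 * x ^ 6 + 3 * x ^ 5 + 6 * x ^ 4 + 7 * x ^ 3 + 6 * x ^ 2 + 3 * x + 1) * M) := by
  have eB2 : (D - C) ^ 2 - 4 * B * D = ((1 * x ^ 10 + 7 * x ^ 9 + 17 * x ^ 8 + 17 * x ^ 7 + 4 * x ^ 6 + 1 * x ^ 5 + 16 * x ^ 4 + 22 * x ^ 3 + 12 * x ^ 2 + 4 * x + 1) + (-1 * x ^ 11 - 7 * x ^ 10 - 17 * x ^ 9 - 18 * x ^ 8 - 11 * x ^ 7 - 18 * x ^ 6 - 32 * x ^ 5 - 19 * x ^ 4 + 6 * x ^ 3 + 6 * x ^ 2) * y) := by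
    rw [hB, hC, hD]; linear_combination ((1 * x ^ 8 + 2 * x ^ 7 - 1 * x ^ 6 - 2 * x ^ 5 + 1 * x ^ 4)) * hG
  have eB4 : -((D - C) * B) = ((1 * x ^ 14 + 4 * x ^ 13 + 4 * x ^ 12 - 1 * x ^ 11 + 2 * x ^ 10 + 11 * x ^ 9 + 7 * x ^ 8 - 1 * x ^ 7 + 2 * x ^ 5 + 3 * x ^ 4 + 3 * x ^ 3 + 1 * x ^ 2) + (-1 * x ^ 15 - 4 * x ^ 14 - 4 * x ^ 13 - 6 * x ^ 11 - 15 * x ^ 10 - 6 * x ^ 9 - 8 * x ^ 7 - 8 * x ^ 6 - 5 * x ^ 5 - 3 * x ^ 4 + 1 * x ^ 3 + 1 * x ^ 2) * y) := by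
    rw [hB, hC, hD]; linear_combination ((1 * x ^ 12 + 3 * x ^ 11 + 1 * x ^ 10 - 2 * x ^ 9 + 3 * x ^ 8 + 4 * x ^ 7 - 3 * x ^ 6 - 2 * x ^ 5 + 1 * x ^ 4)) * hG
  have eB22 : ((D - C) ^ 2 - 4 * B * D) ^ 2 = ((1 * x ^ 24 + 15 * x ^ 23 + 97 * x ^ 22 + 357 * x ^ 21 + 838 * x ^ 20 + 1379 * x ^ 19 + 1899 * x ^ 18 + 2780 * x ^ 17 + 4140 * x ^ 16 + 4845 * x ^ 15 + 3993 * x ^ 14 + 3012 * x ^ 13 + 3436 * x ^ 12 + 3704 * x ^ 11 + 1972 * x ^ 10 - 85 * x ^ 9 - 238 * x ^ 8 + 674 * x ^ 7 + 992 * x ^ 6 + 694 * x ^ 5 + 352 * x ^ 4 + 140 * x ^ 3 + 40 * x ^ 2 + 8 * x + 1) + (-1 * x ^ 25 - 15 * x ^ 24 - 97 * x ^ 23 - 358 * x ^ 22 - 853 * x ^ 21 - 1476 * x ^ 20 - 2256 * x ^ 19 - 3617 * x ^ 18 - 5505 * x ^ 17 - 6661 * x ^ 16 - 6500 * x ^ 15 - 6603 * x ^ 14 - 7562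 * x ^ 13 - 6956 * x ^ 12 - 4039 * x ^ 11 - 1959 * x ^ 10 - 2108 * x ^ 9 - 2153 * x ^ 8 - 1062 * x ^ 7 - 136 * x ^ 6 + 120 * x ^ 5 + 118 * x ^ 4 + 60 * x ^ 3 + 12 * x ^ 2) * y) := by
    rw [eB2]; linear_combination ((1 * x ^ 22 + 14 * x ^ 21 + 83 * x ^ 20 + 274 * x ^ 19 + 563 * x ^ 18 + 802 * x ^ 17 + 1014 * x ^ 16 + 1494 * x ^ 15 + 2111 * x ^ 14 + 2098 * x ^ 13 + 1424 * x ^ 12 + 1150 * x ^ 11 + 1360 * x ^ 10 + 868 * x ^ 9 - 239 * x ^ 8 - 612 * x ^ 7 - 192 * x ^ 6 + 72 * x ^ 5 + 36 * x ^ 4)) * hG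
  have eb2 : B ^ 2 = ((1 * x ^ 18 + 5 * x ^ 17 + 8 * x ^ 16 + 4 * x ^ 15 + 7 * x ^ 14 + 24 * x ^ 13 + 20 * x ^ 12 - 4 * x ^ 11 + 3 * x ^ 10 + 21 * x ^ 9 + 6 * x ^ 8 - 9 * x ^ 7 - 2 * x ^ 6 + 3 * x ^ 5 + 1 * x ^ 4) + (-1 * x ^ 19 - 5 * x ^ 18 - 8 * x ^ 17 - 5 * x ^ 16 - 12 * x ^ 15 - 32 * x ^ 14 - 24 * x ^ 13 - 2 * x ^ 12 - 23 * x ^ 11 - 37 * x ^ 10 - 3 * x ^ 9 + 8 * x ^ 8 - 9 * x ^ 7 - 6 * x ^ 6 + 2 * x ^ 5 + 1 * x ^ 4) * y) := by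
    rw [hB]; linear_combination ((1 * x ^ 16 + 4 * x ^ 15 + 4 * x ^ 14 + 6 * x ^ 12 + 14 * x ^ 11 + 2 * x ^ 10 - 4 * x ^ 9 + 9 * x ^ 8 + 6 * x ^ 7 - 5 * x ^ 6 - 2 * x ^ 5 + 1 * x ^ 4)) * hG
  have eb3 : B ^ 2 * B = ((-1 * x ^ 29 - 8 * x ^ 28 - 25 * x ^ 27 - 39 * x ^ 26 - 47 * x ^ 25 - 104 * x ^ 24 - 206 * x ^ 23 - 203 * x ^ 22 - 139 * x ^ 21 - 282 * x ^ 20 - 432 * x ^ 19 - 206 * x ^ 18 - 18 * x ^ 17 - 234 * x ^ 16 - 285 * x ^ 15 + 14 * x ^ 14 + 91 * x ^ 13 - 66 * x ^ 12 - 69 * x ^ 11 + 19 * x ^ 10 + 24 * x ^ 9 - 2 * x ^ 8 - 5 * x ^ 7 - 1 * x ^ 6) + (1 * x ^ 30 + 8 * x ^ 29 + 25 * x ^ 28 + 40 * x ^ 27 + 55 * x ^ 26 + 129 * x ^ 25 + 245 * x ^ 24 + 249 * x ^ 23 + 236 * x ^ 22 + 470 * x ^ 21 + 615 * x ^ 20 + 327 * x ^ 19 + 246 * x ^ 18 + 570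 * x ^ 17 + 441 * x ^ 16 - 2 * x ^ 15 + 53 * x ^ 14 + 232 * x ^ 13 + 64 * x ^ 12 - 65 * x ^ 11 - 3 * x ^ 10 + 26 * x ^ 9 + 3 * x ^ 8 - 4 * x ^ 7 - 1 * x ^ 6) * y) := by
    rw [eb2, hB]; linear_combination ((-1 * x ^ 27 - 7 * x ^ 26 - 18 * x ^ 25 - 21 * x ^ 24 - 25 * x ^ 23 - 72 * x ^ 22 - 116 * x ^ 21 - 68 * x ^ 20 - 60 * x ^ 19 - 186 * x ^ 18 - 169 * x ^ 17 + 4 * x ^ 16 - 40 * x ^ 15 - 156 * x ^ 14 - 33 * x ^ 13 + 63 * x ^ 12 - 14 * x ^ 11 - 35 * x ^ 10 + 9 * x ^ 9 + 11 * x ^ 8 - 1 * x ^ 7 - 1 * x ^ 6)) * hG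
  have eb4 : B ^ 2 * B ^ 2 = ((1 * x ^ 40 + 11 * x ^ 39 + 51 * x ^ 38 + 131 * x ^ 37 + 229 * x ^ 36 + 412 * x ^ 35 + 890 * x ^ 34 + 1549 * x ^ 33 + 1908 * x ^ 32 + 2440 * x ^ 31 + 4116 * x ^ 30 + 5416 * x ^ 29 + 4559 * x ^ 28 + 4576 * x ^ 27 + 7222 * x ^ 26 + 7006 * x ^ 25 + 2995 * x ^ 24 + 2725 * x ^ 23 + 5403 * x ^ 22 + 3279 * x ^ 21 - 618 * x ^ 20 + 205 * x ^ 19 + 1931 * x ^ 18 + 546 * x ^ 17 - 741 * x ^ 16 - 149 * x ^ 15 + 339 * x ^ 14 + 88 * x ^ 13 - 88 * x ^ 12 - 34 * x ^ 11 + 10 * x ^ 10 + 7 * x ^ 9 + 1 * x ^ 8) + (-1 * x ^ 41 - 11 * x ^ 40 - 51 * x ^ 39 - 132 * x ^ 38 - 240 * x ^ 37 - 463 * x ^ 36 - 1021 * x ^ 35 - 1777 * x ^ 34 - 2310 * x ^ 33 - 3289 * x ^ 32 - 5576 * x ^ 31 - 7196 * x ^ 30 - 6776 * x ^ 29 - 8196 * x ^ 28 - 11890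 * x ^ 27 - 10874 * x ^ 26 - 6723 * x ^ 25 - 8331 * x ^ 24 - 10679 * x ^ 23 - 5502 * x ^ 22 - 1239 * x ^ 21 - 3640 * x ^ 20 - 3938 * x ^ 19 - 225 * x ^ 18 + 685 * x ^ 17 - 733 * x ^ 16 - 604 * x ^ 15 + 183 * x ^ 14 + 168 * x ^ 13 - 50 * x ^ 12 - 43 * x ^ 11 + 3 * x ^ 10 + 6 * x ^ 9 + 1 * x ^ 8) * y) := by
    rw [eb2]; linear_combination ((1 * x ^ 38 + 10 * x ^ 37 + 41 * x ^ 36 + 90 * x ^ 35 + 138 * x ^ 34 + 264 * x ^ 33 + 585 * x ^ 32 + 876 * x ^ 31 + 914 * x ^ 30 + 1344 * x ^ 29 + 2364 * x ^ 28 + 2420 * x ^ 27 + 1612 * x ^ 26 + 2460 * x ^ 25 + 3668 * x ^ 24 + 2032 * x ^ 23 + 543 * x ^ 22 + 2014 * x ^ 21 + 2233 * x ^ 20 + 26 * x ^ 19 - 305 * x ^ 18 + 838 * x ^ 17 + 466 * x ^ 16 - 302 * x ^ 15 - 101 * x ^ 14 + 134 * x ^ 13 + 16 * x ^ 12 -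 42 * x ^ 11 - 8 * x ^ 10 + 4 * x ^ 9 + 1 * x ^ 8)) * hG
  have eB42 : (-((D - C) * B)) ^ 2 = ((1 * x ^ 32 + 9 * x ^ 31 + 32 * x ^ 30 + 56 * x ^ 29 + 61 * x ^ 28 + 114 * x ^ 27 + 282 * x ^ 26 + 378 * x ^ 25 + 280 * x ^ 24 + 390 * x ^ 23 + 814 * x ^ 22 + 863 * x ^ 21 + 514 * x ^ 20 + 570 * x ^ 19 + 903 * x ^ 18 + 850 * x ^ 17 + 549 * x ^ 16 + 344 * x ^ 15 + 283 * x ^ 14 + 322 * x ^ 13 + 281 * x ^ 12 + 113 * x ^ 11 - 7 * x ^ 10 - 23 * x ^ 9 + 19 * x ^ 7 + 18 * x ^ 6 + 7 * x ^ 5 + 1 * x ^ 4) + (-1 * x ^ 33 - 9 * x ^ 32 - 32 * x ^ 31 - 57 * x ^ 30 - 70 * x ^ 29 - 146 * x ^ 28 - 338 * x ^ 27 - 438 * x ^ 26 - 386 * x ^ 25 - 648 * x ^ 24 - 1161 * x ^ 23 - 1123 * x ^ 22 - 850 * x ^ 21 - 1235 * x ^ 20 - 1618 * x ^ 19 - 1318 * x ^ 18 - 1008 * x ^ 17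 - 960 * x ^ 16 - 888 * x ^ 15 - 782 * x ^ 14 - 551 * x ^ 13 - 261 * x ^ 12 - 147 * x ^ 11 - 128 * x ^ 10 - 85 * x ^ 9 - 40 * x ^ 8 - 5 * x ^ 7 + 10 * x ^ 6 + 6 * x ^ 5 + 1 * x ^ 4) * y) := by
    rw [eB4]; linear_combination ((1 * x ^ 30 + 8 * x ^ 29 + 24 * x ^ 28 + 32 * x ^ 27 + 28 * x ^ 26 + 78 * x ^ 25 + 180 * x ^ 24 + 168 * x ^ 23 + 100 * x ^ 22 + 260 * x ^ 21 + 435 * x ^ 20 + 290 * x ^ 19 + 194 * x ^ 18 + 350 * x ^ 17 + 380 * x ^ 16 + 274 * x ^ 15 + 202 * x ^ 14 + 122 * x ^ 13 + 102 * x ^ 12 + 116 * x ^ 11 + 57 * x ^ 10 - 2 * x ^ 9 - 17 * x ^ 8 - 16 * x ^ 7 - 5 * x ^ 6 + 2 * x ^ 5 + 1 * x ^ 4)) * hG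
  have eB43 : (-((D - C) * B)) ^ 2 * -((D - C) * B) = ((1 * x ^ 50 + 14 * x ^ 49 + 85 * x ^ 48 + 293 * x ^ 47 + 654 * x ^ 46 + 1168 * x ^ 45 + 2330 * x ^ 44 + 5004 * x ^ 43 + 8621 * x ^ 42 + 11836 * x ^ 41 + 17656 * x ^ 40 + 30388 * x ^ 39 + 43554 * x ^ 38 + 49635 * x ^ 37 + 62170 * x ^ 36 + 91230 * x ^ 35 + 111732 * x ^ 34 + 110561 * x ^ 33 + 120234 * x ^ 32 + 149484 * x ^ 31 + 159947 * x ^ 30 + 144303 * x ^ 29 + 133782 * x ^ 28 + 134672 * x ^ 27 + 129614 * x ^ 26 + 110962 * x ^ 25 + 84726 * x ^ 24 + 64147 * x ^ 23 + 54042 * x ^ 22 + 44413 * x ^ 21 + 29728 * x ^ 20 + 16005 * x ^ 19 + 8213 * x ^ 18 + 5465 * x ^ 17 + 4406 * x ^ 16 + 2678 * x ^ 15 + 677 * x ^ 14 - 347 * x ^ 13 - 367 * x ^ 12 - 62 * x ^ 11 + 120 * x ^ 10 + 116 * x ^ 9 + 50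 * x ^ 8 + 11 * x ^ 7 + 1 * x ^ 6) + (-1 * x ^ 51 - 14 * x ^ 50 - 85 * x ^ 49 - 294 * x ^ 48 - 668 * x ^ 47 - 1253 * x ^ 46 - 2623 * x ^ 45 - 5657 * x ^ 44 - 9776 * x ^ 43 - 14094 * x ^ 42 - 22440 * x ^ 41 - 38590 * x ^ 40 - 54739 * x ^ 39 - 65976 * x ^ 38 - 89727 * x ^ 37 - 130470 * x ^ 36 - 156390 * x ^ 35 - 165294 * x ^ 34 - 198084 * x ^ 33 - 244080 * x ^ 32 - 254364 * x ^ 31 - 244497 * x ^ 30 - 252459 * x ^ 29 - 260430 * x ^ 28 - 245261 * x ^ 27 - 215506 * x ^ 26 - 183209 * x ^ 25 - 156717 * x ^ 24 - 134482 * x ^ 23 - 105541 * x ^ 22 - 73310 * x ^ 21 - 49588 * x ^ 20 - 34774 * x ^ 19 - 23967 * x ^ 18 - 14859 * x ^ 17 - 7310 * x ^ 16 - 2692 * x ^ 15 - 1090 * x ^ 14 - 755 * x ^ 13 - 510 * x ^ 12 - 214 * x ^ 11 + 2 * x ^ 10 + 66 * x ^ 9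 + 39 * x ^ 8 + 10 * x ^ 7 + 1 * x ^ 6) * y) := by
    rw [eB42, eB4]; linear_combination ((1 * x ^ 48 + 13 * x ^ 47 + 72 * x ^ 46 + 221 * x ^ 45 + 432 * x ^ 44 + 723 * x ^ 43 + 1535 * x ^ 42 + 3250 * x ^ 41 + 4965 * x ^ 40 + 6292 * x ^ 39 + 10268 * x ^ 38 + 17693 * x ^ 37 + 22102 * x ^ 36 + 23532 * x ^ 35 + 33312 * x ^ 34 + 47830 * x ^ 33 + 50256 * x ^ 32 + 48422 * x ^ 31 + 59325 * x ^ 30 + 69656 * x ^ 29 + 65466 * x ^ 28 + 59125 * x ^ 27 + 57805 * x ^ 26 + 55461 * x ^ 25 + 49979 * x ^ 24 + 40518 * x ^ 23 + 29533 * x ^ 22 + 22957 * x ^ 21 + 18944 * x ^ 20 + 13320 * x ^ 19 + 7629 * x ^ 18 + 3739 * x ^ 17 + 1733 * x ^ 16 + 1113 * x ^ 15 + 710 * x ^ 14 + 134 * x ^ 13 - 196 * x ^ 12 - 216 * x ^ 11 - 113 * x ^ 10 - 18 * x ^ 9 + 13 * x ^ 8 + 7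 * x ^ 7 + 1 * x ^ 6)) * hG
  have eB24 : ((D - C) ^ 2 - 4 * B * D) * -((D - C) * B) = ((1 * x ^ 28 + 12 * x ^ 27 + 60 * x ^ 26 + 163 * x ^ 25 + 272 * x ^ 24 + 359 * x ^ 23 + 601 * x ^ 22 + 1097 * x ^ 21 + 1403 * x ^ 20 + 1228 * x ^ 19 + 1305 * x ^ 18 + 2028 * x ^ 17 + 2244 * x ^ 16 + 1405 * x ^ 15 + 826 * x ^ 14 + 1108 * x ^ 13 + 1233 * x ^ 12 + 749 * x ^ 11 + 185 * x ^ 10 - 79 * x ^ 9 - 28 * x ^ 8 + 119 * x ^ 7 + 144 * x ^ 6 + 78 * x ^ 5 + 27 * x ^ 4 + 7 * x ^ 3 + 1 * x ^ 2) + (-1 * x ^ 29 - 12 * x ^ 28 - 60 * x ^ 27 - 164 * x ^ 26 - 284 * x ^ 25 - 419 * x ^ 24 - 764 * x ^ 23 - 1368 * x ^ 22 - 1751 * x ^ 21 - 1780 * x ^ 20 - 2289 * x ^ 19 - 3285 * x ^ 18 - 3330 * x ^ 17 - 2462 * x ^ 16 - 2376 * x ^ 15 - 2850 * x ^ 14 - 2395 * x ^ 13 - 1375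 * x ^ 12 - 789 * x ^ 11 - 578 * x ^ 10 - 481 * x ^ 9 - 350 * x ^ 8 - 127 * x ^ 7 + 16 * x ^ 6 + 29 * x ^ 5 + 13 * x ^ 4 + 5 * x ^ 3 + 1 * x ^ 2) * y) := by
    rw [eB2, eB4]; linear_combination ((1 * x ^ 26 + 11 * x ^ 25 + 49 * x ^ 24 + 114 * x ^ 23 + 157 * x ^ 22 + 191 * x ^ 21 + 361 * x ^ 20 + 624 * x ^ 19 + 644 * x ^ 18 + 491 * x ^ 17 + 677 * x ^ 16 + 996 * x ^ 15 + 778 * x ^ 14 + 353 * x ^ 13 + 359 * x ^ 12 + 460 * x ^ 11 + 289 * x ^ 10 + 66 * x ^ 9 - 71 * x ^ 8 - 99 * x ^ 7 - 31 * x ^ 6 + 12 * x ^ 5 + 6 * x ^ 4)) * hG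
  obtain ⟨L, hL⟩ : ∃ L, L = ((1 * x ^ 12 + 6 * x ^ 11 + 14 * x ^ 10 + 17 * x ^ 9 + 17 * x ^ 8 + 25 * x ^ 7 + 33 * x ^ 6 + 26 * x ^ 5 + 10 * x ^ 4 + 2 * x ^ 3 + 5 * x ^ 2 + 5 * x + 1) + (-1 * x ^ 13 - 6 * x ^ 12 - 14 * x ^ 11 - 18 * x ^ 10 - 23 * x ^ 9 - 39 * x ^ 8 - 50 * x ^ 7 - 42 * x ^ 6 - 30 * x ^ 5 - 26 * x ^ 4 - 24 * x ^ 3 - 12 * x ^ 2) * y) := ⟨_, rfl⟩
  obtain ⟨M, hM⟩ : ∃ M, M = ((-1 * x ^ 38 - 17 * x ^ 37 - 130 * x ^ 36 - 594 * x ^ 35 - 1850 * x ^ 34 - 4433 * x ^ 33 - 9472 * x ^ 32 - 19776 * x ^ 31 - 38523 * x ^ 30 - 65998 * x ^ 29 - 103899 * x ^ 28 - 162334 * x ^ 27 - 244185 * x ^ 26 - 329821 * x ^ 25 - 414705 * x ^ 24 - 526456 * x ^ 23 - 644506 * x ^ 22 - 700102 * x ^ 21 - 715957 * x ^ 20 - 759308 * x ^ 19 - 761607 * x ^ 18 - 653151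 * x ^ 17 - 540002 * x ^ 16 - 483312 * x ^ 15 - 386900 * x ^ 14 - 246404 * x ^ 13 - 160395 * x ^ 12 - 121632 * x ^ 11 - 73023 * x ^ 10 - 29671 * x ^ 9 - 13704 * x ^ 8 - 9156 * x ^ 7 - 4011 * x ^ 6 - 672 * x ^ 5 + 12 * x ^ 4 - 58 * x ^ 3 - 48 * x ^ 2 - 12 * x - 1) + (1 * x ^ 39 + 17 * x ^ 38 + 130 * x ^ 37 + 595 * x ^ 36 + 1867 * x ^ 35 + 4563 * x ^ 34 + 10066 * x ^ 33 + 21625 * x ^ 32 + 42940 * x ^ 31 + 75356 * x ^ 30 + 123196 * x ^ 29 + 199504 * x ^ 28 + 307249 * x ^ 27 + 427889 * x ^ 26 + 565404 * x ^ 25 + 749377 * x ^ 24 + 941178 * x ^ 23 + 1066876 * x ^ 22 + 1171208 * x ^ 21 + 1303706 * x ^ 20 + 1340971 * x ^ 19 + 1232287 * x ^ 18 + 1134676 * x ^ 17 + 1059855 * x ^ 16 + 868328 * x ^ 15 + 632334 * x ^ 14 + 488108 * x ^ 13 + 370820 * x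 ^ 12 + 227355 * x ^ 11 + 125583 * x ^ 10 + 79128 * x ^ 9 + 45555 * x ^ 8 + 18918 * x ^ 7 + 6888 * x ^ 6 + 3120 * x ^ 5 + 1302 * x ^ 4 + 324 * x ^ 3 + 36 * x ^ 2) * y) := ⟨_, rfl⟩
  refine ⟨L, M, ?_, ?_, ?_⟩
  · rw [eB22, eB4, hD, hL]; linear_combination (0) * hG
  · rw [eB24, eB43, eB22, eb3, eb4, eb2, hD, hM]; linear_combination ((-1 * x ^ 55 - 23 * x ^ 54 - 242 * x ^ 53 - 1549 * x ^ 52 - 6797 * x ^ 51 - 22075 * x ^ 50 - 57053 * x ^ 49 - 127345 * x ^ 48 - 263172 * x ^ 47 - 512230 * x ^ 46 - 917725 * x ^ 45 - 1505033 * x ^ 44 - 2326005 * x ^ 43 - 3461667 * x ^ 42 - 4873398 * x ^ 41 - 6362743 * x ^ 40 - 7846076 * x ^ 39 - 9374347 * x ^ 38 - 10637061 * x ^ 37 - 11066400 * x ^ 36 - 10711798 * x ^ 35 - 10009317 * x ^ 34 - 8656198 * x ^ 33 -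 6226977 * x ^ 32 - 3502480 * x ^ 31 - 1368361 * x ^ 30 + 582909 * x ^ 29 + 2638590 * x ^ 28 + 3897532 * x ^ 27 + 3990659 * x ^ 26 + 3807869 * x ^ 25 + 3733899 * x ^ 24 + 3198694 * x ^ 23 + 2199067 * x ^ 22 + 1458680 * x ^ 21 + 1142913 * x ^ 20 + 804221 * x ^ 19 + 354174 * x ^ 18 + 84222 * x ^ 17 + 39420 * x ^ 16 + 32607 * x ^ 15 - 2644 * x ^ 14 - 20631 * x ^ 13 - 13298 * x ^ 12 - 3835 * x ^ 11 - 250 * x ^ 10 + 405 * x ^ 9 + 276 * x ^ 8 + 81 * x ^ 7 + 9 * x ^ 6)) * hG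
  · have eL2 : L ^ 2 = ((1 * x ^ 28 + 13 * x ^ 27 + 76 * x ^ 26 + 268 * x ^ 25 + 663 * x ^ 24 + 1328 * x ^ 23 + 2458 * x ^ 22 + 4342 * x ^ 21 + 6935 * x ^ 20 + 9809 * x ^ 19 + 12846 * x ^ 18 + 16211 * x ^ 17 + 19255 * x ^ 16 + 20668 * x ^ 15 + 20209 * x ^ 14 + 18872 * x ^ 13 + 16963 * x ^ 12 + 13802 * x ^ 11 + 9704 * x ^ 10 + 6198 * x ^ 9 + 3986 * x ^ 8 + 2456 * x ^ 7 + 1150 * x ^ 6 + 316 * x ^ 5 + 65 * x ^ 4 + 54 * x ^ 3 + 35 * x ^ 2 + 10 * x + 1) + (-1 * x ^ 29 - 13 * x ^ 28 - 76 * x ^ 27 - 269 * x ^ 26 - 676 * x ^ 25 - 1404 * x ^ 24 - 2726 * x ^ 23 - 5004 * x ^ 22 - 8251 * x ^ 21 - 12203 * x ^ 20 - 16985 * x ^ 19 - 22700 * x ^ 18 - 28270 * x ^ 17 - 32181 * x ^ 16 - 34262 * x ^ 15 - 35024 * x ^ 14 - 33782 * x ^ 13 - 29636 * x ^ 12 - 23726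 * x ^ 11 - 18092 * x ^ 10 - 13184 * x ^ 9 - 8578 * x ^ 8 - 4716 * x ^ 7 - 2324 * x ^ 6 - 1184 * x ^ 5 - 556 * x ^ 4 - 168 * x ^ 3 - 24 * x ^ 2) * y) := by
      rw [hL]; linear_combination ((1 * x ^ 26 + 12 * x ^ 25 + 64 * x ^ 24 + 204 * x ^ 23 + 458 * x ^ 22 + 858 * x ^ 21 + 1536 * x ^ 20 + 2604 * x ^ 19 + 3897 * x ^ 18 + 5182 * x ^ 17 + 6533 * x ^ 16 + 7952 * x ^ 15 + 8908 * x ^ 14 + 8936 * x ^ 13 + 8328 * x ^ 12 + 7544 * x ^ 11 + 6420 * x ^ 10 + 4776 * x ^ 9 + 3124 * x ^ 8 + 1968 * x ^ 7 + 1200 * x ^ 6 + 576 * x ^ 5 + 144 * x ^ 4)) * hG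
    rw [pow_succ, eL2, hL, hM]; linear_combination ((1 * x ^ 42 + 19 * x ^ 41 + 168 * x ^ 40 + 925 * x ^ 39 + 3611 * x ^ 38 + 10932 * x ^ 37 + 27761 * x ^ 36 + 63027 * x ^ 35 + 132126 * x ^ 34 + 256547 * x ^ 33 + 460983 * x ^ 32 + 774338 * x ^ 31 + 1231365 * x ^ 30 + 1859545 * x ^ 29 + 2658754 * x ^ 28 + 3604001 * x ^ 27 + 4660044 * x ^ 26 + 5763867 * x ^ 25 + 6799807 * x ^ 24 + 7636082 * x ^ 23 + 8187348 * x ^ 22 + 8406438 * x ^ 21 + 8243472 * x ^ 20 + 7683214 * x ^ 19 + 6807932 * x ^ 18 + 5756778 * x ^ 17 + 4637358 * x ^ 16 + 3526416 * x ^ 15 + 2517416 * x ^ 14 + 1695640 * x ^ 13 + 1080816 * x ^ 12 + 641048 * x ^ 11 + 344752 * x ^ 10 + 168088 * x ^ 9 + 76808 * x ^ 8 + 32640 * x ^ 7 + 11328 * x ^ 6 + 2592 * x ^ 5 + 288 * x ^ 4)) * hG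

end Fermat.Agent.Mazur
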