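import Fermat.Agent.Mazur.TateInvariant
import Fermat.Agent.Mazur.ThirteenIdentity

/-!
# Elliptic curves with a Galois-stable line in `E[13]`

The `j`-invariant lies in the image of `X₀(13) ≅ ℙ¹`.
-/

set_option autoImplicit false

namespace Fermat.Agent.Mazur

open WeierstrassCurve

section Field

variable {K : Type*} [Field K]

/-- Raw equation of `X₁(13)`. -/
def Raw13 (r s : K) : Prop :=
  r ^ 3 - r ^ 2 * s ^ 4 + 5 * r ^ 2 * s ^ 3 - 9 * r ^ 2 * s ^ 2 + 4 * r ^ 2 * s - 2 * r ^ 2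
    - r * s ^ 3 + 6 * r * s ^ 2 - 3 * r * s + r - s ^ 3 = 0

/-- The abscissa on the model `y² + (x³ + x² + 1) y = x² + x`. -/
def X13 (r s : K) : K := (1 - r) * (1 - s) / (s - r)

/-- The parameter on `X₀(13)`. -/
def T13 (x : K) : K := -(x ^ 3 + 4 * x ^ 2 + x - 1) / (x * (x + 1))

/-- The parameter on `X₀(13)` as a function of the Tate normal form. -/
def f13 (b c : K) : K := T13 (X13 (b / c) (c ^ 2 / (b - c)))

theorem f13_map {L : Type*} [Field L] {F : Type*} [FunLike F K L] [RingHomClass F K L] (σ : F)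
    (b c : K) : σ (f13 b c) = f13 (σ b) (σ c) := by
  simp [f13, T13, X13, map_div₀, map_ofNat]

variable [DecidableEq K] [CharZero K] {E : WeierstrassCurve K}

theorem tate_thirteen {x y u l b c : K} (h : IsTate E x y u l b c)
    {h0 : E.toAffine.Nonsingular x y} (hP : addOrderOf (Affine.Point.some x y h0) = 13) :
    c ≠ 0 ∧ b - c ≠ 0 ∧ ∃ r s : K, b = r * s * (r - 1) ∧ c = s * (r - 1) ∧ r = b / c ∧
      s = c ^ 2 / (b - c) ∧ r - 1 ≠ 0 ∧ s - 1 ≠ 0 ∧ r - s ≠ 0 ∧ r * s - 2 * r + 1 ≠ 0 ∧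
      Raw13 r s := by
  set P := Affine.Point.some x y h0 with hPdef
  have ne : ∀ i j : ℕ, ¬ 13 ∣ i + j → ¬ ((13 : ℕ) : ℤ) ∣ (i : ℤ) - j →
      i • P ≠ j • P ∧ i • P ≠ -(j • P) := fun i j => nsmul_ne_of_order hP
  have ne2 : P ≠ -P := by
    intro e
    have : (2 : ℕ) • P = 0 := by rw [two_nsmul]; nth_rewrite 1 [e]; exact neg_add_cancel _
    exact nsmul_ne_zero_of_lt_addOrderOf two_ne_zero (by rw [hP]; norm_num) this
  have p1 : AtPt E x y u l 0 0 P := IsTate.atPt_origin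
  have p1' : AtPt E x y u l 0 0 ((1 : ℕ) • P) := by rw [one_nsmul]; exact p1
  have p2 : AtPt E x y u l b (b * c) ((2 : ℕ) • P) := by
    rw [two_nsmul]
    exact h.add_tangent p1 ne2 (L := 0) (by ring) (by ring) (by ring)
  have x21 := h.X_ne_of_ne p2 p1' (ne 2 1 (by norm_num) (by norm_num)).1
    (ne 2 1 (by norm_num) (by norm_num)).2
  have p3 : AtPt E x y u l c (b - c) ((3 : ℕ) • P) := by
    rw [show (3 : ℕ) • P = (2 : ℕ) • P + P by abel]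
    exact h.add_chord p2 p1 x21 (L := c) (by ring) (by ring) (by ring)
  have hc : c ≠ 0 := h.X_ne_of_ne p3 p1' (ne 3 1 (by norm_num) (by norm_num)).1
    (ne 3 1 (by norm_num) (by norm_num)).2
  have hbc : b - c ≠ 0 := sub_ne_zero.2 (h.X_ne_of_ne p2 p3 (ne 2 3 (by norm_num) (by norm_num)).1
    (ne 2 3 (by norm_num) (by norm_num)).2)
  obtain ⟨s, hs⟩ : ∃ s, s = c ^ 2 / (b - c) := ⟨_, rfl⟩
  obtain ⟨r, hr⟩ : ∃ r, r = b / c := ⟨_, rfl⟩
  have hs0 : s ≠ 0 := hs ▸ div_ne_zero (pow_ne_zero 2 hc) hbc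
  have hr0 : r ≠ 0 := hr ▸ div_ne_zero h.b0 hc
  have hr1 : r - 1 ≠ 0 := by rw [hr, div_sub_one hc]; exact div_ne_zero hbc hc
  have ec : c = s * (r - 1) := by rw [hs, hr]; field_simp
  have eb : b = r * s * (r - 1) := by rw [hs, hr]; field_simp
  have p4 : AtPt E x y u l (r * (r - 1)) (r ^ 2 * (c - r + 1)) ((4 : ℕ) • P) := by
    rw [show (4 : ℕ) • P = (3 : ℕ) • P + P by abel]
    exact h.add_chord p3 p1 hc (L := r - 1) (by rw [eb, ec]; ring) (by rw [eb, ec]; ring)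
      (by rw [eb, ec]; ring)
  have p5 : AtPt E x y u l (r * s * (s - 1)) (r * s ^ 2 * (r - s)) ((5 : ℕ) • P) := by
    rw [show (5 : ℕ) • P = (4 : ℕ) • P + P by abel]
    exact h.add_chord p4 p1 (mul_ne_zero hr0 hr1) (L := r * (c - r + 1) / (r - 1))
      (by field_simp; ring) (by rw [eb, ec]; field_simp; ring) (by rw [eb, ec]; field_simp; ring)
  have x5 := h.X_ne_of_ne p5 p1' (ne 5 1 (by norm_num) (by norm_num)).1
    (ne 5 1 (by norm_num) (by norm_num)).2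
  have hs1 : s - 1 ≠ 0 := right_ne_zero_of_mul x5
  have p6 : AtPt E x y u l (s * (r - 1) * (r - s) / (s - 1) ^ 2)
      (s ^ 2 * (r - 1) ^ 2 * (r * s - 2 * r + 1) / (s - 1) ^ 3) ((6 : ℕ) • P) := by
    rw [show (6 : ℕ) • P = (5 : ℕ) • P + P by abel]
    exact h.add_chord p5 p1 x5 (L := s * (r - s) / (s - 1))
      (by field_simp; ring) (by rw [eb, ec]; field_simp; ring) (by rw [eb, ec]; field_simp; ring)
  have x6 := h.X_ne_of_ne p6 p1' (ne 6 1 (by norm_num) (by norm_num)).1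
    (ne 6 1 (by norm_num) (by norm_num)).2
  have hrs : r - s ≠ 0 := by intro e; apply x6; rw [e, mul_zero, zero_div]
  have x62 := h.X_ne_of_ne p6 p2 (ne 6 2 (by norm_num) (by norm_num)).1
    (ne 6 2 (by norm_num) (by norm_num)).2
  have hN : r * s - 2 * r + 1 ≠ 0 := by
    intro e
    apply x62
    rw [eb]; field_simp
    linear_combination (-s) * e
  obtain ⟨L, hL⟩ : ∃ L, L = s * (r - 1) * (r * s - 2 * r + 1) / ((s - 1) * (r - s)) := ⟨_, rfl⟩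
  obtain ⟨X7, hX7⟩ : ∃ X7, X7 = L ^ 2 + (1 - c) * L + b - s * (r - 1) * (r - s) / (s - 1) ^ 2 - 0 :=
    ⟨_, rfl⟩
  obtain ⟨Y7, hY7⟩ : ∃ Y7, Y7 = -(L * (X7 - s * (r - 1) * (r - s) / (s - 1) ^ 2)
      + s ^ 2 * (r - 1) ^ 2 * (r * s - 2 * r + 1) / (s - 1) ^ 3) - (1 - c) * X7 + b := ⟨_, rfl⟩
  have p7 : AtPt E x y u l X7 Y7 ((7 : ℕ) • P) := by
    rw [show (7 : ℕ) • P = (6 : ℕ) • P + P by abel]
    exact h.add_chord p6 p1 x6 (L := L) (by rw [hL]; field_simp; ring) hX7 hY7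
  have h67 : (7 : ℕ) • P = -((6 : ℕ) • P) := by
    apply eq_neg_of_add_eq_zero_left
    rw [← add_nsmul, show 7 + 6 = 13 from rfl, ← hP, addOrderOf_nsmul_eq_zero]
  obtain ⟨_, e6⟩ := p6
  obtain ⟨_, e7⟩ := p7
  rw [e6, e7, Affine.Point.neg_some, Affine.Point.some.injEq] at h67
  have hx := mul_left_cancel₀ (pow_ne_zero 2 h.u0) (add_left_cancel h67.1)
  refine ⟨hc, hbc, r, s, eb, ec, hr, hs, hr1, hs1, hrs, hN, ?_⟩
  rw [hX7, hL, eb, ec] at hx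
  unfold Raw13
  field_simp at hx
  have hne : s * (r - 1) ≠ 0 := mul_ne_zero hs0 hr1
  apply mul_left_cancel₀ hne
  linear_combination (-1 : K) * hx

theorem X13_spec {r s : K} (hr1 : r - 1 ≠ 0) (hs1 : s - 1 ≠ 0) (hrs : r - s ≠ 0)
    (hN : r * s - 2 * r + 1 ≠ 0) (hF : Raw13 r s) {X Y : K} (hX : X = X13 r s)
    (hY : Y = (s - r) / (1 - s)) :
    X ≠ 0 ∧ X + 1 ≠ 0 ∧ Y + 1 ≠ 0 ∧ r = 1 - X * Y ∧ s * (Y + 1) = Y + 1 - X * Y ∧
      Y ^ 2 + (X ^ 3 + X ^ 2 + 1) * Y - X ^ 2 - X = 0 := by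
  have h1 : s - r ≠ 0 := fun e => hrs (by linear_combination -e)
  have h2 : 1 - s ≠ 0 := fun e => hs1 (by linear_combination -e)
  have h3 : 1 - r ≠ 0 := fun e => hr1 (by linear_combination -e)
  refine ⟨?_, ?_, ?_, ?_, ?_, ?_⟩
  · rw [hX]; exact div_ne_zero (mul_ne_zero h3 h2) h1
  · intro e; apply hN; rw [hX] at e; unfold X13 at e; field_simp at e
    linear_combination e
  · intro e; apply h3; rw [hY] at e; field_simp at e; linear_combination e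
  · rw [hX, hY]; unfold X13; field_simp; ring
  · rw [hX, hY]; unfold X13; field_simp; ring
  · rw [hX, hY]; unfold X13; unfold Raw13 at hF; field_simp
    linear_combination (r - 1) * hF

theorem diamond_thirteen {r s N M r' s' : K} (hr1 : r - 1 ≠ 0) (hs0 : s ≠ 0) (hs1 : s - 1 ≠ 0)
    (hrs : r - s ≠ 0) (hN : N = (r - 1) * (2 - s) - (s - 1))
    (hM : M = -r * (s - 1) ^ 3 - s ^ 2 * N) (hN0 : N ≠ 0) (hM0 : M ≠ 0) (hF : Raw13 r s)
    (hr' : r' = -r * (s - 1) ^ 3 / (s ^ 2 * N)) (hs' : s' = N ^ 2 / ((r - 1) * M))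
    (hrs' : r' - s' ≠ 0) :
    T13 (X13 r' s') = T13 (X13 r s) := by
  have hX : X13 r s ≠ 0 := div_ne_zero (mul_ne_zero (fun e => hr1 (by linear_combination -e))
    (fun e => hs1 (by linear_combination -e))) (fun e => hrs (by linear_combination -e))
  have h1 : s - r ≠ 0 := fun e => hrs (by linear_combination -e)
  have h1' : s' - r' ≠ 0 := fun e => hrs' (by linear_combination -e)
  have hX1 : X13 r s + 1 ≠ 0 := by
    intro e; apply hN0; unfold X13 at e; field_simp at e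
    rw [hN]; linear_combination -e
  obtain ⟨D, hD⟩ : ∃ D, D = N ^ 3 * s ^ 2 + r * (s - 1) ^ 3 * (r - 1) * M := ⟨_, rfl⟩
  have esub : s' - r' = D / ((r - 1) * M * (s ^ 2 * N)) := by
    rw [hr', hs', hD]; field_simp; ring
  have hD0 : D ≠ 0 := by intro e; rw [e, zero_div] at esub; exact h1' esub
  have eX : X13 r' s' = -M * ((r - 1) * M - N ^ 2) / D := by
    have e1 : 1 - r' = -M / (s ^ 2 * N) := by rw [hr']; field_simp; rw [hM]; ring
    have e2 : 1 - s' = ((r - 1) * M - N ^ 2) / ((r - 1) * M) := by rw [hs']; field_simp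
    unfold X13; rw [esub, e1, e2]; field_simp
  have key : X13 r' s' = -(X13 r s + 1) / X13 r s := by
    rw [eq_div_iff hX, eX]
    have e3 : X13 r s + 1 = -N / (s - r) := by
      unfold X13; rw [hN]; field_simp; ring
    rw [e3]; unfold X13
    field_simp
    have poly : M * ((r - 1) * M - N ^ 2) * ((r - 1) * (s - 1)) + N * D = 0 := by
      subst hD hM hN; unfold Raw13 at hF
      linear_combination (r - s ^ 2 + s - 1) * hF
    linear_combination (-1 : K) * poly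
  rw [key]; unfold T13
  generalize X13 r s = X at hX hX1
  have : -(X + 1) / X + 1 = -1 / X := by field_simp; ring
  rw [this]
  field_simp
  ring

theorem TateVal.double_thirteen {P : E.toAffine.Point} {t : K}
    (h : TateVal 13 f13 P t) : TateVal 13 f13 ((2 : ℕ) • P) t := by
  obtain ⟨x, y, h0, u, l, b, c, rfl, hP, hT, rfl⟩ := h
  obtain ⟨hc, hbc, r, s, eb, ec, hr, hs, hr1, hs1, hrs, hN', hF⟩ := tate_thirteen hT hP
  have hs0 : s ≠ 0 := hs ▸ div_ne_zero (pow_ne_zero 2 hc) hbc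
  have hr0 : r ≠ 0 := hr ▸ div_ne_zero hT.b0 hc
  set P := Affine.Point.some x y h0
  have hne2 : P ≠ -P := by
    intro e
    have : (2 : ℕ) • P = 0 := by rw [two_nsmul]; nth_rewrite 1 [e]; exact neg_add_cancel _
    exact nsmul_ne_zero_of_lt_addOrderOf two_ne_zero (by rw [hP]; norm_num) this
  have p2 : AtPt E x y u l b (b * c) ((2 : ℕ) • P) := by
    rw [two_nsmul]
    exact hT.add_tangent IsTate.atPt_origin hne2 (L := 0) (by ring) (by ring) (by ring)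
  obtain ⟨h2, e2⟩ := p2
  have hord : addOrderOf ((2 : ℕ) • P) = 13 := by
    rw [addOrderOf_nsmul' _ two_ne_zero, hP]; rfl
  have hu := hT.u0
  have hT' : IsTate E (x + u ^ 2 * b) (y + l * u ^ 2 * b + u ^ 3 * (b * c))
      (u * (s ^ 2 * (r - 1)) / (s - 1)) (l + u * ((r - 1) * (1 + s)))
      (-r * (s - 1) ^ 3 / (s ^ 4 * (r - 1)))
      (((r - 1) * (2 - s) - (s - 1)) / (s ^ 2 * (r - 1))) := by
    refine ⟨div_ne_zero (mul_ne_zero hu (mul_ne_zero (pow_ne_zero 2 hs0) hr1)) hs1,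
      div_ne_zero (mul_ne_zero (neg_ne_zero.2 hr0) (pow_ne_zero 3 hs1))
        (mul_ne_zero (pow_ne_zero 4 hs0) hr1), ?_, ?_, ?_, ?_, ?_⟩
    · simp only [hT.a1, eb, ec]; field_simp; ring
    · simp only [hT.a2, hT.a1, eb, ec]; field_simp; ring
    · simp only [hT.a3, hT.a1, eb, ec]; field_simp; ring
    · simp only [hT.a4, hT.a2, hT.a1, eb, ec]; field_simp; ring
    · have := (Affine.equation_iff _ _).1 h2.1
      linear_combination (-1 : K) * this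
  obtain ⟨hc', hbc', r', s', -, -, er', es', -, -, hrs', -, -⟩ :=
    tate_thirteen hT' (h0 := h2) (by rw [← e2]; exact hord)
  obtain ⟨N, hN⟩ : ∃ N, N = (r - 1) * (2 - s) - (s - 1) := ⟨_, rfl⟩
  obtain ⟨M, hM⟩ : ∃ M, M = -r * (s - 1) ^ 3 - s ^ 2 * N := ⟨_, rfl⟩
  rw [← hN] at hc' hbc' hT' er' es'
  have hN0 : N ≠ 0 := by rintro rfl; exact hc' (zero_div _)
  have eM : -r * (s - 1) ^ 3 / (s ^ 4 * (r - 1)) - N / (s ^ 2 * (r - 1)) = M / (s ^ 4 * (r - 1)) := by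
    rw [hM]; field_simp
  have hM0 : M ≠ 0 := by intro e; rw [eM, e, zero_div] at hbc'; exact hbc' rfl
  refine ⟨_, _, h2, _, _, _, _, e2, hord, hT', ?_⟩
  unfold f13
  rw [← er', ← es', ← hr, ← hs]
  rw [eM] at es'
  refine (diamond_thirteen hr1 hs0 hs1 hrs hN hM hN0 hM0 hF ?_ ?_ hrs').symm
  · rw [er']; field_simp
  · rw [es']; field_simp

theorem j_thirteen {x y u l b c : K} (h : IsTate E x y u l b c)
    {h0 : E.toAffine.Nonsingular x y} (hP : addOrderOf (Affine.Point.some x y h0) = 13) :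
    c4T b c ^ 3 * f13 b c = (f13 b c ^ 2 + 5 * f13 b c + 13)
      * (f13 b c ^ 4 + 7 * f13 b c ^ 3 + 20 * f13 b c ^ 2 + 19 * f13 b c + 1) ^ 3
      * deltaT b c := by
  obtain ⟨hc, hbc, r, s, eb, ec, hr, hs, hr1, hs1, hrs, hN, hF⟩ := tate_thirteen h hP
  obtain ⟨X, hX⟩ : ∃ X, X = X13 r s := ⟨_, rfl⟩
  obtain ⟨Y, hY⟩ : ∃ Y, Y = (s - r) / (1 - s) := ⟨_, rfl⟩
  obtain ⟨hX0, hX1, hY1, erX, esX, hG⟩ := X13_spec hr1 hs1 hrs hN hF hX hY
  have hf : f13 b c = T13 X := by unfold f13; rw [hX, hr, hs]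
  have eC : c * (1 + X) ^ 2 =
      ((-1 * X ^ 3 - 1 * X ^ 2) + (1 * X ^ 4 + 1 * X ^ 3 - 1 * X ^ 2) * Y) := by
    apply mul_right_cancel₀ hY1
    rw [ec, erX]
    linear_combination (-(X * Y) * (1 + X) ^ 2) * esX + (-X) * hG
  have eB : b * (1 + X) ^ 2 =
      ((-1 * X ^ 7 - 2 * X ^ 6 + 1 * X ^ 4 - 1 * X ^ 3 - 1 * X ^ 2)
        + (1 * X ^ 8 + 2 * X ^ 7 + 3 * X ^ 4 + 1 * X ^ 3 - 1 * X ^ 2) * Y) := by
    rw [show b = r * c by rw [eb, ec]; ring, mul_assoc, eC, erX]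
    linear_combination (-X ^ 5 - X ^ 4 + X ^ 3) * hG
  obtain ⟨L, M, h4, hd, h3⟩ := thirteen_identity hG (D := (1 + X) ^ 2) (by ring) eC eB
  obtain ⟨D, hD⟩ : ∃ D, D = (1 + X) ^ 2 := ⟨_, rfl⟩
  have hD0 : D ≠ 0 := hD ▸ pow_ne_zero 2 (by rwa [add_comm])
  rw [← hD] at h4 hd
  have h4' : c4T b c = (1 * X ^ 12 + 9 * X ^ 11 + 29 * X ^ 10 + 40 * X ^ 9 + 22 * X ^ 8 + 16 * X ^ 7 + 40 * X ^ 6 + 22 * X ^ 5 - 23 * X ^ 4 - 25 * X ^ 3 - 4 * X ^ 2 + 3 * X + 1) * L / D ^ 4 := by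
    rw [eq_div_iff (pow_ne_zero 4 hD0), ← h4]; unfold c4T; ring
  have hd' : deltaT b c = X ^ 13 * (X + 1) ^ 3 * (X ^ 3 + 4 * X ^ 2 + X - 1) * M / D ^ 7 := by
    rw [eq_div_iff (pow_ne_zero 7 hD0), ← hd]; unfold deltaT; ring
  have hQ : T13 X ^ 2 + 5 * T13 X + 13 =
      (1 * X ^ 6 + 3 * X ^ 5 + 6 * X ^ 4 + 7 * X ^ 3 + 6 * X ^ 2 + 3 * X + 1)
        / (X * (X + 1)) ^ 2 := by
    unfold T13; field_simp; ring
  have hR : T13 X ^ 4 + 7 * T13 X ^ 3 + 20 * T13 X ^ 2 + 19 * T13 X + 1 =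
      (1 * X ^ 12 + 9 * X ^ 11 + 29 * X ^ 10 + 40 * X ^ 9 + 22 * X ^ 8 + 16 * X ^ 7 + 40 * X ^ 6 + 22 * X ^ 5 - 23 * X ^ 4 - 25 * X ^ 3 - 4 * X ^ 2 + 3 * X + 1)
        / (X * (X + 1)) ^ 4 := by
    unfold T13; field_simp; ring
  rw [hf, hQ, hR, h4', hd', div_pow _ (D ^ 4), mul_pow, h3, T13]
  generalize 1 * X ^ 6 + 3 * X ^ 5 + 6 * X ^ 4 + 7 * X ^ 3 + 6 * X ^ 2 + 3 * X + 1 = Q
  generalize 1 * X ^ 12 + 9 * X ^ 11 + 29 * X ^ 10 + 40 * X ^ 9 + 22 * X ^ 8 + 16 * X ^ 7 + 40 * X ^ 6 + 22 * X ^ 5 - 23 * X ^ 4 - 25 * X ^ 3 - 4 * X ^ 2 + 3 * X + 1 = R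
  rw [hD, add_comm (1 : K) X]
  generalize X ^ 3 + 4 * X ^ 2 + X - 1 = T
  generalize X + 1 = W at hX1 ⊢
  field_simp

end Field

theorem zmod_thirteen_gen : ∀ k : ZMod 13, k ≠ 0 →
    ∃ i : ℕ, k = ((2 ^ i : ℕ) : ZMod 13) ∨ k = -((2 ^ i : ℕ) : ZMod 13) := by
  have : ∀ k : ZMod 13, k ≠ 0 → ∃ i : Fin 12, k = ((2 ^ (i : ℕ) : ℕ) : ZMod 13) := by decide
  intro k hk
  obtain ⟨i, hi⟩ := this k hk
  exact ⟨i, Or.inl hi⟩

open WeierstrassCurve.Affine.Point in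
open scoped WeierstrassCurve.Affine in
/-- An elliptic curve over `ℚ` with a Galois-stable line in `E[13]`. -/
theorem stable_line_thirteen (E : WeierstrassCurve ℚ) (hΔ : E.Δ ≠ 0)
    {N : Submodule (ZMod 13)
      (Submodule.torsionBy ℤ (E.toAffine⁄(AlgebraicClosure ℚ)).Point (13 : ℕ))}
    (hN : IsGaloisStable ℚ N) (hb : N ≠ ⊥) (ht : N ≠ ⊤) :
    ∃ q : ℚ, E.c₄ ^ 3 * q =
      (q ^ 2 + 5 * q + 13) * (q ^ 4 + 7 * q ^ 3 + 20 * q ^ 2 + 19 * q + 1) ^ 3 * E.Δ := by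
  have : Fact (Nat.Prime 13) := ⟨by norm_num⟩
  obtain ⟨q, x, y, u, l, b, c, h0, hP, hT, hq, hc4, hd⟩ :=
    exists_rat_val E (p := 13) (f := f13) (by norm_num) zmod_thirteen_gen
      (fun σ b c => f13_map σ b c) (fun h => h.double_thirteen) hΔ hN hb ht
  refine ⟨q, (algebraMap ℚ (AlgebraicClosure ℚ)).injective ?_⟩
  simp only [map_pow, map_mul, map_add, map_ofNat, map_one, hq, hc4, hd]
  linear_combination u ^ 12 * j_thirteen hT hP

end Fermat.Agent.Mazur
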